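import Fermat.Agent.FormsManyVariables.Series

/-!
# The singular series of a representation

For `F x = N` the term at `q` carries the factor `e (- a N / q)`; the bounds for the complete sums
do not depend on it, so the series converges absolutely and uniformly in `N`.
-/

set_option autoImplicit false

noncomputable section

namespace FA.FormsManyVariables

open Finset FA.ThreePrimes FA.WaringAsymptotic FA.CubicForms MvPolynomial

variable {n : ℕ} (F : MvPolynomial (Fin n) ℤ)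

/-- The sum with the factor `e (- α N)`. -/
def repSum (P : ℕ) (N : ℤ) (α : ℝ) : ℂ := formSum F P α * eAdd (-(α * N))

theorem repSum_zero (P : ℕ) (α : ℝ) : repSum F P 0 α = formSum F P α := by simp [repSum]

theorem repSum_eq_sum (P : ℕ) (N : ℤ) (α : ℝ) :
    repSum F P N α = ∑ x ∈ cbox n P, eAdd (α * ((eval x F - N : ℤ) : ℝ)) := by
  rw [repSum, formSum, sum_mul]
  refine sum_congr rfl fun x _ => ?_
  rw [← eAdd_add]
  push_cast
  ring_nf

theorem norm_repSum_sub_le {m : ℕ} (hF : F.IsHomogeneous (m + 2)) {P B : ℕ} {N : ℤ}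
    (hN : |N| ≤ (B * P ^ (m + 2) : ℕ)) (α β : ℝ) :
    ‖repSum F P N α - repSum F P N β‖ ≤
      2 * Real.pi * ((formSize F : ℝ) + B) * (P : ℝ) ^ (m + 2) * ((2 * P + 1 : ℕ) : ℝ) ^ n *
        |α - β| := by
  rw [repSum_eq_sum, repSum_eq_sum, ← sum_sub_distrib]
  refine (norm_sum_le _ _).trans ((sum_le_card_nsmul _ _
    (2 * Real.pi * ((formSize F : ℝ) + B) * (P : ℝ) ^ (m + 2) * |α - β|) fun x hx => ?_).trans
      (le_of_eq ?_))
  · rw [mul_comm α, mul_comm β]
    refine (norm_eAdd_mul_sub_le _ _ _).trans ?_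
    have hz : |((eval x F - N : ℤ) : ℝ)| ≤ ((formSize F : ℝ) + B) * (P : ℝ) ^ (m + 2) := by
      have h1 := (abs_sub _ _).trans (add_le_add (abs_eval_le F hF (mem_cbox.1 hx)) hN)
      rw [add_mul]
      exact_mod_cast h1
    calc 2 * Real.pi * (|((eval x F - N : ℤ) : ℝ)| * |α - β|)
        ≤ 2 * Real.pi * (((formSize F : ℝ) + B) * (P : ℝ) ^ (m + 2) * |α - β|) := by gcongr
      _ = _ := by ring
  · rw [nsmul_eq_mul, card_cbox, Nat.cast_pow]; ring

/-- The term of the singular series of `F x = N`. -/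
def repTerm (N : ℤ) (q : ℕ) : ℂ :=
  ∑ a ∈ unitResidues q, completeSum F q a / (q : ℂ) ^ n * eAdd (-((a : ℝ) * N / q))

/-- The singular series of `F x = N`. -/
def repSeries (N : ℤ) : ℝ := (∑' q, repTerm F N q).re

theorem repTerm_eq_formTerm (q : ℕ) : repTerm F 0 q = formTerm F q := by
  simp [repTerm, formTerm]

theorem repSeries_zero : repSeries F 0 = singularSeries F := by
  simp only [repSeries, singularSeries, repTerm_eq_formTerm]

theorem repTerm_zero_modulus (N : ℤ) : repTerm F N 0 = 0 := by simp [repTerm, unitResidues]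

theorem repTerm_one (N : ℤ) : repTerm F N 1 = 1 := by
  have h := formTerm_one F
  have h2 : unitResidues 1 = {0} := by decide
  simp only [formTerm, h2, sum_singleton] at h
  simp [repTerm, h2] at h ⊢
  exact h

/-- **The terms decay uniformly in `N`.** -/
theorem exists_repTerm_le {m s : ℕ} (hF : F.IsHomogeneous (m + 2)) (hs : SingularDimLE F s)
    (hn : s + (m + 1) * 2 ^ (m + 2) < n) : ∃ C : ℝ, 0 < C ∧ ∀ (N : ℤ) (q : ℕ),
      ‖repTerm F N q‖ ≤ C * (q : ℝ) ^ (-1 - savingExp m / 2) := by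
  classical
  obtain ⟨C, hC, hle⟩ := exists_completeSum_le F hF hs hn
  refine ⟨C, hC, fun N q => ?_⟩
  rcases Nat.eq_zero_or_pos q with rfl | hq
  · rw [repTerm_zero_modulus, norm_zero]
    positivity
  refine (norm_sum_le _ _).trans ?_
  refine (sum_le_card_nsmul _ _ (C * (q : ℝ) ^ (-(2 + savingExp m / 2))) fun a ha => ?_).trans ?_
  · rw [norm_mul, norm_eAdd, mul_one, norm_div, norm_pow, Complex.norm_natCast]
    refine hle q a hq (Int.isCoprime_iff_nat_coprime.2 ?_)
    simpa using ((mem_filter.1 ha).2).symm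
  rw [nsmul_eq_mul]
  have hcard : ((unitResidues q).card : ℝ) ≤ q :=
    Nat.cast_le.2 ((card_filter_le _ _).trans (card_range q).le)
  refine (mul_le_mul_of_nonneg_right hcard (by positivity)).trans (le_of_eq ?_)
  rw [mul_left_comm, ← Real.rpow_one_add' (Nat.cast_nonneg q) (by
    have := savingExp_pos m; intro h; linarith)]
  congr 2
  ring

/-- **The tail of the series, uniformly in `N`.** -/
theorem exists_repTerm_tail {m s : ℕ} (hF : F.IsHomogeneous (m + 2)) (hs : SingularDimLE F s)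
    (hn : s + (m + 1) * 2 ^ (m + 2) < n) : ∃ C : ℝ, 0 < C ∧ ∀ N : ℤ,
      Summable (fun q => ‖repTerm F N q‖) ∧ ∑' q, ‖repTerm F N q‖ ≤ C ∧
      ∀ W : ℕ, 1 ≤ W → ‖∑' q, repTerm F N q - ∑ q ∈ Icc 1 W, repTerm F N q‖ ≤
        C * (W : ℝ) ^ (-(savingExp m / 4)) := by
  classical
  obtain ⟨C, hC, hterm⟩ := exists_repTerm_le F hF hs hn
  obtain ⟨e, he⟩ : ∃ e, e = savingExp m / 4 := ⟨_, rfl⟩
  have he0 : 0 < e := he ▸ by have := savingExp_pos m; positivity
  rw [← he]
  rw [show savingExp m / 2 = 2 * e by rw [he]; ring] at hterm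
  have hsum' : Summable fun q : ℕ => C * (q : ℝ) ^ (-1 - e) :=
    (Real.summable_nat_rpow.2 (by linarith)).mul_left C
  refine ⟨∑' q : ℕ, C * (q : ℝ) ^ (-1 - e) + 1, ?_, fun N => ?_⟩
  · have : 0 ≤ ∑' q : ℕ, C * (q : ℝ) ^ (-1 - e) := tsum_nonneg fun q => by positivity
    linarith
  have hterm' : ∀ q : ℕ, ‖repTerm F N q‖ ≤ C * (q : ℝ) ^ (-1 - e) := fun q => by
    refine (hterm N q).trans ?_
    rcases Nat.eq_zero_or_pos q with rfl | hq
    · rw [Nat.cast_zero, Real.zero_rpow (by linarith), Real.zero_rpow (by linarith)]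
    · exact mul_le_mul_of_nonneg_left (Real.rpow_le_rpow_of_exponent_le
        (Nat.one_le_cast.2 hq) (by linarith)) hC.le
  have hsum : Summable fun q => ‖repTerm F N q‖ :=
    .of_nonneg_of_le (fun q => norm_nonneg _) hterm' hsum'
  refine ⟨hsum, (hsum.tsum_le_tsum hterm' hsum').trans (by linarith), fun W hW => ?_⟩
  have hz : ∑ q ∈ range (W + 1), repTerm F N q = ∑ q ∈ Icc 1 W, repTerm F N q := by
    rw [← sum_subset (s₁ := Icc 1 W) (s₂ := range (W + 1)) (fun q hq => by
      rw [mem_Icc] at hq; rw [mem_range]; omega) fun q hq hq' => by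
        rw [mem_range] at hq
        rw [mem_Icc] at hq'
        rw [show q = 0 by omega, repTerm_zero_modulus]]
  rw [← hsum.of_norm.sum_add_tsum_nat_add (W + 1), hz, add_sub_cancel_left]
  have hs' : Summable fun i => ‖repTerm F N (i + (W + 1))‖ :=
    (summable_nat_add_iff (f := fun q => ‖repTerm F N q‖) (W + 1)).2 hsum
  refine (norm_tsum_le_tsum_norm hs').trans ?_
  have hs'' : Summable fun i : ℕ => C * ((i + (W + 1) : ℕ) : ℝ) ^ (-1 - e) :=
    (summable_nat_add_iff (f := fun q : ℕ => C * (q : ℝ) ^ (-1 - e)) (W + 1)).2 hsum'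
  have hW0 : (0 : ℝ) < W := Nat.cast_pos.2 hW
  have hstep : ∀ i : ℕ, ‖repTerm F N (i + (W + 1))‖ ≤
      C * ((i + (W + 1) : ℕ) : ℝ) ^ (-1 - e) * (W : ℝ) ^ (-e) := fun i => by
    refine (hterm N _).trans ?_
    have hi : (W : ℝ) ≤ ((i + (W + 1) : ℕ) : ℝ) := Nat.cast_le.2 (by omega)
    rw [show (-1 - 2 * e) = (-1 - e) + -e by ring, Real.rpow_add (by linarith), ← mul_assoc]
    exact mul_le_mul_of_nonneg_left (Real.rpow_le_rpow_of_nonpos hW0 hi (by linarith))
      (by positivity)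
  refine (hs'.tsum_le_tsum hstep (hs''.mul_right _)).trans ?_
  rw [tsum_mul_right]
  refine mul_le_mul_of_nonneg_right ?_ (by positivity)
  rw [← hsum'.sum_add_tsum_nat_add (W + 1)]
  have : 0 ≤ ∑ q ∈ range (W + 1), C * (q : ℝ) ^ (-1 - e) := sum_nonneg fun q _ => by positivity
  linarith

/-- **The tail of the series.** -/
theorem exists_term_tail {m s : ℕ} (hF : F.IsHomogeneous (m + 2)) (hs : SingularDimLE F s)
    (hn : s + (m + 1) * 2 ^ (m + 2) < n) : ∃ C : ℝ, 0 < C ∧ Summable (fun q => ‖formTerm F q‖) ∧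
      ∀ W : ℕ, 1 ≤ W → ‖∑' q, formTerm F q - ∑ q ∈ Icc 1 W, formTerm F q‖ ≤
        C * (W : ℝ) ^ (-(savingExp m / 4)) := by
  obtain ⟨C, hC, h⟩ := exists_repTerm_tail F hF hs hn
  obtain ⟨h1, -, h3⟩ := h 0
  simp only [repTerm_eq_formTerm] at h1 h3
  exact ⟨C, hC, h1, h3⟩

end FA.FormsManyVariables
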