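import Fermat.Agent.FormsManyVariables.Minor
import Fermat.Agent.FormsManyVariables.Twist

/-!
# The major arcs

Their sum, with or without the factor `e (- α N)`, is the truncated singular series times the sum
along one arc, up to `O (W ^ 5 P ^ n)`.
-/

set_option autoImplicit false

noncomputable section

namespace FA.FormsManyVariables

open Finset FA.ThreePrimes FA.CubicForms

variable {n : ℕ} (F : MvPolynomial (Fin n) ℤ)

/-- **The sum over the major arcs**, for `F x = N`. -/
theorem exists_major_sum_rep {m : ℕ} (hF : F.IsHomogeneous (m + 2)) (B : ℕ) :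
    ∃ C : ℝ, 0 < C ∧ ∀ (P W : ℕ) (N : ℤ), 1 ≤ W → 6 ≤ P → W ^ 4 ≤ P →
      |N| ≤ (B * P ^ (m + 2) : ℕ) →
    ‖∑ h ∈ formArcs (m + 2) P W, repSum F P N ((h : ℝ) / ((P ^ (m + 3) : ℕ) : ℝ)) -
      (∑ q ∈ Icc 1 W, repTerm F N q) * ∑ o ∈ Icc (-((W * P + 1 : ℕ) : ℤ)) (W * P + 1 : ℕ),
        repSum F P N ((o : ℝ) / ((P ^ (m + 3) : ℕ) : ℝ))‖ ≤
      C * (W : ℝ) ^ 5 * (P : ℝ) * (P : ℝ) ^ (n - 1) := by
  classical
  obtain ⟨C₁, hC₁, happ⟩ := exists_major_approx_form F hF
  refine ⟨5 * (4 * C₁ + 2 * Real.pi * ((formSize F : ℝ) + B) * 3 ^ n + 1), by positivity,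
    fun P W N hW hP6 hW4 hN => ?_⟩
  have hP0 : (1 : ℝ) ≤ P := by exact_mod_cast (show 1 ≤ P by omega)
  have hW0 : (1 : ℝ) ≤ W := by exact_mod_cast hW
  have hWP : W ≤ P := (Nat.le_self_pow four_ne_zero W).trans hW4
  obtain ⟨H, hH⟩ : ∃ H, H = W * P + 1 := ⟨_, rfl⟩
  obtain ⟨M, hM⟩ : ∃ M : ℝ, M = ((P ^ (m + 3) : ℕ) : ℝ) := ⟨_, rfl⟩
  have hM' : M = (P : ℝ) ^ (m + 3) := by rw [hM]; push_cast; rfl
  have hM0 : 0 < M := by rw [hM']; positivity
  have hMn : 0 < P ^ (m + 3) := pow_pos (by omega) _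
  have hpt : ∀ z : Σ _ : ℕ, ℕ, ∀ o : ℤ, ∃ k : ℤ,
      ((arcPoint (P ^ (m + 3)) z o : ℕ) : ℝ) / M =
        ((round (centre z * M) : ℤ) + (o : ℝ)) / M + k := by
    intro z o
    refine ⟨-((round (centre z * M) + o) / ((P ^ (m + 3) : ℕ) : ℤ)), ?_⟩
    have e : ((arcPoint (P ^ (m + 3)) z o : ℕ) : ℤ) =
        (round (centre z * M) + o) % ((P ^ (m + 3) : ℕ) : ℤ) := by
      rw [arcPoint, ← hM, Int.toNat_of_nonneg (Int.emod_nonneg _ (by exact_mod_cast hMn.ne'))]
    have e' := congrArg (fun x : ℤ => (x : ℝ)) e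
    simp only [Int.emod_def] at e'
    push_cast at e'
    rw [e', ← hM'] at *
    push_cast
    field_simp
    ring
  have hH2 : ((2 * H + 1 : ℕ) : ℝ) * ((W : ℝ) * W) < M := by
    rw [hM]
    refine Nat.cast_lt (α := ℝ).2 (show (2 * H + 1) * (W * W) < P ^ (m + 3) from ?_) |> fun h => by
      push_cast at h ⊢; linarith
    calc (2 * H + 1) * (W * W) ≤ (5 * (W * P)) * (W * W) := by
          refine Nat.mul_le_mul_right _ ?_
          rw [hH]
          have : 1 ≤ W * P := Nat.mul_pos (by omega) (by omega)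
          omega
      _ = 5 * P * W ^ 3 := by ring
      _ ≤ 5 * P * P :=
          Nat.mul_le_mul_left _ ((Nat.pow_le_pow_right hW (by norm_num : 3 ≤ 4)).trans hW4)
      _ < P * P * P := by
          refine Nat.mul_lt_mul_of_pos_right ?_ (by omega)
          exact Nat.mul_lt_mul_of_pos_right (by omega) (by omega)
      _ = P ^ 3 := by ring
      _ ≤ P ^ (m + 3) := Nat.pow_le_pow_right (by omega) (by omega)
  have hinj : Set.InjOn (fun zo : (Σ _ : ℕ, ℕ) × ℤ => arcPoint (P ^ (m + 3)) zo.1 zo.2)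
      (arcCentres W ×ˢ Icc (-(H : ℤ)) H : Finset _) := by
    rintro ⟨z, o⟩ hz ⟨w, o'⟩ hw e
    obtain ⟨hz1, hz2⟩ := mem_product.1 hz
    obtain ⟨hw1, hw2⟩ := mem_product.1 hw
    simp only at e
    obtain ⟨k, hk⟩ := hpt z o
    obtain ⟨l, hl⟩ := hpt w o'
    rw [e, hl] at hk
    have hoo : |((o' : ℝ) - o)| ≤ 2 * H := by
      rw [abs_le]
      have a1 := mem_Icc.1 hz2
      have a2 := mem_Icc.1 hw2
      have : (-(2 * H : ℤ) : ℤ) ≤ o' - o ∧ o' - o ≤ 2 * H := ⟨by omega, by omega⟩
      exact ⟨by exact_mod_cast this.1, by exact_mod_cast this.2⟩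
    by_cases hzw : z = w
    · subst hzw
      have h1 : ((o' - o : ℤ) : ℝ) = (((k - l) * (P ^ (m + 3) : ℕ) : ℤ) : ℝ) := by
        push_cast
        rw [← hM']
        field_simp at hk
        linarith
      rw [Int.cast_inj] at h1
      have hlt : |o' - o| < ((P ^ (m + 3) : ℕ) : ℤ) := by
        have h3 : ((2 * H + 1 : ℕ) : ℝ) ≤ ((2 * H + 1 : ℕ) : ℝ) * ((W : ℝ) * W) :=
          le_mul_of_one_le_right (Nat.cast_nonneg _) (one_le_mul_of_one_le_of_one_le hW0 hW0)
        suffices |((o' : ℝ) - o)| < M by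
          rw [hM] at this
          exact_mod_cast this
        push_cast at h3 hH2
        linarith
      have := Int.eq_zero_of_abs_lt_dvd ⟨k - l, h1.trans (mul_comm _ _)⟩ hlt
      simp only [Prod.mk.injEq, true_and]
      omega
    · exfalso
      have hsep := inv_mul_le_nearDist_centre hz1 hw1 hzw
      have hle : nearDist (centre z - centre w) ≤ ((2 * H + 1 : ℕ) : ℝ) / M := by
        refine (nearDist_le_abs_sub _ (l - k)).trans ?_
        have a1 := abs_sub_round (centre z * M)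
        have a2 := abs_sub_round (centre w * M)
        rw [le_div_iff₀ hM0]
        rw [show ∀ x : ℝ, |x| * M = |x * M| from fun x => by rw [abs_mul, abs_of_pos hM0]]
        have e3 : (centre z - centre w - ((l - k : ℤ) : ℝ)) * M =
            (centre z * M - round (centre z * M)) - (centre w * M - round (centre w * M)) +
              ((o' : ℝ) - o) := by
          push_cast
          field_simp at hk
          rw [mul_comm M (centre z)] at hk
          linarith
        rw [e3]
        push_cast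
        refine (abs_add_le _ _).trans ?_
        have := abs_sub (centre z * M - round (centre z * M)) (centre w * M - round (centre w * M))
        linarith
      have h4 := hsep.trans hle
      rw [div_le_div_iff₀ (by positivity) hM0, one_mul] at h4
      linarith
  rw [formArcs, ← hH, sum_image hinj, sum_product]
  have hser : ∑ q ∈ Icc 1 W, repTerm F N q = ∑ z ∈ arcCentres W,
      completeSum F z.1 z.2 / (z.1 : ℂ) ^ n * eAdd (-((z.2 : ℝ) * N / z.1)) := by
    rw [arcCentres, sum_sigma]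
    rfl
  rw [hser, sum_mul, ← sum_sub_distrib]
  obtain ⟨E, hE⟩ : ∃ E : ℝ, E = (4 * C₁ + 2 * Real.pi * ((formSize F : ℝ) + B) * 3 ^ n + 1) *
      ((W : ℝ) ^ 2 * (P : ℝ) ^ (n - 1)) := ⟨_, rfl⟩
  refine (norm_sum_le _ _).trans ((sum_le_card_nsmul _ _ (((2 * H + 1 : ℕ) : ℝ) * E)
    fun z hz => ?_).trans ?_)
  · rw [mul_sum, ← sum_sub_distrib]
    refine (norm_sum_le _ _).trans ((sum_le_card_nsmul _ _ E fun o ho => ?_).trans (le_of_eq ?_))
    · obtain ⟨⟨hq, hqW⟩, hlt, hco⟩ := mem_arcCentres.1 hz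
      obtain ⟨k, hk⟩ := hpt z o
      obtain ⟨β, hβ⟩ : ∃ β, β = ((round (centre z * M) : ℤ) + (o : ℝ)) / M - centre z := ⟨_, rfl⟩
      have hd : |β - (o : ℝ) / M| ≤ 1 / (2 * M) := by
        rw [show β - (o : ℝ) / M = ((round (centre z * M) : ℤ) - centre z * M) / M by
          rw [hβ]; field_simp; ring, abs_div, abs_of_pos hM0, div_le_div_iff₀ hM0 (by positivity),
          abs_sub_comm]
        nlinarith [abs_sub_round (centre z * M)]
      have hβW : (P : ℝ) ^ (m + 2) * |β| ≤ 3 * W := by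
        have h1 : |β| ≤ ((H : ℝ) + 1) / M := by
          have h2 := abs_sub_abs_le_abs_sub β ((o : ℝ) / M)
          have h3 : |(o : ℝ) / M| ≤ (H : ℝ) / M := by
            rw [abs_div, abs_of_pos hM0, ← Int.cast_abs]
            gcongr
            exact_mod_cast abs_le.2 (mem_Icc.1 ho)
          have h4 : 1 / (2 * M) ≤ 1 / M :=
            one_div_le_one_div_of_le hM0 (by linarith)
          rw [add_div]
          linarith
        calc (P : ℝ) ^ (m + 2) * |β| ≤ (P : ℝ) ^ (m + 2) * (((H : ℝ) + 1) / M) := by gcongr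
          _ = ((H : ℝ) + 1) / P := by rw [hM']; field_simp; ring
          _ ≤ _ := by
              rw [div_le_iff₀ (by linarith), hH]
              push_cast
              nlinarith [one_le_mul_of_one_le_of_one_le hW0 hP0]
      have hsplit : repSum F P N (((arcPoint (P ^ (m + 3)) z o : ℕ) : ℝ) / M) =
          eAdd (-((z.2 : ℝ) * N / z.1)) *
            (formSum F P ((z.2 : ℝ) / z.1 + β) * eAdd (-(β * N))) := by
        rw [repSum, formSum_congr F P (β := (z.2 : ℝ) / z.1 + β) (z := k)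
          (by rw [hk, hβ, centre]; ring), ← mul_assoc (eAdd _), mul_comm (eAdd _), mul_assoc,
          ← eAdd_add]
        congr 1
        rw [show -((((arcPoint (P ^ (m + 3)) z o : ℕ) : ℝ) / M) * N) =
          -((z.2 : ℝ) * N / z.1) + -(β * N) + ((-(k * N) : ℤ) : ℝ) by
            rw [hk, hβ, centre]; push_cast; ring, eAdd_add, eAdd_intCast, mul_one]
      have happ' := happ P z.1 (z.2 : ℤ) β hq (hqW.trans hWP)
      rw [Int.cast_natCast] at happ'
      simp only [← hM, hsplit]
      rw [mul_comm (completeSum F z.1 z.2 / (z.1 : ℂ) ^ n), mul_assoc, ← mul_sub, norm_mul,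
        norm_eAdd, one_mul]
      refine (norm_sub_le_norm_sub_add_norm_sub _ (completeSum F z.1 z.2 / (z.1 : ℂ) ^ n *
        repSum F P N β) _).trans ?_
      rw [← mul_sub, norm_mul _ (repSum F P N β - _), norm_div, norm_pow, Complex.norm_natCast,
        repSum, ← mul_assoc, ← sub_mul, norm_mul, norm_eAdd, mul_one]
      have h1 : C₁ * (z.1 : ℝ) * (P : ℝ) ^ (n - 1) * (1 + (P : ℝ) ^ (m + 2) * |β|) ≤
          4 * C₁ * ((W : ℝ) ^ 2 * (P : ℝ) ^ (n - 1)) := by
        calc C₁ * (z.1 : ℝ) * (P : ℝ) ^ (n - 1) * (1 + (P : ℝ) ^ (m + 2) * |β|)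
            ≤ C₁ * (W : ℝ) * (P : ℝ) ^ (n - 1) * (4 * W) := by
              gcongr
              linarith
          _ = _ := by ring
      have h2 : ‖completeSum F z.1 z.2‖ / (z.1 : ℝ) ^ n *
          ‖repSum F P N β - repSum F P N ((o : ℝ) / M)‖ ≤
            2 * Real.pi * ((formSize F : ℝ) + B) * 3 ^ n *
              ((W : ℝ) ^ 2 * (P : ℝ) ^ (n - 1)) := by
        refine (mul_le_of_le_one_left (norm_nonneg _)
          ((div_le_one (by positivity)).2 (norm_completeSum_le F _ _))).trans ?_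
        refine (norm_repSum_sub_le F hF hN β _).trans ?_
        calc 2 * Real.pi * ((formSize F : ℝ) + B) * (P : ℝ) ^ (m + 2) *
              ((2 * P + 1 : ℕ) : ℝ) ^ n * |β - (o : ℝ) / M|
            ≤ 2 * Real.pi * ((formSize F : ℝ) + B) * (P : ℝ) ^ (m + 2) * (3 * (P : ℝ)) ^ n *
                (1 / M) := by
              gcongr
              · push_cast; linarith
              · exact hd.trans (one_div_le_one_div_of_le hM0 (by linarith))
          _ = 2 * Real.pi * ((formSize F : ℝ) + B) * 3 ^ n * ((P : ℝ) ^ n / P) := by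
              rw [hM', mul_pow]; field_simp; ring
          _ ≤ _ := by
              refine mul_le_mul_of_nonneg_left ?_ (by positivity)
              rw [div_le_iff₀ (by linarith)]
              calc (P : ℝ) ^ n ≤ (P : ℝ) ^ (n - 1 + 1) := pow_le_pow_right₀ hP0 (by omega)
                _ = 1 * (P : ℝ) ^ (n - 1) * P := by rw [pow_succ]; ring
                _ ≤ _ := by gcongr; exact one_le_pow₀ hW0
      rw [repSum] at h2
      have h3 := happ'.trans h1
      rw [hE]
      have : 0 ≤ (W : ℝ) ^ 2 * (P : ℝ) ^ (n - 1) := by positivity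
      linarith
    · rw [nsmul_eq_mul, Int.card_Icc, show ((H : ℤ) + 1 - -(H : ℤ)).toNat = 2 * H + 1 by omega]
  · rw [nsmul_eq_mul]
    have hcz : ((arcCentres W).card : ℝ) ≤ (W : ℝ) ^ 2 := by
      rw [arcCentres, card_sigma, Nat.cast_sum]
      refine (sum_le_card_nsmul _ _ (W : ℝ) fun q hq => ?_).trans (le_of_eq ?_)
      · exact Nat.cast_le.2 ((card_filter_le _ _).trans ((card_range q).le.trans (mem_Icc.1 hq).2))
      · rw [Nat.card_Icc, Nat.add_sub_cancel, nsmul_eq_mul, sq]
    have hH5 : ((2 * H + 1 : ℕ) : ℝ) ≤ 5 * ((W : ℝ) * P) := by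
      rw [hH]; push_cast
      linarith [one_le_mul_of_one_le_of_one_le hW0 hP0]
    have hE0 : 0 ≤ E := by rw [hE]; positivity
    calc ((arcCentres W).card : ℝ) * (((2 * H + 1 : ℕ) : ℝ) * E)
        ≤ (W : ℝ) ^ 2 * ((5 * ((W : ℝ) * P)) * E) := by gcongr
      _ = _ := by rw [hE]; ring

end FA.FormsManyVariables
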