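import Fermat.Agent.FormsManyVariables.Integral
import Fermat.Agent.FormsManyVariables.Major

/-!
# Birch's asymptotic formula

If `n - s > (d - 1) 2 ^ d` and `|N| ≤ B P ^ d` the solutions of `F x = N` in the box of size `P`
number `𝔖 (N) J (N / P ^ d) P ^ (n - d)` up to `O (P ^ (n - d - δ))`, for a form `F` of degree `d`.
-/

set_option autoImplicit false

noncomputable section

namespace FA.FormsManyVariables

open Finset FA.ThreePrimes FA.WaringAsymptotic FA.CubicForms MvPolynomial MeasureTheory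

variable {n : ℕ} (F : MvPolynomial (Fin n) ℤ)

/-- The number of zeros in the box. -/
def countZeros (P : ℕ) : ℕ := ((cbox n P).filter fun x => eval x F = 0).card

/-- The number of solutions of `F x = N` in the box. -/
def countReps (N : ℤ) (P : ℕ) : ℕ := ((cbox n P).filter fun x => eval x F = N).card

theorem countReps_zero (P : ℕ) : countReps F 0 P = countZeros F P := rfl

theorem countReps_le (N : ℤ) (P : ℕ) : (countReps F N P : ℝ) ≤ (2 * (P : ℝ) + 1) ^ n := by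
  refine (Nat.cast_le.2 (card_filter_le _ _)).trans (le_of_eq ?_)
  rw [card_cbox]; push_cast; rfl

theorem sum_grid_repSum {m : ℕ} (hF : F.IsHomogeneous (m + 2)) {P B : ℕ} {N : ℤ}
    (hN : |N| ≤ (B * P ^ (m + 2) : ℕ)) (hP : formSize F + B < P) :
    ∑ h ∈ range (P ^ (m + 3)), repSum F P N ((h : ℝ) / ((P ^ (m + 3) : ℕ) : ℝ)) =
      ((P ^ (m + 3) : ℕ) : ℂ) * (countReps F N P : ℂ) := by
  rw [countReps, card_filter, Nat.cast_sum, mul_sum]
  simp only [repSum_eq_sum]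
  rw [sum_comm]
  refine sum_congr rfl fun x hx => ?_
  rw [sum_congr rfl fun (h : ℕ) _ => show
      eAdd ((h : ℝ) / ((P ^ (m + 3) : ℕ) : ℝ) * (eval x F - N : ℤ)) =
      eAdd (((eval x F - N : ℤ) : ℝ) * h / ((P ^ (m + 3) : ℕ) : ℝ)) by ring_nf,
    sum_eAdd_grid (pow_pos (by omega) _)]
  have hiff : ((P ^ (m + 3) : ℕ) : ℤ) ∣ eval x F - N ↔ eval x F = N := by
    refine ⟨fun hd => sub_eq_zero.1 (Int.eq_zero_of_abs_lt_dvd hd ?_), fun h => by
      rw [h, sub_self]; exact dvd_zero _⟩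
    refine ((abs_sub _ _).trans (add_le_add (abs_eval_le F hF (mem_cbox.1 hx)) hN)).trans_lt ?_
    push_cast
    rw [← add_mul, pow_succ' _ (m + 2)]
    exact mul_lt_mul_of_pos_right (by exact_mod_cast hP)
      (pow_pos (Int.natCast_pos.2 (by omega)) _)
  rw [if_congr hiff rfl rfl]
  split_ifs <;> simp

/-- **Birch's asymptotic formula** for the representations `F x = N`. -/
theorem exists_rep_asymptotic {m s : ℕ} (hF : F.IsHomogeneous (m + 2)) (hs : SingularDimLE F s)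
    (hn : s + (m + 1) * 2 ^ (m + 2) < n) (B : ℕ) : ∃ δ C : ℝ, 0 < δ ∧ 0 < C ∧
      ∀ (P : ℕ) (N : ℤ), 1 ≤ P → |N| ≤ (B * P ^ (m + 2) : ℕ) →
        |(countReps F N P : ℝ) - repSeries F N * repIntegral F ((N : ℝ) / (P : ℝ) ^ (m + 2)) *
            (P : ℝ) ^ (n - (m + 2))| ≤ C * (P : ℝ) ^ (((n - (m + 2) : ℕ) : ℝ) - δ) := by
  classical
  obtain ⟨C₆, hC₆, hser⟩ := exists_repTerm_tail F hF hs hn
  obtain ⟨C₃, hC₃, hminor⟩ := exists_minor_sum F hF hs hn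
  obtain ⟨C₄, hC₄, hmajor⟩ := exists_major_sum_rep F hF B
  obtain ⟨C₅, hC₅, harc⟩ := exists_arc_sum_rep F hF hs hn B
  obtain ⟨e, he⟩ : ∃ e, e = savingExp m / 4 := ⟨_, rfl⟩
  have he0 : 0 < e := he ▸ by have := savingExp_pos m; positivity
  have he1 : e ≤ 1 / 4 := by have := savingExp_le_one m; rw [he]; linarith
  rw [← he] at hser
  obtain ⟨L₀, hL₀, hlog⟩ := exists_log_le (δ := e / (16 * ((n : ℝ) + 2))) (by positivity)
  obtain ⟨C₀, hC₀⟩ : ∃ C₀ : ℝ, C₀ = 2 * L₀ ^ (n + 2) *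
      (C₃ + C₄ + 2 * C₆ * C₅ + C₆ * ∫ γ, ‖formIntegral F γ‖) + 1 := ⟨_, rfl⟩
  obtain ⟨IB, hIB⟩ : ∃ IB : ℝ, IB = ∫ γ, ‖formIntegral F γ‖ := ⟨_, rfl⟩
  have hIB0 : 0 ≤ IB := hIB ▸ integral_nonneg fun γ => norm_nonneg _
  rw [← hIB] at hC₀
  obtain ⟨P₀, hP₀⟩ : ∃ P₀, P₀ = formSize F + B + 6 := ⟨_, rfl⟩
  obtain ⟨d, hd⟩ : ∃ d, d = m + 2 := ⟨_, rfl⟩
  have hdn : d < n := by
    have : m + 2 ≤ (m + 1) * 2 ^ (m + 2) :=
      (show m + 2 ≤ 2 ^ (m + 2) from Nat.lt_two_pow_self.le).trans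
        (Nat.le_mul_of_pos_left _ (Nat.succ_pos m))
    omega
  rw [← hd]
  refine ⟨e / 16, C₀ + (3 ^ n + C₆ * IB) * (P₀ : ℝ) ^ (d + 1), by positivity,
    by rw [hC₀]; positivity, fun P N hP hN => ?_⟩
  have hP0 : (1 : ℝ) ≤ P := by exact_mod_cast hP
  have hP' : (0 : ℝ) < P := by linarith
  obtain ⟨ε, hε⟩ : ∃ ε : ℝ, ε = (P : ℝ) ^ (-(e / 16)) := ⟨_, rfl⟩
  have hε0 : 0 < ε := hε ▸ by positivity
  have hgoal : (P : ℝ) ^ (((n - d : ℕ) : ℝ) - e / 16) = (P : ℝ) ^ (n - d) * ε := by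
    rw [hε, sub_eq_add_neg, Real.rpow_add hP', Real.rpow_natCast]
  obtain ⟨hsum, hT₀le, htail⟩ := hser N
  obtain ⟨σ, hσ⟩ : ∃ σ : ℂ, σ = ∑' q, repTerm F N q := ⟨_, rfl⟩
  obtain ⟨I, hI⟩ : ∃ I, I = repIntegral F ((N : ℝ) / (P : ℝ) ^ (m + 2)) := ⟨_, rfl⟩
  have hIle : |I| ≤ IB := by
    rw [hI, hIB, repIntegral]
    refine (Complex.abs_re_le_norm _).trans ((norm_integral_le_integral_norm _).trans (le_of_eq ?_))
    simp only [norm_twistedIntegral]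
  have hσle : ‖σ‖ ≤ C₆ := hσ ▸ (norm_tsum_le_tsum_norm hsum).trans hT₀le
  rw [← hd] at hI
  rw [hgoal, show repSeries F N = σ.re by rw [repSeries, hσ], ← hI]
  have hσre : |σ.re * I| ≤ C₆ * IB := by
    rw [abs_mul]
    exact mul_le_mul ((Complex.abs_re_le_norm _).trans hσle) hIle (abs_nonneg _) hC₆.le
  rcases Nat.lt_or_ge P P₀ with hsmall | hbig
  · have h1 : |(countReps F N P : ℝ) - σ.re * I * (P : ℝ) ^ (n - d)| ≤
        (3 ^ n + C₆ * IB) * (P : ℝ) ^ n := by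
      refine (abs_sub _ _).trans ?_
      rw [Nat.abs_cast, abs_mul, abs_pow, Nat.abs_cast, add_mul]
      refine add_le_add ((countReps_le F N P).trans ?_) (mul_le_mul hσre
        (pow_le_pow_right₀ hP0 (Nat.sub_le _ _)) (by positivity) (by positivity))
      rw [← mul_pow]
      exact pow_le_pow_left₀ (by positivity) (by linarith) n
    refine h1.trans ?_
    have h2 : (P : ℝ) ^ n ≤ (P₀ : ℝ) ^ (d + 1) * ((P : ℝ) ^ (n - d) * ε) := by
      have h3 : (1 : ℝ) ≤ (P : ℝ) * ε := by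
        rw [hε, mul_comm, ← Real.rpow_add_one hP'.ne']
        exact Real.one_le_rpow hP0 (by linarith)
      calc (P : ℝ) ^ n = (P : ℝ) ^ d * (P : ℝ) ^ (n - d) * 1 := by
            rw [← pow_add, mul_one, Nat.add_sub_cancel' hdn.le]
        _ ≤ (P : ℝ) ^ d * (P : ℝ) ^ (n - d) * ((P : ℝ) * ε) :=
            mul_le_mul_of_nonneg_left h3 (by positivity)
        _ = (P : ℝ) ^ (d + 1) * ((P : ℝ) ^ (n - d) * ε) := by ring
        _ ≤ _ := mul_le_mul_of_nonneg_right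
            (pow_le_pow_left₀ hP'.le (Nat.cast_le.2 hsmall.le) _) (by positivity)
    refine (mul_le_mul_of_nonneg_left h2 (by positivity)).trans ?_
    rw [← mul_assoc]
    refine mul_le_mul_of_nonneg_right (le_add_of_nonneg_left ?_) (by positivity)
    rw [hC₀]; positivity
  obtain ⟨W, hW⟩ : ∃ W, W = ⌊(P : ℝ) ^ ((1 : ℝ) / 8)⌋₊ := ⟨_, rfl⟩
  have hW1 : 1 ≤ W := hW ▸ Nat.le_floor (by simpa using Real.one_le_rpow hP0 (by norm_num))
  have hW0 : (1 : ℝ) ≤ W := by exact_mod_cast hW1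
  have hWle : (W : ℝ) ≤ (P : ℝ) ^ ((1 : ℝ) / 8) := hW ▸ Nat.floor_le (by positivity)
  have hWge : (P : ℝ) ^ ((1 : ℝ) / 8) ≤ 2 * W := by
    have h1 := Nat.lt_floor_add_one ((P : ℝ) ^ ((1 : ℝ) / 8))
    rw [← hW] at h1
    linarith
  have hW8 : W ^ 8 ≤ P := by
    have : (W : ℝ) ^ 8 ≤ P := by
      refine (pow_le_pow_left₀ (Nat.cast_nonneg _) hWle 8).trans (le_of_eq ?_)
      rw [← Real.rpow_natCast _ 8, ← Real.rpow_mul hP'.le]
      norm_num
    exact_mod_cast this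
  have hW4 : W ^ 4 ≤ P := (Nat.pow_le_pow_right hW1 (by norm_num)).trans hW8
  have hL : (1 + Real.log P) ^ (n + 2) ≤ L₀ ^ (n + 2) * (P : ℝ) ^ (e / 16) := by
    refine (pow_le_pow_left₀ (by linarith [Real.log_nonneg hP0]) (hlog _ hP0) _).trans (le_of_eq ?_)
    rw [mul_pow, ← Real.rpow_natCast ((P : ℝ) ^ _) (n + 2), ← Real.rpow_mul hP'.le]
    congr 2
    push_cast
    field_simp
  have hWe : (W : ℝ) ^ (-e) ≤ 2 * (P : ℝ) ^ (-(e / 8)) := by
    have h1 := Real.rpow_le_rpow_of_nonpos (z := -e) (by positivity)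
      (show (P : ℝ) ^ ((1 : ℝ) / 8) / 2 ≤ W by linarith) (by linarith)
    refine h1.trans ?_
    rw [Real.div_rpow (by positivity) two_pos.le, Real.rpow_neg two_pos.le, div_inv_eq_mul,
      ← Real.rpow_mul hP'.le, mul_comm, show (1 : ℝ) / 8 * -e = -(e / 8) by ring]
    refine mul_le_mul_of_nonneg_right ?_ (by positivity)
    exact (Real.rpow_le_rpow_of_exponent_le one_le_two (by linarith)).trans (Real.rpow_one 2).le
  obtain ⟨Z, hZ⟩ : ∃ Z : ℝ, Z = 2 * L₀ ^ (n + 2) * ε := ⟨_, rfl⟩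
  have hZ0 : 0 ≤ Z := hZ ▸ by positivity
  have hLW : (1 + Real.log P) ^ (n + 2) * (W : ℝ) ^ (-e) ≤ Z := by
    have hsplit : (P : ℝ) ^ (e / 16) * (P : ℝ) ^ (-(e / 8)) = ε := by
      rw [hε, ← Real.rpow_add hP']; ring_nf
    calc (1 + Real.log P) ^ (n + 2) * (W : ℝ) ^ (-e)
        ≤ (L₀ ^ (n + 2) * (P : ℝ) ^ (e / 16)) * (2 * (P : ℝ) ^ (-(e / 8))) := by gcongr
      _ = _ := by rw [hZ, ← hsplit]; ring
  have hWZ : (W : ℝ) ^ (-e) ≤ Z :=
    le_trans (le_mul_of_one_le_left (by positivity)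
      (one_le_pow₀ (by linarith [Real.log_nonneg hP0]))) hLW
  have hWinv : 1 / (W : ℝ) ≤ Z := by
    refine le_trans ?_ hWZ
    rw [one_div, ← Real.rpow_neg_one]
    exact Real.rpow_le_rpow_of_exponent_le hW0 (by linarith)
  have hεZ : ε ≤ Z := by
    rw [hZ]
    refine le_mul_of_one_le_left hε0.le ?_
    exact one_le_mul_of_one_le_of_one_le one_le_two (one_le_pow₀ hL₀)
  have hW5 : (W : ℝ) ^ 5 ≤ (P : ℝ) * Z := by
    refine le_trans ?_ (mul_le_mul_of_nonneg_left hεZ hP'.le)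
    calc (W : ℝ) ^ 5 ≤ ((P : ℝ) ^ ((1 : ℝ) / 8)) ^ 5 :=
          pow_le_pow_left₀ (Nat.cast_nonneg _) hWle 5
      _ = (P : ℝ) ^ ((5 : ℝ) / 8) := by
          rw [← Real.rpow_natCast _ 5, ← Real.rpow_mul hP'.le]; norm_num
      _ ≤ (P : ℝ) ^ (1 + -(e / 16)) := Real.rpow_le_rpow_of_exponent_le hP0 (by linarith)
      _ = _ := by rw [Real.rpow_add hP', Real.rpow_one, hε]
  obtain ⟨X, hX⟩ : ∃ X, X = (P : ℝ) ^ (n + 1) := ⟨_, rfl⟩
  have hX0 : 0 ≤ X := hX ▸ by positivity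
  obtain ⟨f, hf⟩ : ∃ f : ℕ → ℂ,
      f = fun h : ℕ => repSum F P N ((h : ℝ) / ((P ^ (m + 3) : ℕ) : ℝ)) := ⟨_, rfl⟩
  have hsub : formArcs (m + 2) P W ⊆ range (P ^ (m + 3)) := by
    intro h hh
    obtain ⟨zo, -, rfl⟩ := mem_image.1 hh
    rw [mem_range, arcPoint, Int.toNat_lt (Int.emod_nonneg _ (by positivity))]
    exact Int.emod_lt_of_pos _ (by positivity)
  have htot : ∑ h ∈ range (P ^ (m + 3)) \ formArcs (m + 2) P W, f h +
      ∑ h ∈ formArcs (m + 2) P W, f h = ((P ^ (m + 3) : ℕ) : ℂ) * (countReps F N P : ℂ) := by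
    rw [sum_sdiff hsub, hf]
    exact sum_grid_repSum F hF (hd ▸ hN) (by omega)
  obtain ⟨T, hT⟩ : ∃ T, T = ∑ q ∈ Icc 1 W, repTerm F N q := ⟨_, rfl⟩
  obtain ⟨A, hA⟩ : ∃ A, A = ∑ o ∈ Icc (-((W * P + 1 : ℕ) : ℤ)) (W * P + 1 : ℕ),
      repSum F P N ((o : ℝ) / ((P ^ (m + 3) : ℕ) : ℝ)) := ⟨_, rfl⟩
  have hXW : X / W ≤ X * Z := by
    rw [div_eq_mul_one_div]; exact mul_le_mul_of_nonneg_left hWinv hX0
  have hXn : (P : ℝ) * (P : ℝ) ^ n = X := by rw [hX, pow_succ']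
  have hmin : ‖∑ h ∈ range (P ^ (m + 3)) \ formArcs (m + 2) P W, f h‖ ≤ C₃ * Z * X := by
    rw [hf]
    simp only [repSum]
    refine (norm_sum_le _ _).trans ?_
    simp only [norm_mul, norm_eAdd, mul_one]
    refine (hminor P W hP hW1).trans ?_
    rw [← hX, show C₃ * (1 + Real.log P) ^ (n + 2) * X * (W : ℝ) ^ (-savingExp m) =
      C₃ * ((1 + Real.log P) ^ (n + 2) * (W : ℝ) ^ (-savingExp m)) * X by ring]
    refine mul_le_mul_of_nonneg_right (mul_le_mul_of_nonneg_left (le_trans ?_ hLW) hC₃.le) hX0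
    refine mul_le_mul_of_nonneg_left (Real.rpow_le_rpow_of_exponent_le hW0 ?_)
      (pow_nonneg (by linarith [Real.log_nonneg hP0]) _)
    rw [he]; linarith [savingExp_pos m]
  have hmaj : ‖∑ h ∈ formArcs (m + 2) P W, f h - T * A‖ ≤ C₄ * Z * X := by
    rw [hf, hT, hA]
    refine (hmajor P W N hW1 (by omega) hW4 (hd ▸ hN)).trans ?_
    calc C₄ * (W : ℝ) ^ 5 * P * (P : ℝ) ^ (n - 1)
        ≤ C₄ * ((P : ℝ) * Z) * P * (P : ℝ) ^ (n - 1) := by gcongr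
      _ = C₄ * Z * ((P : ℝ) * ((P : ℝ) ^ (n - 1) * P)) := by ring
      _ = _ := by rw [← pow_succ, Nat.sub_add_cancel (by omega : 1 ≤ n), hXn]
  have hTA : ‖T * A - T * ((P : ℂ) ^ (n + 1) * I)‖ ≤ 2 * C₆ * C₅ * Z * X := by
    rw [← mul_sub, norm_mul, show 2 * C₆ * C₅ * Z * X = C₆ * (2 * C₅ * Z * X) by ring]
    refine mul_le_mul ?_ ?_ (norm_nonneg _) hC₆.le
    · rw [hT]
      exact ((norm_sum_le _ _).trans (hsum.sum_le_tsum _ fun q _ => norm_nonneg _)).trans hT₀le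
    rw [hA, hI, hd]
    refine (harc P W N hP hW1 (hd ▸ hN)).trans ?_
    rw [← hX]
    have h2 : (W : ℝ) ^ 2 * (P : ℝ) ^ n ≤ X * Z := by
      calc (W : ℝ) ^ 2 * (P : ℝ) ^ n ≤ (P : ℝ) * Z * (P : ℝ) ^ n :=
            mul_le_mul_of_nonneg_right ((pow_le_pow_right₀ hW0 (by norm_num : 2 ≤ 5)).trans hW5)
              (by positivity)
        _ = _ := by rw [← hXn]; ring
    nlinarith [mul_le_mul_of_nonneg_left (add_le_add h2 hXW) hC₅.le]
  have hTσ : ‖T * ((P : ℂ) ^ (n + 1) * I) - σ * ((P : ℂ) ^ (n + 1) * I)‖ ≤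
      C₆ * IB * Z * X := by
    rw [← sub_mul, norm_mul, norm_mul, norm_pow, Complex.norm_natCast, Complex.norm_real,
      Real.norm_eq_abs, ← hX, norm_sub_rev, hσ, hT,
      show C₆ * IB * Z * X = C₆ * Z * (X * IB) by ring]
    refine mul_le_mul ((htail W hW1).trans ?_) (mul_le_mul_of_nonneg_left hIle hX0)
      (by positivity) (by positivity)
    exact mul_le_mul_of_nonneg_left hWZ hC₆.le
  have hdiff : ‖((P ^ (m + 3) : ℕ) : ℂ) * (countReps F N P : ℂ) - σ * ((P : ℂ) ^ (n + 1) * I)‖ ≤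
      (C₃ + C₄ + 2 * C₆ * C₅ + C₆ * IB) * Z * X := by
    rw [← htot]
    refine le_trans (le_of_eq (congrArg norm (show _ = (∑ h ∈ range (P ^ (m + 3)) \
      formArcs (m + 2) P W, f h) + ((∑ h ∈ formArcs (m + 2) P W, f h - T * A) +
        ((T * A - T * ((P : ℂ) ^ (n + 1) * I)) +
          (T * ((P : ℂ) ^ (n + 1) * I) - σ * ((P : ℂ) ^ (n + 1) * I)))) by ring))) ?_
    refine (norm_add_le _ _).trans (le_of_le_of_eq (add_le_add hmin ((norm_add_le _ _).trans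
      (add_le_add hmaj ((norm_add_le _ _).trans (add_le_add hTA hTσ))))) ?_)
    ring
  have hre := (Complex.abs_re_le_norm _).trans hdiff
  rw [Complex.sub_re, ← Nat.cast_mul, Complex.natCast_re, ← Complex.ofReal_natCast,
    ← Complex.ofReal_pow, ← Complex.ofReal_mul, Complex.re_mul_ofReal] at hre
  push_cast at hre
  have hM : (P : ℝ) ^ (d + 1) * (P : ℝ) ^ (n - d) = X := by
    rw [hX, ← pow_add]; congr 1; omega
  rw [show m + 3 = d + 1 by omega, ← hM,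
    show σ.re * ((P : ℝ) ^ (n + 1) * I) = (P : ℝ) ^ (n + 1) * (σ.re * I) by ring, ← hX, ← hM,
    mul_assoc ((P : ℝ) ^ (d + 1)), ← mul_sub, abs_mul,
    abs_of_pos (by positivity : (0 : ℝ) < (P : ℝ) ^ (d + 1)),
    mul_left_comm _ ((P : ℝ) ^ (d + 1))] at hre
  rw [mul_comm ((P : ℝ) ^ (n - d)) (σ.re * I)] at hre
  refine (le_of_mul_le_mul_left hre (by positivity)).trans ?_
  rw [hZ, hC₀]
  have h1 : 0 ≤ (3 ^ n + C₆ * IB) * (P₀ : ℝ) ^ (d + 1) * ((P : ℝ) ^ (n - d) * ε) := by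
    positivity
  have h2 : 0 ≤ (P : ℝ) ^ (n - d) * ε := by positivity
  linarith

/-- **Birch's asymptotic formula** for the zeros. -/
theorem exists_asymptotic {m s : ℕ} (hF : F.IsHomogeneous (m + 2)) (hs : SingularDimLE F s)
    (hn : s + (m + 1) * 2 ^ (m + 2) < n) : ∃ δ C : ℝ, 0 < δ ∧ 0 < C ∧ ∀ P : ℕ, 1 ≤ P →
      |(countZeros F P : ℝ) - singularSeries F * singularIntegral F * (P : ℝ) ^ (n - (m + 2))| ≤
        C * (P : ℝ) ^ (((n - (m + 2) : ℕ) : ℝ) - δ) := by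
  obtain ⟨δ, C, hδ, hC, h⟩ := exists_rep_asymptotic F hF hs hn 0
  refine ⟨δ, C, hδ, hC, fun P hP => ?_⟩
  simpa only [countReps_zero, repSeries_zero, Int.cast_zero, zero_div, repIntegral_zero] using
    h P 0 hP (by simp)

end FA.FormsManyVariables
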