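import Fermat.Agent.FormsManyVariables.Weyl
import Mathlib.Analysis.SpecialFunctions.Pow.Real

/-!
# The bound at one fraction

If `n - s > (d - 1) 2 ^ d` the sum at `a / q + β` is `O (P ^ n (log P) ^ n Φ ^ (-2 - e))`, where
`Φ = max (q, q P ^ d |β|)` is at most `P ^ (d / 2)` and `e = 1 / ((d - 1) 2 ^ (d - 1))`: the
approximation of the dichotomy at `R ^ (d - 1) ≍ Φ` would be `a / q` itself.
-/

set_option autoImplicit false

noncomputable section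

namespace FA.FormsManyVariables

open Finset FA.ThreePrimes FA.CubicForms

variable {n : ℕ} (F : MvPolynomial (Fin n) ℤ)

/-- The exponent saved in degree `m + 2`. -/
def savingExp (m : ℕ) : ℝ := 1 / (((m + 1 : ℕ) : ℝ) * 2 ^ (m + 1))

theorem savingExp_pos (m : ℕ) : 0 < savingExp m := by rw [savingExp]; positivity

theorem savingExp_le_one (m : ℕ) : savingExp m ≤ 1 := by
  rw [savingExp, div_le_one (by positivity)]
  push_cast
  exact one_le_mul_of_one_le_of_one_le (by linarith [(Nat.cast_nonneg m : (0 : ℝ) ≤ m)])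
    (one_le_pow₀ one_le_two)

theorem norm_formSum_le (P : ℕ) (α : ℝ) : ‖formSum F P α‖ ≤ (2 * (P : ℝ) + 1) ^ n := by
  refine (norm_sum_le _ _).trans (le_of_eq ?_)
  simp [norm_eAdd, card_cbox]

theorem eq_of_near_fraction {q q' : ℕ} {a a' : ℤ} {β A B Φ X : ℝ} (hq : 1 ≤ q)
    (hq' : (q' : ℝ) ≤ Φ / 4) (hclose : |(q' : ℝ) * ((a : ℝ) / q + β) - a'| ≤ A)
    (hA : A ≤ Φ / (4 * X)) (hB : (q : ℝ) * |β| ≤ B) (hBX : B ≤ Φ / X) (hqΦ : (q : ℝ) ≤ Φ)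
    (hΦ : Φ ^ 2 ≤ X) (hX : 0 < X) : (q' : ℤ) * a = a' * q := by
  have hq0 : (0 : ℝ) < q := Nat.cast_pos.2 hq
  have hΦ0 : 0 < Φ := hq0.trans_le hqΦ
  obtain ⟨z, hz⟩ : ∃ z : ℤ, z = (q' : ℤ) * a - a' * q := ⟨_, rfl⟩
  have e : (z : ℝ) = q * ((q' : ℝ) * ((a : ℝ) / q + β) - a') - q' * (q * β) := by
    rw [hz]; push_cast; field_simp; ring
  have h1 : |(z : ℝ)| < 1 := by
    rw [e]
    refine (abs_sub _ _).trans_lt ?_
    rw [abs_mul, abs_mul, abs_mul, Nat.abs_cast, Nat.abs_cast]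
    have a1 := mul_le_mul hqΦ (hclose.trans hA) (abs_nonneg _) hΦ0.le
    have a2 := mul_le_mul hq' (hB.trans hBX) (by positivity) (by positivity)
    have a3 : Φ * (Φ / (4 * X)) = Φ ^ 2 / X / 4 := by ring
    have a4 : Φ / 4 * (Φ / X) = Φ ^ 2 / X / 4 := by ring
    have a5 : Φ ^ 2 / X ≤ 1 := (div_le_one hX).2 hΦ
    linarith
  rw [← Int.cast_abs, ← Int.cast_one, Int.cast_lt] at h1
  linarith [Int.abs_lt_one_iff.1 h1]

/-- **The bound at one fraction.** -/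
theorem exists_pointwise {m s : ℕ} (hF : F.IsHomogeneous (m + 2)) (hs : SingularDimLE F s)
    (hn : s + (m + 1) * 2 ^ (m + 2) < n) : ∃ C : ℝ, 0 < C ∧
      ∀ (P q : ℕ) (a : ℤ) (β Φ : ℝ), 1 ≤ P → 1 ≤ q → IsCoprime a (q : ℤ) →
        Φ = max (q : ℝ) ((q : ℝ) * (P : ℝ) ^ (m + 2) * |β|) → Φ ^ 2 ≤ (P : ℝ) ^ (m + 2) →
          ‖formSum F P ((a : ℝ) / q + β)‖ * Φ ^ (2 + savingExp m) ≤
            C * (1 + Real.log P) ^ n * (P : ℝ) ^ n := by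
  obtain ⟨C₀, hC₀, hdich⟩ := exists_dichotomy F hF hs
  obtain ⟨D, hD⟩ : ∃ D : ℝ, D = 4 * (C₀ + 1) := ⟨_, rfl⟩
  have hD1 : 1 ≤ D := by rw [hD]; linarith
  obtain ⟨K, hK⟩ : ∃ K : ℕ, K = 2 ^ (m + 1) := ⟨_, rfl⟩
  have hK1 : 1 ≤ K := hK ▸ Nat.one_le_two_pow
  obtain ⟨J, hJ⟩ : ∃ J : ℕ, J = 2 * ((m + 1) * K) + 1 := ⟨_, rfl⟩
  have hJn : s + J ≤ n := by
    rw [hJ, hK]
    rw [pow_succ' 2 (m + 1)] at hn
    linarith
  obtain ⟨e₀, he₀⟩ : ∃ e₀, e₀ = 2 + savingExp m := ⟨_, rfl⟩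
  have he0 : 0 ≤ e₀ := by have := savingExp_pos m; linarith
  obtain ⟨C₁, hC₁⟩ : ∃ C₁ : ℝ, C₁ = C₀ * 2 ^ J * D ^ (e₀ * K) + 1 := ⟨_, rfl⟩
  have hC₁1 : 1 ≤ C₁ := by
    rw [hC₁]
    have : 0 ≤ C₀ * 2 ^ J * D ^ (e₀ * K) := by
      have : 0 ≤ D ^ (e₀ * K) := Real.rpow_nonneg (by linarith) _
      positivity
    linarith
  refine ⟨C₁ + 3 ^ n * D ^ e₀, by positivity, fun P q a β Φ hP hq hco hΦ hΦ2 => ?_⟩
  rw [← he₀]
  have hP0 : (1 : ℝ) ≤ P := by exact_mod_cast hP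
  have hq0 : (1 : ℝ) ≤ q := by exact_mod_cast hq
  have hqΦ : (q : ℝ) ≤ Φ := hΦ ▸ le_max_left _ _
  have hΦ0 : 1 ≤ Φ := hq0.trans hqΦ
  obtain ⟨L, hL⟩ : ∃ L, L = 1 + Real.log P := ⟨_, rfl⟩
  rw [← hL]
  have hL1 : 1 ≤ L := by rw [hL]; linarith [Real.log_nonneg hP0]
  have hLn : (1 : ℝ) ≤ L ^ n := one_le_pow₀ hL1
  obtain ⟨S, hS⟩ : ∃ S : ℝ, S = ‖formSum F P ((a : ℝ) / q + β)‖ := ⟨_, rfl⟩
  rw [← hS]
  have hS0 : 0 ≤ S := hS ▸ norm_nonneg _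
  rcases lt_or_ge Φ D with hsmall | hbig
  · have h1 : S ≤ 3 ^ n * (P : ℝ) ^ n := by
      rw [hS, ← mul_pow]
      exact (norm_formSum_le F P _).trans (pow_le_pow_left₀ (by positivity) (by linarith) n)
    have h2 : Φ ^ e₀ ≤ D ^ e₀ := Real.rpow_le_rpow (by linarith) hsmall.le he0
    calc S * Φ ^ e₀ ≤ 3 ^ n * (P : ℝ) ^ n * D ^ e₀ :=
          mul_le_mul h1 h2 (by positivity) (by positivity)
      _ ≤ 3 ^ n * (P : ℝ) ^ n * D ^ e₀ * L ^ n := le_mul_of_one_le_right (by positivity) hLn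
      _ ≤ (C₁ + 3 ^ n * D ^ e₀) * L ^ n * (P : ℝ) ^ n := by
        rw [show 3 ^ n * (P : ℝ) ^ n * D ^ e₀ * L ^ n = 3 ^ n * D ^ e₀ * L ^ n * (P : ℝ) ^ n by
          ring]
        gcongr
        linarith
  obtain ⟨x, hx⟩ : ∃ x : ℝ, x = (Φ / D) ^ (((m + 1 : ℕ) : ℝ)⁻¹) := ⟨_, rfl⟩
  have hΦD : 1 ≤ Φ / D := (one_le_div (by linarith)).2 hbig
  have hx1 : 1 ≤ x := hx ▸ Real.one_le_rpow hΦD (by positivity)
  have hxk : x ^ (m + 1) = Φ / D := by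
    rw [hx, ← Real.rpow_natCast, ← Real.rpow_mul (by linarith),
      inv_mul_cancel₀ (Nat.cast_ne_zero.2 (Nat.succ_ne_zero m)), Real.rpow_one]
  obtain ⟨R, hR⟩ : ∃ R : ℕ, R = ⌊x⌋₊ := ⟨_, rfl⟩
  have hR1 : 1 ≤ R := hR ▸ (Nat.one_le_floor_iff _).2 hx1
  have hRx : (R : ℝ) ≤ x := hR ▸ Nat.floor_le (by linarith)
  have hxR : x ≤ 2 * R := by
    have := (hR ▸ Nat.lt_floor_add_one x : x < (R : ℝ) + 1)
    have : (1 : ℝ) ≤ R := by exact_mod_cast hR1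
    linarith
  have hX : (0 : ℝ) < (P : ℝ) ^ (m + 2) := by positivity
  have hRP : R ≤ P := by
    refine Nat.cast_le (α := ℝ).1 (le_of_pow_le_pow_left₀ (Nat.succ_ne_zero m) (by positivity) ?_)
    refine (pow_le_pow_left₀ (by positivity) hRx _).trans ?_
    rw [Nat.succ_eq_add_one, hxk]
    refine (div_le_self (by linarith) hD1).trans
      (le_of_pow_le_pow_left₀ two_ne_zero (by positivity) (hΦ2.trans ?_))
    rw [← pow_mul]
    exact pow_le_pow_right₀ hP0 (by omega)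
  have hRk : (R : ℝ) ^ (m + 1) ≤ Φ / D := hxk ▸ pow_le_pow_left₀ (by positivity) hRx _
  rcases hdich P R ((a : ℝ) / q + β) hR1 hRP with h | ⟨q', a', hq', hq'le, hclose⟩
  · rw [← hL, ← hS, ← hK] at h
    have hRJ : (Φ / D) ^ (e₀ * K) ≤ 2 ^ J * (R : ℝ) ^ J := by
      have e : (Φ / D) ^ (e₀ * K) = x ^ J := by
        rw [hx, ← Real.rpow_natCast ((Φ / D) ^ _) J, ← Real.rpow_mul (by linarith), hJ, he₀,
          savingExp, hK]
        congr 1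
        push_cast
        field_simp
      rw [e, ← mul_pow]
      exact pow_le_pow_left₀ (by linarith) hxR J
    have hR0 : (1 : ℝ) ≤ R := by exact_mod_cast hR1
    obtain ⟨i, rfl⟩ : ∃ i, n = s + J + i := ⟨n - (s + J), by omega⟩
    have h2 : S ^ K * (R : ℝ) ^ J ≤ C₀ * ((P : ℝ) ^ (s + J + i)) ^ K * L ^ (s + J + i) := by
      refine le_of_mul_le_mul_right (le_trans ?_ h) (by positivity : (0 : ℝ) < (R : ℝ) ^ s)
      rw [mul_assoc, ← pow_add]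
      exact mul_le_mul_of_nonneg_left (pow_le_pow_right₀ hR0 (by omega)) (by positivity)
    obtain ⟨N, hN⟩ : ∃ N, N = s + J + i := ⟨_, rfl⟩
    rw [← hN] at h2 hLn ⊢
    have h3 : (S * Φ ^ e₀) ^ K ≤ (C₁ * L ^ N * (P : ℝ) ^ N) ^ K := by
      rw [mul_pow, ← Real.rpow_natCast (Φ ^ e₀) K, ← Real.rpow_mul (by linarith)]
      have e : Φ ^ (e₀ * K) = (Φ / D) ^ (e₀ * K) * D ^ (e₀ * K) := by
        rw [← Real.mul_rpow (by linarith) (by linarith), div_mul_cancel₀]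
        linarith
      rw [e]
      calc S ^ K * ((Φ / D) ^ (e₀ * K) * D ^ (e₀ * K))
          ≤ S ^ K * (2 ^ J * (R : ℝ) ^ J * D ^ (e₀ * K)) := by gcongr
        _ = 2 ^ J * D ^ (e₀ * K) * (S ^ K * (R : ℝ) ^ J) := by ring
        _ ≤ 2 ^ J * D ^ (e₀ * K) * (C₀ * ((P : ℝ) ^ N) ^ K * L ^ N) := by gcongr
        _ = (C₁ - 1) * L ^ N * ((P : ℝ) ^ N) ^ K := by rw [hC₁]; ring
        _ ≤ C₁ ^ K * (L ^ N) ^ K * ((P : ℝ) ^ N) ^ K := by
          refine mul_le_mul_of_nonneg_right (mul_le_mul ?_ (le_self_pow₀ hLn (by omega))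
            (by positivity) (by positivity)) (by positivity)
          exact (sub_le_self _ zero_le_one).trans (le_self_pow₀ hC₁1 (by omega))
        _ = _ := by rw [mul_pow, mul_pow]
    refine (le_of_pow_le_pow_left₀ (by omega) (by positivity) h3).trans ?_
    gcongr
    exact le_add_of_nonneg_right (by positivity)
  · exfalso
    have hC0D : C₀ * (Φ / D) ≤ Φ / 4 := by
      rw [hD, ← mul_div_assoc, div_le_div_iff₀ (by linarith) four_pos]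
      nlinarith
    have hq'4 : (q' : ℝ) ≤ Φ / 4 :=
      hq'le.trans ((mul_le_mul_of_nonneg_left hRk hC₀.le).trans hC0D)
    have hA : (R : ℝ) ^ (m + 1) / (P : ℝ) ^ (m + 2) ≤ Φ / (4 * (P : ℝ) ^ (m + 2)) := by
      rw [← div_div]
      refine div_le_div_of_nonneg_right (hRk.trans ?_) hX.le
      exact div_le_div_of_nonneg_left (by linarith) four_pos (by rw [hD]; linarith)
    have hB : (q : ℝ) * |β| ≤ Φ / (P : ℝ) ^ (m + 2) := by
      rw [le_div_iff₀ hX, mul_right_comm, hΦ]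
      exact le_max_right _ _
    have heq := eq_of_near_fraction hq hq'4 hclose hA hB le_rfl hqΦ hΦ2 hX
    have hdvd : (q : ℤ) ∣ (q' : ℤ) := hco.symm.dvd_of_dvd_mul_right ⟨a', heq.trans (mul_comm _ _)⟩
    have hqq : (q : ℝ) ≤ q' := by
      exact_mod_cast Nat.le_of_dvd hq' (Int.natCast_dvd_natCast.1 hdvd)
    have hΦeq : Φ = (q : ℝ) * (P : ℝ) ^ (m + 2) * |β| := by
      rcases max_choice (q : ℝ) ((q : ℝ) * (P : ℝ) ^ (m + 2) * |β|) with h | h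
      · rw [← hΦ] at h; linarith
      · rw [hΦ, h]
    have e : (q' : ℝ) * ((a : ℝ) / q + β) - a' = (q' : ℝ) * β := by
      have := congrArg (fun z : ℤ => (z : ℝ)) heq
      push_cast at this
      field_simp
      linear_combination this
    rw [e, abs_mul, Nat.abs_cast] at hclose
    have h5 := hclose.trans hA
    rw [le_div_iff₀ (by positivity)] at h5
    have h6 : (q : ℝ) * |β| * (4 * (P : ℝ) ^ (m + 2)) ≤
        (q' : ℝ) * |β| * (4 * (P : ℝ) ^ (m + 2)) := by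
      gcongr
    have h7 : (q : ℝ) * |β| * (4 * (P : ℝ) ^ (m + 2)) = 4 * Φ := by rw [hΦeq]; ring
    linarith

end FA.FormsManyVariables
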