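import Fermat.Agent.FormsManyVariables.Complete
import Fermat.Agent.FormsManyVariables.Pointwise
import Fermat.Agent.WaringAsymptotic.Positivity
import Mathlib.Analysis.PSeries

/-!
# The singular series of a form

The bound at `a / q` with the box of size `q ^ 4` gives `q ^ (-n) S (a, q) = O (q ^ (-2 - e / 2))`,
so the series converges absolutely. It is multiplicative and its factors count zeros modulo prime
powers.
-/

set_option autoImplicit false

noncomputable section

namespace FA.FormsManyVariables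

open Finset FA.ThreePrimes FA.WaringAsymptotic FA.CubicForms MvPolynomial Filter Topology

variable {n : ℕ} (F : MvPolynomial (Fin n) ℤ)

/-- The number of zeros modulo `q`. -/
def formZeroCount (q : ℕ) : ℕ := Nat.card {x : Fin n → ZMod q // aeval x F = 0}

/-- The term of the singular series. -/
def formTerm (q : ℕ) : ℂ := ∑ a ∈ unitResidues q, completeSum F q a / (q : ℂ) ^ n

/-- The singular series. -/
def singularSeries : ℝ := (∑' q, formTerm F q).re

theorem formTerm_zero : formTerm F 0 = 0 := by simp [formTerm, unitResidues]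

theorem formTerm_one : formTerm F 1 = 1 := by
  have h1 : residueBox n 1 = {fun _ => 0} := by
    ext r
    simp [mem_residueBox, funext_iff]
  have h2 : unitResidues 1 = {0} := by decide
  simp [formTerm, h2, completeSum, h1]

/-- **The complete sums.** -/
theorem exists_completeSum_le {m s : ℕ} (hF : F.IsHomogeneous (m + 2)) (hs : SingularDimLE F s)
    (hn : s + (m + 1) * 2 ^ (m + 2) < n) : ∃ C : ℝ, 0 < C ∧
      ∀ (q : ℕ) (a : ℤ), 1 ≤ q → IsCoprime a (q : ℤ) →
        ‖completeSum F q a‖ / (q : ℝ) ^ n ≤ C * (q : ℝ) ^ (-(2 + savingExp m / 2)) := by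
  obtain ⟨C₁, hC₁, happrox⟩ := exists_major_approx_form F hF
  obtain ⟨C₂, hC₂, hpoint⟩ := exists_pointwise F hF hs hn
  have he0 := savingExp_pos m
  have he1 := savingExp_le_one m
  have hn1 : 1 ≤ n := by omega
  have hn0 : (1 : ℝ) ≤ n := by exact_mod_cast hn1
  obtain ⟨L₀, hL₀, hlog⟩ := exists_log_le (δ := savingExp m / (8 * n)) (by positivity)
  refine ⟨C₂ * L₀ ^ n + C₁, by positivity, fun q a hq hco => ?_⟩
  obtain ⟨P, hP⟩ : ∃ P, P = q ^ 4 := ⟨_, rfl⟩
  have hqP : q ≤ P := hP ▸ Nat.le_self_pow four_ne_zero q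
  have hP1 : 1 ≤ P := hq.trans hqP
  have hq0 : (1 : ℝ) ≤ q := by exact_mod_cast hq
  have hP' : (P : ℝ) = (q : ℝ) ^ 4 := by rw [hP]; push_cast; rfl
  have hP0 : (1 : ℝ) ≤ P := by exact_mod_cast hP1
  have hq' : (0 : ℝ) < q := by linarith
  obtain ⟨T, hT⟩ : ∃ T, T = ‖completeSum F q a‖ / (q : ℝ) ^ n := ⟨_, rfl⟩
  rw [← hT]
  have hT0 : 0 ≤ T := hT ▸ by positivity
  have happ := happrox P q a 0 hq hqP
  simp only [abs_zero, mul_zero, add_zero, mul_one, formSum_zero] at happ
  rw [norm_sub_rev] at happ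
  have h2 := (norm_sub_norm_le _ _).trans happ
  rw [norm_mul, norm_div, norm_pow, Complex.norm_natCast, Complex.norm_natCast, ← hT] at h2
  have hp := hpoint P q a 0 (q : ℝ) hP1 hq hco (by simp) (by
    rw [hP', ← pow_mul]
    exact pow_le_pow_right₀ hq0 (by omega))
  rw [add_zero] at hp
  obtain ⟨Z, hZ⟩ : ∃ Z : ℝ, Z = (q : ℝ) ^ (-(2 + savingExp m / 2)) := ⟨_, rfl⟩
  rw [← hZ]
  have hZ0 : 0 < Z := hZ ▸ by positivity
  have hS : ‖formSum F P ((a : ℝ) / q)‖ ≤ C₂ * L₀ ^ n * Z * (P : ℝ) ^ n := by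
    refine le_of_mul_le_mul_right (hp.trans ?_)
      (by positivity : (0 : ℝ) < (q : ℝ) ^ (2 + savingExp m))
    have hL : (1 + Real.log P) ^ n ≤ L₀ ^ n * (q : ℝ) ^ (savingExp m / 2) := by
      refine (pow_le_pow_left₀ (by linarith [Real.log_nonneg hP0]) (hlog _ hP0) n).trans
        (le_of_eq ?_)
      rw [mul_pow, hP', ← Real.rpow_natCast (q : ℝ) 4, ← Real.rpow_mul hq'.le,
        ← Real.rpow_natCast (_ ^ _) n, ← Real.rpow_mul hq'.le]
      congr 2
      push_cast
      field_simp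
      ring
    calc C₂ * (1 + Real.log P) ^ n * (P : ℝ) ^ n
        ≤ C₂ * (L₀ ^ n * (q : ℝ) ^ (savingExp m / 2)) * (P : ℝ) ^ n := by gcongr
      _ = C₂ * L₀ ^ n * (P : ℝ) ^ n * (Z * (q : ℝ) ^ (2 + savingExp m)) := by
          rw [hZ, ← Real.rpow_add hq',
            show -(2 + savingExp m / 2) + (2 + savingExp m) = savingExp m / 2 by ring]
          ring
      _ = _ := by ring
  have hE : C₁ * q * (P : ℝ) ^ (n - 1) ≤ C₁ * Z * (P : ℝ) ^ n := by
    rw [show (P : ℝ) ^ n = (P : ℝ) ^ (n - 1) * P by rw [← pow_succ, Nat.sub_add_cancel hn1],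
      mul_comm ((P : ℝ) ^ (n - 1)) (P : ℝ), ← mul_assoc]
    refine mul_le_mul_of_nonneg_right ?_ (by positivity)
    rw [mul_assoc]
    refine mul_le_mul_of_nonneg_left ?_ hC₁.le
    rw [hZ, hP', ← Real.rpow_natCast (q : ℝ) 4, ← Real.rpow_add hq']
    exact Real.self_le_rpow_of_one_le hq0 (by push_cast; linarith)
  have hbox : T * (P : ℝ) ^ n ≤ T * (((2 * P + 1) ^ n : ℕ) : ℝ) := by
    gcongr
    push_cast
    exact pow_le_pow_left₀ (by linarith) (by linarith) n
  refine le_of_mul_le_mul_right (?_ : T * (P : ℝ) ^ n ≤ _) (by positivity : (0 : ℝ) < (P : ℝ) ^ n)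
  rw [add_mul, add_mul]
  linarith

theorem completeSum_mul {q₁ q₂ : ℕ} (hco : q₁.Coprime q₂) (h₁ : 0 < q₁) (h₂ : 0 < q₂)
    (r₁ r₂ : ℕ) : completeSum F (q₁ * q₂) (crtResidue q₁ q₂ r₁ r₂) =
      completeSum F q₁ r₁ * completeSum F q₂ r₂ := by
  rw [completeSum, completeSum, completeSum, sum_mul_sum, ← sum_product']
  have hmaps : ∀ z ∈ residueBox n (q₁ * q₂),
      ((fun i => z i % q₁, fun i => z i % q₂) : (Fin n → ℕ) × (Fin n → ℕ)) ∈
        residueBox n q₁ ×ˢ residueBox n q₂ := fun z _ =>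
    mem_product.2 ⟨mem_residueBox.2 fun i => Nat.mod_lt _ h₁,
      mem_residueBox.2 fun i => Nat.mod_lt _ h₂⟩
  have hinj : Set.InjOn
      (fun z => ((fun i => z i % q₁, fun i => z i % q₂) : (Fin n → ℕ) × (Fin n → ℕ)))
      (residueBox n (q₁ * q₂) : Set (Fin n → ℕ)) := fun z hz w hw e => funext fun i => by
    simp only [Prod.mk.injEq] at e
    have h := (Nat.modEq_and_modEq_iff_modEq_mul hco).1 ⟨congrFun e.1 i, congrFun e.2 i⟩
    rwa [Nat.ModEq, Nat.mod_eq_of_lt (mem_residueBox.1 hz i),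
      Nat.mod_eq_of_lt (mem_residueBox.1 hw i)] at h
  refine sum_bij (fun z _ => (fun i => z i % q₁, fun i => z i % q₂)) hmaps
    (fun z hz w hw e => hinj hz hw e) (fun b hb => ?_) fun z _ => ?_
  · obtain ⟨z, hz, e⟩ := surj_on_of_inj_on_of_card_le (fun z _ => _) hmaps
      (fun z w hz hw e => hinj hz hw e) (by
        rw [card_product, card_residueBox, card_residueBox, card_residueBox, mul_pow]) b hb
    exact ⟨z, hz, e.symm⟩
  · simp only
    obtain ⟨M, hM⟩ : ∃ M, M = eval (fun i => (z i : ℤ)) F := ⟨_, rfl⟩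
    rw [← hM, eAdd_natCast_div_congr (Nat.mul_pos h₁ h₂)
      (n := ((r₁ * q₂ + r₂ * q₁ : ℕ) : ℤ) * M) (by
        rw [Int.cast_mul, Int.cast_mul, Int.cast_natCast, Int.cast_natCast, crtResidue,
          ZMod.natCast_mod]),
      ← eAdd_eval_congr F h₁ (r₁ : ℤ) (x := fun i => (z i : ℤ))
        (y := fun i => ((z i % q₁ : ℕ) : ℤ)) fun i => by simp,
      ← eAdd_eval_congr F h₂ (r₂ : ℤ) (x := fun i => (z i : ℤ))
        (y := fun i => ((z i % q₂ : ℕ) : ℤ)) fun i => by simp, ← eAdd_add, ← hM]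
    congr 1
    have : (q₁ : ℝ) ≠ 0 := Nat.cast_ne_zero.2 h₁.ne'
    have : (q₂ : ℝ) ≠ 0 := Nat.cast_ne_zero.2 h₂.ne'
    push_cast
    field_simp

/-- **Multiplicativity.** -/
theorem formTerm_mul {m q : ℕ} (h : m.Coprime q) :
    formTerm F (m * q) = formTerm F m * formTerm F q := by
  rcases Nat.eq_zero_or_pos m with rfl | hm
  · simp [formTerm_zero]
  rcases Nat.eq_zero_or_pos q with rfl | hq
  · simp [formTerm_zero]
  simp only [formTerm]
  rw [sum_mul_sum, ← sum_product']
  have hinj : Set.InjOn (fun z : ℕ × ℕ => crtResidue m q z.1 z.2)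
      (unitResidues m ×ˢ unitResidues q : Finset (ℕ × ℕ)) := by
    intro z hz w hw e
    simp only [mem_coe, mem_product, unitResidues, mem_filter, mem_range] at hz hw
    have a1 := congrArg (fun r : ℕ => (r : ZMod m)) e
    have a2 := congrArg (fun r : ℕ => (r : ZMod q)) e
    simp only [crtResidue_cast_left, crtResidue_cast_right] at a1 a2
    have b1 := ((ZMod.isUnit_iff_coprime q m).2 h.symm).mul_right_cancel a1
    have b2 := ((ZMod.isUnit_iff_coprime m q).2 h).mul_right_cancel a2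
    rw [ZMod.natCast_eq_natCast_iff', Nat.mod_eq_of_lt hz.1.1, Nat.mod_eq_of_lt hw.1.1] at b1
    rw [ZMod.natCast_eq_natCast_iff', Nat.mod_eq_of_lt hz.2.1, Nat.mod_eq_of_lt hw.2.1] at b2
    exact Prod.ext b1 b2
  have himg : (unitResidues m ×ˢ unitResidues q).image
      (fun z : ℕ × ℕ => crtResidue m q z.1 z.2) = unitResidues (m * q) := by
    refine eq_of_subset_of_card_le (fun r hr => ?_) ?_
    · obtain ⟨z, hz, rfl⟩ := mem_image.1 hr
      exact crtResidue_mem h (mem_product.1 hz).1 (mem_product.1 hz).2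
    · rw [card_image_of_injOn hinj, card_product, card_unitResidues, card_unitResidues,
        card_unitResidues, Nat.totient_mul h]
  rw [← himg, sum_image hinj]
  refine sum_congr rfl fun z _ => ?_
  rw [completeSum_mul F h hm hq, Nat.cast_mul, mul_pow, mul_div_mul_comm]

theorem completeSum_mul_left {p q : ℕ} (hp : 0 < p) (hq : 0 < q) (b : ℤ) :
    completeSum F (p * q) (p * b) = (p : ℂ) ^ n * completeSum F q b := by
  rw [show (p : ℂ) ^ n * completeSum F q b = ∑ _w ∈ residueBox n p, completeSum F q b by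
      rw [sum_const, card_residueBox, nsmul_eq_mul, Nat.cast_pow],
    completeSum, completeSum, ← sum_product']
  refine sum_nbij' (fun z => (fun i => z i / q, fun i => z i % q))
    (fun w i => q * w.1 i + w.2 i) (fun z hz => ?_) (fun w hw => ?_)
    (fun z _ => funext fun i => Nat.div_add_mod _ _) (fun w hw => ?_) fun z _ => ?_
  · refine mem_product.2 ⟨mem_residueBox.2 fun i => ?_, mem_residueBox.2 fun i => Nat.mod_lt _ hq⟩
    rw [Nat.div_lt_iff_lt_mul hq]
    exact mem_residueBox.1 hz i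
  · rw [mem_product, mem_residueBox, mem_residueBox] at hw
    refine mem_residueBox.2 fun i => ?_
    calc q * w.1 i + w.2 i < q * w.1 i + q := Nat.add_lt_add_left (hw.2 i) _
      _ = q * (w.1 i + 1) := by ring
      _ ≤ p * q := by rw [mul_comm p]; exact Nat.mul_le_mul_left _ (hw.1 i)
  · rw [mem_product, mem_residueBox, mem_residueBox] at hw
    refine Prod.ext (funext fun i => ?_) (funext fun i => ?_)
    · show (q * w.1 i + w.2 i) / q = w.1 i
      rw [Nat.mul_add_div hq, Nat.div_eq_of_lt (hw.2 i), add_zero]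
    · show (q * w.1 i + w.2 i) % q = w.2 i
      rw [Nat.mul_add_mod, Nat.mod_eq_of_lt (hw.2 i)]
  · rw [← eAdd_eval_congr F hq b (x := fun i => (z i : ℤ))
      (y := fun i => ((z i % q : ℕ) : ℤ)) fun i => by simp]
    congr 1
    push_cast
    have : (p : ℝ) ≠ 0 := Nat.cast_ne_zero.2 hp.ne'
    have : (q : ℝ) ≠ 0 := Nat.cast_ne_zero.2 hq.ne'
    field_simp

/-- The sum over all residues. -/
theorem sum_range_completeSum {q : ℕ} (hq : 0 < q) :
    ∑ a ∈ range q, completeSum F q a = (q : ℂ) * (formZeroCount F q : ℂ) := by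
  classical
  have : NeZero q := ⟨hq.ne'⟩
  have hcount : formZeroCount F q =
      ((residueBox n q).filter fun r => (q : ℤ) ∣ eval (fun i => (r i : ℤ)) F).card := by
    rw [formZeroCount, Nat.card_eq_fintype_card, Fintype.card_subtype]
    refine card_nbij' (fun x i => (x i).val) (fun r i => (r i : ZMod q)) (fun x hx => ?_)
      (fun r hr => ?_) (fun x _ => funext fun i => ZMod.natCast_zmod_val _)
      fun r hr => funext fun i => ZMod.val_cast_of_lt (mem_residueBox.1 (mem_filter.1 hr).1 i)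
    · refine mem_coe.2 (mem_filter.2 ⟨mem_residueBox.2 fun i => ZMod.val_lt _, ?_⟩)
      rw [← ZMod.intCast_zmod_eq_zero_iff_dvd, ← aeval_intCast]
      simpa using (mem_filter.1 hx).2
    · refine mem_coe.2 (mem_filter.2 ⟨mem_univ _, ?_⟩)
      have := (mem_filter.1 hr).2
      rw [← ZMod.intCast_zmod_eq_zero_iff_dvd, ← aeval_intCast] at this
      simpa using this
  rw [hcount, card_filter, Nat.cast_sum, mul_sum]
  simp only [completeSum]
  rw [sum_comm]
  refine sum_congr rfl fun r _ => ?_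
  rw [sum_congr rfl fun (a : ℕ) _ => show
      eAdd ((((a : ℤ) * eval (fun i => (r i : ℤ)) F : ℤ) : ℝ) / q) =
      eAdd (((eval (fun i => (r i : ℤ)) F : ℤ) : ℝ) * a / q) by push_cast; ring_nf,
    sum_eAdd_grid hq]
  split_ifs <;> simp

theorem sum_formTerm_primePow {p : ℕ} (hp : p.Prime) : ∀ L : ℕ,
    ∑ l ∈ range (L + 1), formTerm F (p ^ l) =
      ((p ^ L : ℕ) : ℂ) * formZeroCount F (p ^ L) / ((p ^ L : ℕ) : ℂ) ^ n
  | 0 => by
    rw [sum_range_one, pow_zero, formTerm_one, ← sum_range_completeSum F one_pos]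
    have h1 : residueBox n 1 = {fun _ => 0} := by ext r; simp [mem_residueBox, funext_iff]
    simp [completeSum, h1]
  | L + 1 => by
    rw [sum_range_succ, sum_formTerm_primePow hp L,
      ← sum_range_completeSum F (pow_pos hp.pos _),
      ← sum_range_completeSum F (pow_pos hp.pos _), sum_div, sum_div,
      ← sum_filter_add_sum_filter_not (range (p ^ (L + 1))) (fun a => p ∣ a)]
    congr 1
    · have hp0 : 0 < p := hp.pos
      symm
      refine sum_nbij' (fun a => a / p) (fun b => p * b) (fun a ha => ?_) (fun b hb => ?_)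
        (fun a ha => Nat.mul_div_cancel' (mem_filter.1 ha).2)
        (fun b _ => Nat.mul_div_cancel_left b hp0) fun a ha => ?_
      · rw [mem_range, Nat.div_lt_iff_lt_mul hp0, ← pow_succ]
        exact mem_range.1 (mem_filter.1 ha).1
      · rw [mem_filter, mem_range, pow_succ']
        exact ⟨Nat.mul_lt_mul_of_pos_left (mem_range.1 hb) hp0, dvd_mul_right p b⟩
      · obtain ⟨b, rfl⟩ := (mem_filter.1 ha).2
        rw [Nat.mul_div_cancel_left b hp0, pow_succ' p L, Nat.cast_mul p b,
          completeSum_mul_left F hp0 (pow_pos hp0 L), Nat.cast_mul, mul_pow,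
          mul_div_mul_left _ _ (pow_ne_zero _ (Nat.cast_ne_zero.2 hp0.ne'))]
    · rw [formTerm, unitResidues]
      refine sum_congr (filter_congr fun a _ => ?_) fun a _ => rfl
      rw [Nat.coprime_pow_left_iff L.succ_pos, ← hp.coprime_iff_not_dvd]

end FA.FormsManyVariables
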