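import Fermat.Agent.FormsManyVariables.Examples
import Fermat.Agent.FormsManyVariables.Series
import Mathlib.LinearAlgebra.Basis.VectorSpace
import Mathlib.NumberTheory.Padics.Hensel
import Mathlib.NumberTheory.Padics.RingHoms

/-!
# Local zeros of nonsingular forms

The gradient of a nonsingular form vanishes only at the origin over every field of characteristic
zero, as some powers of the variables are rational combinations of the partial derivatives. By
Hensel's lemma a nonsingular `p`-adic zero gives `≫ p ^ (J (n - 1))` zeros modulo `p ^ J`, so the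
singular series is positive when there is one for every `p`.
-/

set_option autoImplicit false

noncomputable section

namespace FA.FormsManyVariables

open Finset MvPolynomial

variable {n : ℕ} (F : MvPolynomial (Fin n) ℤ)

theorem isHomogeneous_pderiv {d : ℕ} (hF : F.IsHomogeneous (d + 1)) (j : Fin n) :
    (pderiv j F).IsHomogeneous d := by
  rw [F.as_sum, map_sum]
  refine IsHomogeneous.sum _ _ _ fun e he => ?_
  rw [pderiv_monomial]
  rcases Nat.eq_zero_or_pos (e j) with h0 | h0
  · rw [h0, Nat.cast_zero, mul_zero, monomial_zero]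
    exact isHomogeneous_zero _ _ _
  refine isHomogeneous_monomial _ ?_
  have hdeg : e.degree = d + 1 := by
    rw [Finsupp.degree_eq_weight_one, ← Pi.one_def]
    exact hF (MvPolynomial.mem_support_iff.1 he)
  obtain ⟨e', he'⟩ : ∃ e', e' = e - Finsupp.single j 1 := ⟨_, rfl⟩
  have : e = e' + Finsupp.single j 1 := by
    rw [he', tsub_add_cancel_of_le (Finsupp.single_le_iff.2 h0)]
  rw [← he']
  rw [this, map_add, Finsupp.degree_single] at hdeg
  omega

theorem IsNonsingularForm.exists_combination {m : ℕ} (hF : F.IsHomogeneous (m + 2))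
    (hns : IsNonsingularForm F) (i : Fin n) : ∃ (N : ℕ) (B : Fin n → MvPolynomial (Fin n) ℚ),
      1 ≤ N ∧ (X i : MvPolynomial (Fin n) ℚ) ^ N =
        ∑ j, B j * map (Int.castRingHom ℚ) (pderiv j F) := by
  classical
  obtain ⟨M, hM⟩ := exists_pow_combination (fun j => map (Int.castRingHom ℂ) (pderiv j F))
    (fun _ => m + 1) (fun j => (isHomogeneous_pderiv F hF j).map _) (fun z hz => hns z fun j => by
      have := hz j
      rwa [eval_map, ← algebraMap_int_eq, ← aeval_def] at this) i
  obtain ⟨A, -, hA⟩ := hM (M + 1) (Nat.le_succ M)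
  obtain ⟨φ, hφ⟩ := LinearMap.exists_leftInverse_of_injective (Algebra.linearMap ℚ ℂ)
    (LinearMap.ker_eq_bot.2 (algebraMap ℚ ℂ).injective)
  have hφ' : ∀ x : ℚ, φ (x : ℂ) = x := fun x => by
    simpa using LinearMap.congr_fun hφ x
  obtain ⟨B, hB⟩ : ∃ B : Fin n → MvPolynomial (Fin n) ℚ,
      B = fun j => ∑ e ∈ (A j).support, monomial e (φ (coeff e (A j))) := ⟨_, rfl⟩
  have hBc : ∀ j e, coeff e (B j) = φ (coeff e (A j)) := fun j e => by
    rw [hB]
    simp only [coeff_sum, coeff_monomial, sum_ite_eq']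
    split_ifs with h
    · rfl
    · rw [notMem_support_iff.1 h, map_zero]
  refine ⟨M + 1, B, Nat.le_add_left _ _, MvPolynomial.ext _ _ fun e => ?_⟩
  have h := congrArg (fun Q => φ (coeff e Q)) hA
  simp only [coeff_sum, map_sum, coeff_mul, coeff_map] at h
  simp only [coeff_sum, coeff_mul, coeff_map, hBc]
  refine Eq.trans ?_ (h.trans (sum_congr rfl fun j _ => sum_congr rfl fun u _ => ?_))
  · rw [coeff_X_pow, coeff_X_pow]
    split_ifs
    · exact_mod_cast (hφ' 1).symm
    · exact (map_zero φ).symm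
  · rw [show coeff u.1 (A j) * (Int.castRingHom ℂ) (coeff u.2 (pderiv j F)) =
      coeff u.2 (pderiv j F) • coeff u.1 (A j) by rw [zsmul_eq_mul, mul_comm]; rfl, map_zsmul,
      zsmul_eq_mul, mul_comm]
    rfl

/-- The gradient vanishes only at the origin over any field of characteristic zero. -/
theorem IsNonsingularForm.exists_pderiv_ne {m : ℕ} (hF : F.IsHomogeneous (m + 2))
    (hns : IsNonsingularForm F) {K : Type*} [Field K] [CharZero K] {z : Fin n → K} (hz : z ≠ 0) :
    ∃ j, aeval z (pderiv j F) ≠ 0 := by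
  by_contra hcon
  push Not at hcon
  refine hz (funext fun i => ?_)
  obtain ⟨N, B, hN, hB⟩ := hns.exists_combination F hF i
  have h := congrArg (aeval z) hB
  simp only [map_pow, aeval_X, map_sum, map_mul] at h
  rw [sum_eq_zero fun j _ => ?_] at h
  · exact eq_zero_of_pow_eq_zero h
  rw [← algebraMap_int_eq, aeval_map_algebraMap, hcon j, mul_zero]

theorem aeval_ringHom {R S : Type*} [CommRing R] [CommRing S] (g : R →+* S) (x : Fin n → R) :
    aeval (fun i => g (x i)) F = g (aeval x F) := by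
  simp [aeval_eq_sum, map_sum, map_mul, map_prod, map_pow]

theorem derivative_aeval_line {R : Type*} [CommRing R] (x : Fin n → R) (j : Fin n)
    (G : MvPolynomial (Fin n) ℤ) :
    Polynomial.derivative (aeval (Function.update (fun i => Polynomial.C (x i)) j Polynomial.X) G) =
      aeval (Function.update (fun i => Polynomial.C (x i)) j Polynomial.X) (pderiv j G) := by
  induction G using MvPolynomial.induction_on with
  | C a => simp
  | add p q hp hq => simp [hp, hq]
  | mul_X p i hp =>
    rw [map_mul, aeval_X, Polynomial.derivative_mul, hp, pderiv_mul, map_add, map_mul, map_mul,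
      aeval_X]
    congr 2
    by_cases h : i = j
    · subst h; simp
    · simp [h]

theorem eval_aeval_line {R : Type*} [CommRing R] (x : Fin n → R) (j : Fin n) (t : R)
    (G : MvPolynomial (Fin n) ℤ) :
    (aeval (Function.update (fun i => Polynomial.C (x i)) j Polynomial.X) G).eval t =
      aeval (Function.update x j t) G := by
  rw [← Polynomial.coe_evalRingHom]
  refine Eq.trans ?_ ((aeval_ringHom G (Polynomial.evalRingHom t)
    (Function.update (fun i => Polynomial.C (x i)) j Polynomial.X)).symm.trans ?_)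
  · congr
  congr 2
  funext i
  by_cases h : i = j
  · subst h; simp
  · simp [h]

/-- **The lifting of a nonsingular approximate zero**, with a level fixed in advance. -/
theorem zeroCount_ge_of_near_zero {p : ℕ} [hp : Fact p.Prime] {x : Fin n → ℤ_[p]} {j : Fin n}
    {E : ℕ} (hx : ‖aeval x F‖ < ‖aeval x (pderiv j F)‖ ^ 2)
    (hE : (p : ℝ) ^ (-(E : ℤ)) <
      min (‖aeval x (pderiv j F)‖ ^ 2) ‖aeval x (pderiv j F)‖) (J : ℕ) :
    (p ^ J) ^ (n - 1) ≤ formZeroCount F (p ^ J) * (p ^ E) ^ (n - 1) := by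
  classical
  obtain ⟨D, hD⟩ : ∃ D, D = ‖aeval x (pderiv j F)‖ := ⟨_, rfl⟩
  rw [← hD] at hx hE
  rw [lt_min_iff] at hE
  have : NeZero (p ^ J) := ⟨pow_ne_zero _ hp.out.ne_zero⟩
  have hcount : formZeroCount F (p ^ J) =
      ((univ : Finset (Fin n → ZMod (p ^ J))).filter fun y => aeval y F = 0).card := by
    rw [formZeroCount, Nat.card_eq_fintype_card, Fintype.card_subtype]
  rcases Nat.lt_or_ge J E with hJ | hJ
  · refine (Nat.pow_le_pow_left (Nat.pow_le_pow_right hp.out.pos hJ.le) _).trans
      (Nat.le_mul_of_pos_left _ ?_)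
    rw [hcount]
    obtain ⟨f, hf⟩ : ∃ f : Polynomial ℤ_[p],
        f = aeval (Function.update (fun i => Polynomial.C (x i)) j Polynomial.X) F := ⟨_, rfl⟩
    have hval : ∀ t, Polynomial.aeval t f = aeval (Function.update x j t) F := fun t => by
      rw [hf, ← eval_aeval_line x j t F]; exact Polynomial.coe_aeval_eq_eval t ▸ rfl
    obtain ⟨t, ht, -⟩ := hensels_lemma (F := f) (a := x j) (by
      rw [hval, Polynomial.coe_aeval_eq_eval, hf, derivative_aeval_line, eval_aeval_line,
        Function.update_eq_self, ← hD]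
      exact hx)
    refine card_pos.2 ⟨fun i => PadicInt.toZModPow J (Function.update x j t i),
      mem_filter.2 ⟨mem_univ _, ?_⟩⟩
    rw [aeval_ringHom, (hval t).symm.trans ht, map_zero]
  obtain ⟨U, hU⟩ : ∃ U : Finset (Fin n → ℕ), U = Fintype.piFinset fun i =>
      if i = j then {0} else range (p ^ (J - E)) := ⟨_, rfl⟩
  obtain ⟨y, hy⟩ : ∃ y : (Fin n → ℕ) → Fin n → ℤ_[p],
      y = fun u i => x i + (p : ℤ_[p]) ^ E * (u i : ℤ_[p]) := ⟨_, rfl⟩
  have hclose : ∀ (G : MvPolynomial (Fin n) ℤ) (u : Fin n → ℕ),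
      ‖aeval (y u) G - aeval x G‖ ≤ (p : ℝ) ^ (-(E : ℤ)) := by
    intro G u
    rw [PadicInt.norm_le_pow_iff_mem_span_pow, ← PadicInt.ker_toZModPow, RingHom.mem_ker, map_sub,
      ← aeval_ringHom, ← aeval_ringHom, sub_eq_zero]
    congr 2
    funext i
    have h0 : PadicInt.toZModPow E ((p : ℤ_[p]) ^ E) = 0 := by
      rw [← RingHom.mem_ker, PadicInt.ker_toZModPow]
      exact Ideal.mem_span_singleton_self _
    simp [hy, h0]
  have key : ∀ u ∈ U, ∃ t : ℤ_[p], aeval (Function.update (y u) j t) F = 0 := by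
    intro u hu
    have huj : y u j = x j := by
      rw [hU, Fintype.mem_piFinset] at hu
      have := hu j
      rw [if_pos rfl, mem_singleton] at this
      simp [hy, this]
    obtain ⟨f, hf⟩ : ∃ f : Polynomial ℤ_[p],
        f = aeval (Function.update (fun i => Polynomial.C (y u i)) j Polynomial.X) F := ⟨_, rfl⟩
    have hval : ∀ t, Polynomial.aeval t f = aeval (Function.update (y u) j t) F := fun t => by
      rw [hf, ← eval_aeval_line (y u) j t F]; exact Polynomial.coe_aeval_eq_eval t ▸ rfl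
    have hder : ∀ t, Polynomial.aeval t (Polynomial.derivative f) =
        aeval (Function.update (y u) j t) (pderiv j F) := fun t => by
      rw [hf, derivative_aeval_line, ← eval_aeval_line (y u) j t]
      exact Polynomial.coe_aeval_eq_eval t ▸ rfl
    have hupd : Function.update (y u) j (x j) = y u := by rw [← huj, Function.update_eq_self]
    have hd : ‖aeval (y u) (pderiv j F)‖ = D := by
      have h1 := hclose (pderiv j F) u
      rw [hD]
      refine Padic.norm_eq_of_norm_sub_lt_right ?_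
      show ‖aeval (y u) (pderiv j F) - aeval x (pderiv j F)‖ < _
      exact h1.trans_lt (hD ▸ hE.2)
    obtain ⟨t, ht, -⟩ := hensels_lemma (F := f) (a := x j) (by
      rw [hval, hder, hupd, hd]
      have h1 : ‖aeval (y u) F - aeval x F‖ < D ^ 2 := (hclose F u).trans_lt hE.1
      rw [← sub_add_cancel (aeval (y u) F) (aeval x F)]
      exact (PadicInt.nonarchimedean _ _).trans_lt (max_lt h1 hx))
    exact ⟨t, (hval t).symm.trans ht⟩
  choose! t ht using key
  obtain ⟨Ψ, hΨ⟩ : ∃ Ψ : (Fin n → ℕ) → Fin n → ZMod (p ^ J),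
      Ψ = fun u i => PadicInt.toZModPow J (Function.update (y u) j (t u) i) := ⟨_, rfl⟩
  have hmaps : ∀ u ∈ U, Ψ u ∈ (univ : Finset (Fin n → ZMod (p ^ J))).filter
      fun y => aeval y F = 0 := fun u hu => mem_filter.2 ⟨mem_univ _, by
    rw [hΨ, aeval_ringHom, ht u hu, map_zero]⟩
  have hinj : Set.InjOn Ψ U := by
    intro u hu u' hu' e
    rw [hU, mem_coe, Fintype.mem_piFinset] at hu hu'
    funext i
    by_cases hi : i = j
    · have h1 := hu i
      have h2 := hu' i
      rw [if_pos hi, mem_singleton] at h1 h2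
      rw [h1, h2]
    · have h1 := hu i
      have h2 := hu' i
      rw [if_neg hi, mem_range] at h1 h2
      have e' := congrFun e i
      simp only [hΨ, Function.update_of_ne hi, hy, map_add, map_mul, map_pow, map_natCast,
        add_right_inj] at e'
      rw [← Nat.cast_pow, ← Nat.cast_mul, ← Nat.cast_mul, ZMod.natCast_eq_natCast_iff'] at e'
      have hlt : ∀ w, w < p ^ (J - E) → p ^ E * w < p ^ J := fun w hw => by
        calc p ^ E * w < p ^ E * p ^ (J - E) :=
              Nat.mul_lt_mul_of_pos_left hw (pow_pos hp.out.pos _)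
          _ = p ^ J := by rw [← pow_add, Nat.add_sub_cancel' hJ]
      rw [Nat.mod_eq_of_lt (hlt _ h1), Nat.mod_eq_of_lt (hlt _ h2)] at e'
      exact Nat.eq_of_mul_eq_mul_left (pow_pos hp.out.pos _) e'
  have hcard := card_le_card_of_injOn Ψ hmaps hinj
  rw [← hcount] at hcard
  refine le_trans (le_of_eq ?_) (Nat.mul_le_mul_right _ hcard)
  rw [hU, Fintype.card_piFinset, ← mul_prod_erase univ _ (mem_univ j), if_pos rfl, card_singleton,
    one_mul, prod_congr rfl fun i hi => by rw [if_neg (ne_of_mem_erase hi)], prod_const,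
    card_erase_of_mem (mem_univ j), card_univ, Fintype.card_fin, card_range, ← mul_pow, ← pow_add,
    Nat.sub_add_cancel hJ]

/-- **The lifting of a nonsingular zero.** -/
theorem exists_zeroCount_ge_of_zero {p : ℕ} [hp : Fact p.Prime] {x : Fin n → ℤ_[p]}
    (hx : aeval x F = 0) {j : Fin n} (hj : aeval x (pderiv j F) ≠ 0) : ∃ E : ℕ, ∀ J,
      (p ^ J) ^ (n - 1) ≤ formZeroCount F (p ^ J) * (p ^ E) ^ (n - 1) := by
  have hD := norm_pos_iff.2 hj
  obtain ⟨E, hE⟩ := exists_pow_lt_of_lt_one
    (show 0 < min (‖aeval x (pderiv j F)‖ ^ 2) ‖aeval x (pderiv j F)‖ by positivity)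
    (inv_lt_one_of_one_lt₀ (show (1 : ℝ) < p by exact_mod_cast hp.out.one_lt))
  refine ⟨E, zeroCount_ge_of_near_zero F (x := x) (j := j) (by rw [hx, norm_zero]; positivity) ?_⟩
  rwa [zpow_neg, zpow_natCast, ← inv_pow]

/-- A `p`-adic zero can be taken integral. -/
theorem exists_padicInt_zero_of_padic {d p : ℕ} [hp : Fact p.Prime] (hF : F.IsHomogeneous d)
    {z : Fin n → ℚ_[p]} (hz : z ≠ 0) (hFz : aeval z F = 0) :
    ∃ x : Fin n → ℤ_[p], (fun i => (x i : ℚ_[p])) ≠ 0 ∧ aeval x F = 0 := by
  classical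
  obtain ⟨i₁, hi₁⟩ := Function.ne_iff.1 hz
  obtain ⟨l, -, hmax⟩ := (univ : Finset (Fin n)).exists_max_image (fun i => ‖z i‖)
    ⟨i₁, mem_univ _⟩
  have hl : z l ≠ 0 := norm_pos_iff.1
    (lt_of_lt_of_le (norm_pos_iff.2 hi₁) (hmax i₁ (mem_univ _)))
  obtain ⟨x, hx⟩ : ∃ x : Fin n → ℤ_[p], ∀ i, (x i : ℚ_[p]) = z i / z l :=
    ⟨fun i => ⟨z i / z l, by
      rw [norm_div, div_le_one (norm_pos_iff.2 hl)]
      exact hmax i (mem_univ i)⟩, fun i => rfl⟩
  refine ⟨x, fun h => ?_, ?_⟩
  · have := congrFun h l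
    simp [hx, hl] at this
  have e : (fun i => PadicInt.Coe.ringHom (x i)) = (z l)⁻¹ • z := funext fun i => by
    show (x i : ℚ_[p]) = _
    rw [hx, Pi.smul_apply, smul_eq_mul, div_eq_inv_mul]
  have h := aeval_ringHom F (PadicInt.Coe.ringHom (p := p)) x
  rw [e, aeval_smul F hF, hFz, mul_zero] at h
  exact PadicInt.ext h.symm

theorem IsNonsingularForm.exists_zeroCount_ge {m p : ℕ} [hp : Fact p.Prime]
    (hF : F.IsHomogeneous (m + 2)) (hns : IsNonsingularForm F) {z : Fin n → ℚ_[p]} (hz : z ≠ 0)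
    (hFz : aeval z F = 0) : ∃ E : ℕ, ∀ J,
      (p ^ J) ^ (n - 1) ≤ formZeroCount F (p ^ J) * (p ^ E) ^ (n - 1) := by
  obtain ⟨x, hx, hxF⟩ := exists_padicInt_zero_of_padic F hF hz hFz
  obtain ⟨j, hj⟩ := hns.exists_pderiv_ne F hF hx
  refine exists_zeroCount_ge_of_zero F hxF (j := j) fun h => hj ?_
  have := aeval_ringHom (pderiv j F) (PadicInt.Coe.ringHom (p := p)) x
  rw [h, map_zero] at this
  exact this

end FA.FormsManyVariables
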