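import Fermat.Agent.FormsManyVariables.Twist
import Mathlib.NumberTheory.EulerProduct.Basic
import Mathlib.Algebra.Order.Field.GeomSum

/-!
# The singular series is positive

It is the Euler product of the local densities; these are positive when for every `p` the zeros
modulo `p ^ J` number `≫ p ^ (J (n - 1))`, and are near `1` for large `p`.
-/

set_option autoImplicit false

noncomputable section

namespace FA.FormsManyVariables

open Finset FA.ThreePrimes FA.WaringAsymptotic FA.CubicForms Filter Topology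

variable {n : ℕ} (F : MvPolynomial (Fin n) ℤ)

/-- The local density. -/
def formDensity (p : ℕ) : ℂ := ∑' l, formTerm F (p ^ l)

theorem tendsto_formDensity {p : ℕ} (hp : p.Prime)
    (hsum : Summable fun q => ‖formTerm F q‖) : Tendsto
      (fun L => ((((p ^ L : ℕ) : ℝ) * formZeroCount F (p ^ L) / ((p ^ L : ℕ) : ℝ) ^ n : ℝ) : ℂ))
      atTop (𝓝 (formDensity F p)) := by
  have hpsum : Summable fun l => formTerm F (p ^ l) :=
    hsum.of_norm.comp_injective (Nat.pow_right_injective hp.two_le)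
  refine (hpsum.hasSum.tendsto_sum_nat.comp (tendsto_add_atTop_nat 1)).congr fun L => ?_
  rw [Function.comp_apply, sum_formTerm_primePow F hp L]
  push_cast
  rfl

/-- **The singular series is bounded below** along a family of polynomials: a common summable
majorant of the terms, and a common lifting level at every prime. -/
theorem exists_singularSeries_ge_family {ι : Type*} (G : ι → MvPolynomial (Fin n) ℤ) (hn : 1 ≤ n)
    {b : ℕ → ℝ} (hb : Summable b) (hle : ∀ i q, ‖formTerm (G i) q‖ ≤ b q)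
    (hloc : ∀ p : ℕ, p.Prime → ∃ E : ℕ, ∀ i J,
      (p ^ J) ^ (n - 1) ≤ formZeroCount (G i) (p ^ J) * (p ^ E) ^ (n - 1)) :
    ∃ c : ℝ, 0 < c ∧ ∀ i, c ≤ singularSeries (G i) := by
  classical
  rcases isEmpty_or_nonempty ι with hι | hι
  · exact ⟨1, one_pos, fun i => isEmptyElim i⟩
  have hb0 : ∀ q, 0 ≤ b q := fun q => (norm_nonneg _).trans (hle hι.some q)
  have hsum : ∀ i, Summable fun q => ‖formTerm (G i) q‖ := fun i =>
    .of_nonneg_of_le (fun q => norm_nonneg _) (hle i) hb
  choose! E hE using hloc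
  obtain ⟨a, ha⟩ : ∃ a : ℕ → ℝ, a = fun p => if p.Prime then ∑' l, b (p ^ (l + 1)) else 0 :=
    ⟨_, rfl⟩
  have ha0 : ∀ p, 0 ≤ a p := fun p => by
    rw [ha]; dsimp only; split_ifs
    exacts [tsum_nonneg fun _ => hb0 _, le_rfl]
  have hasum : Summable a := by
    have h1 : Summable fun z : Nat.Primes × ℕ => b ((z.1 : ℕ) ^ (z.2 + 1)) :=
      hb.comp_injective (i := fun z : Nat.Primes × ℕ => (z.1 : ℕ) ^ (z.2 + 1)) fun z w h => by
        have hp := Nat.Prime.pow_inj z.1.2 w.1.2 h
        exact Prod.ext (Subtype.ext hp.1) hp.2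
    have h2 := h1.prod
    refine ((Subtype.val_injective (p := Nat.Prime)).summable_iff (f := a)
      fun p hp => ?_).1 (h2.congr fun p => ?_)
    · rw [ha]; dsimp only
      rw [if_neg]
      exact fun h => hp ⟨⟨p, h⟩, rfl⟩
    · rw [Function.comp_apply, ha]; dsimp only
      rw [if_pos p.2]
  obtain ⟨p₀, hp₀⟩ := ((tendsto_sum_nat_add a).eventually
    (eventually_le_nhds (show (0 : ℝ) < 1 / 2 by norm_num))).exists
  obtain ⟨low, hlow'⟩ : ∃ low : ℕ → ℝ, low = fun p => 1 / ((p ^ E p : ℕ) : ℝ) ^ (n - 1) :=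
    ⟨_, rfl⟩
  have hlow0 : ∀ p : ℕ, p.Prime → 0 < low p := fun p hp => by
    have := hp.pos
    rw [hlow']; positivity
  refine ⟨(∏ p ∈ Nat.primesBelow p₀, low p) * (1 / 2),
    mul_pos (prod_pos fun p hp => hlow0 p (Nat.mem_primesBelow.1 hp).2) (by norm_num),
    fun i => ?_⟩
  obtain ⟨d, hd⟩ : ∃ d : ℕ → ℝ, d = fun p => (formDensity (G i) p).re := ⟨_, rfl⟩
  have hdre : ∀ p : ℕ, p.Prime → formDensity (G i) p = (d p : ℂ) := fun p hp => by
    refine Complex.ext (by rw [hd]; rfl) ?_
    rw [Complex.ofReal_im]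
    refine tendsto_nhds_unique
      ((Complex.continuous_im.tendsto _).comp (tendsto_formDensity (G i) hp (hsum i)))
      (tendsto_const_nhds.congr fun L => ?_)
    rw [Function.comp_apply, Complex.ofReal_im]
  have hd0 : ∀ p : ℕ, p.Prime → low p ≤ d p := fun p hp => by
    have := hp.pos
    rw [hd, hlow']
    refine ge_of_tendsto
      ((Complex.continuous_re.tendsto _).comp (tendsto_formDensity (G i) hp (hsum i)))
      (eventually_atTop.2 ⟨E p, fun L _ => ?_⟩)
    rw [Function.comp_apply, Complex.ofReal_re, div_le_div_iff₀ (by positivity)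
      (by positivity), one_mul]
    calc ((p ^ L : ℕ) : ℝ) ^ n = (((p ^ L) * (p ^ L) ^ (n - 1) : ℕ) : ℝ) := by
          rw [← pow_succ', Nat.sub_add_cancel hn]; push_cast; rfl
      _ ≤ ((p ^ L * (formZeroCount (G i) (p ^ L) * (p ^ E p) ^ (n - 1)) : ℕ) : ℝ) :=
          Nat.cast_le.2 (Nat.mul_le_mul_left _ (hE p hp i L))
      _ = _ := by push_cast; ring
  have hnear : ∀ p, p.Prime → 1 - a p ≤ d p := fun p hp => by
    have hinj : Function.Injective fun l : ℕ => p ^ (l + 1) := fun l m h =>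
      Nat.succ_injective (Nat.pow_right_injective hp.two_le h)
    have e : formDensity (G i) p = 1 + ∑' l, formTerm (G i) (p ^ (l + 1)) := by
      have hp' : Summable fun l => formTerm (G i) (p ^ l) :=
        (hsum i).of_norm.comp_injective (Nat.pow_right_injective hp.two_le)
      rw [formDensity, hp'.tsum_eq_zero_add, pow_zero, formTerm_one]
    have h1 : ‖∑' l, formTerm (G i) (p ^ (l + 1))‖ ≤ a p := by
      rw [ha]; dsimp only
      rw [if_pos hp]
      refine (norm_tsum_le_tsum_norm ((hsum i).comp_injective hinj)).trans ?_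
      exact ((hsum i).comp_injective hinj).tsum_le_tsum (fun l => hle i _)
        (hb.comp_injective hinj)
    have h2 := (abs_le.1 ((Complex.abs_re_le_norm _).trans h1)).1
    rw [hd]
    dsimp only
    rw [e, Complex.add_re, Complex.one_re]
    linarith
  rw [singularSeries]
  have hEu := EulerProduct.eulerProduct (f := formTerm (G i)) (formTerm_one (G i))
    (fun h => formTerm_mul (G i) h) (hsum i) (formTerm_zero (G i))
  refine ge_of_tendsto ((Complex.continuous_re.tendsto _).comp hEu)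
    (eventually_atTop.2 ⟨p₀, fun m hm => ?_⟩)
  obtain ⟨S, hS⟩ : ∃ S, S = Nat.primesBelow m := ⟨_, rfl⟩
  have hprod : ∏ p ∈ S, ∑' l, formTerm (G i) (p ^ l) = ((∏ p ∈ S, d p : ℝ) : ℂ) := by
    rw [Complex.ofReal_prod]
    exact prod_congr rfl fun p hp => hdre p (Nat.mem_primesBelow.1 (hS ▸ hp)).2
  simp only [Function.comp, ← hS, hprod, Complex.ofReal_re]
  have hlow : S.filter (fun p => p < p₀) = Nat.primesBelow p₀ := by
    ext p
    simp only [hS, mem_filter, Nat.mem_primesBelow]
    exact ⟨fun h => ⟨h.2, h.1.2⟩, fun h => ⟨⟨h.1.trans_le hm, h.2⟩, h.1⟩⟩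
  rw [← prod_filter_mul_prod_filter_not S (fun p => p < p₀), hlow]
  refine mul_le_mul (prod_le_prod (fun p hp => (hlow0 p (Nat.mem_primesBelow.1 hp).2).le)
    fun p hp => hd0 p (Nat.mem_primesBelow.1 hp).2) ?_ (by norm_num)
      (prod_nonneg fun p hp => ((hlow0 p (Nat.mem_primesBelow.1 hp).2).le).trans
        (hd0 p (Nat.mem_primesBelow.1 hp).2))
  have hsum' : ∑ p ∈ S.filter (fun p => ¬p < p₀), a p ≤ 1 / 2 := by
    refine le_trans ?_ hp₀
    refine (sum_le_sum_of_subset_of_nonneg (t := Ico p₀ m) (fun p hp => ?_)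
      fun p _ _ => ha0 p).trans ?_
    · rw [hS, mem_filter, Nat.mem_primesBelow] at hp
      exact mem_Ico.2 ⟨not_lt.1 hp.2, hp.1.1⟩
    · rw [sum_Ico_eq_sum_range]
      simp only [add_comm p₀]
      exact (((summable_nat_add_iff p₀).2 hasum)).sum_le_tsum _ fun i _ => ha0 _
  have hle1 : ∀ p ∈ S.filter (fun p => ¬p < p₀), a p ≤ 1 := fun p hp =>
    ((single_le_sum (fun q _ => ha0 q) hp).trans hsum').trans (by norm_num)
  refine le_trans (by linarith) ((one_sub_sum_le_prod _ a (fun p _ => ha0 p) hle1).trans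
    (prod_le_prod (fun p hp => sub_nonneg.2 (hle1 p hp)) fun p hp => ?_))
  exact hnear p (Nat.mem_primesBelow.1 (hS ▸ (mem_filter.1 hp).1)).2

/-- **The singular series is positive.** -/
theorem singularSeries_pos {m s : ℕ} (hF : F.IsHomogeneous (m + 2)) (hs : SingularDimLE F s)
    (hn : s + (m + 1) * 2 ^ (m + 2) < n) (hloc : ∀ p : ℕ, p.Prime → ∃ E : ℕ, ∀ J,
      (p ^ J) ^ (n - 1) ≤ formZeroCount F (p ^ J) * (p ^ E) ^ (n - 1)) :
    0 < singularSeries F := by
  obtain ⟨C, -, hsum, -⟩ := exists_term_tail F hF hs hn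
  obtain ⟨c, hc, h⟩ := exists_singularSeries_ge_family (fun _ : Unit => F)
    (show 1 ≤ n by omega) hsum (fun _ _ => le_rfl)
    (fun p hp => (hloc p hp).imp fun E hE _ J => hE J)
  exact hc.trans_le (h ())

end FA.FormsManyVariables
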