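import Fermat.Agent.FormsManyVariables.Fibre

/-!
# Nonsingular forms

A form whose gradient vanishes only at the origin of `ℂ ^ n` has singular locus of dimension `0`,
so that the theorems apply to it; the diagonal forms with nonzero coefficients are such forms.
-/

set_option autoImplicit false

noncomputable section

namespace FA.FormsManyVariables

open Finset MvPolynomial

variable {n : ℕ}

/-- The gradient vanishes only at the origin. -/
def IsNonsingularForm (F : MvPolynomial (Fin n) ℤ) : Prop :=
  ∀ z : Fin n → ℂ, (∀ j, aeval z (pderiv j F) = 0) → z = 0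

theorem singularDimLE_zero_iff (F : MvPolynomial (Fin n) ℤ) :
    SingularDimLE F 0 ↔ IsNonsingularForm F := by
  constructor
  · rintro ⟨ℓ, hℓ⟩ z hz
    exact hℓ z hz fun a => a.elim0
  · exact fun h => ⟨fun a => a.elim0, fun z hz _ => h z hz⟩

/-- The diagonal form with coefficients `c`. -/
def diagonalForm (c : Fin n → ℤ) (d : ℕ) : MvPolynomial (Fin n) ℤ := ∑ i, C (c i) * X i ^ d

theorem diagonalForm_isHomogeneous (c : Fin n → ℤ) (d : ℕ) :
    (diagonalForm c d).IsHomogeneous d :=
  IsHomogeneous.sum _ _ _ fun i _ => by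
    simpa using (isHomogeneous_C (Fin n) (c i)).mul ((isHomogeneous_X ℤ i).pow d)

theorem diagonalForm_isNonsingular {c : Fin n → ℤ} (hc : ∀ i, c i ≠ 0) {d : ℕ} (hd : 2 ≤ d) :
    IsNonsingularForm (diagonalForm c d) := by
  intro z hz
  funext j
  have h := hz j
  rw [diagonalForm, map_sum, map_sum, sum_eq_single j (fun i _ hi => by simp [pderiv_X_of_ne hi])
    fun h => absurd (mem_univ j) h] at h
  rw [pderiv_C_mul, pderiv_pow, pderiv_X_self, mul_one, map_mul, map_mul, map_pow, map_natCast,
    aeval_X, aeval_C, algebraMap_int_eq, eq_intCast] at h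
  have h1 := mul_eq_zero.1 ((mul_eq_zero.1 h).resolve_left (Int.cast_ne_zero.2 (hc j)))
  exact eq_zero_of_pow_eq_zero (h1.resolve_left (Nat.cast_ne_zero.2 (by omega)))

end FA.FormsManyVariables
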