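import Fermat.Agent.FormsManyVariables.Twist
import Fermat.Agent.FormsManyVariables.Pointwise
import Fermat.Agent.WaringAsymptotic.WeylMeanValue
import Mathlib.Analysis.SpecialFunctions.ImproperIntegrals
import Mathlib.MeasureTheory.Integral.IntervalIntegral.Basic
import Mathlib.MeasureTheory.Measure.Haar.NormedSpace

/-!
# The singular integral

The sum over the box is `P ^ n I (β P ^ d)` up to `O (P ^ (n - 1) (1 + P ^ d |β|))`, where
`I (γ)` is the integral of `e (γ F)` over `[-1, 1] ^ n`; by the bound at one fraction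
`I (γ) = O (1 / (1 + γ ^ 2))`, so that `J = ∫ I` and `J (c) = ∫ I (γ) e (- γ c)` converge
absolutely.
-/

set_option autoImplicit false

noncomputable section

namespace FA.FormsManyVariables

open Finset FA.ThreePrimes FA.WaringAsymptotic FA.CubicForms MvPolynomial MeasureTheory
open scoped Real Pointwise ComplexConjugate

variable {n : ℕ} (F : MvPolynomial (Fin n) ℤ)

/-- `[-1, 1] ^ n`. -/
def cube (n : ℕ) : Set (Fin n → ℝ) := Set.Icc (fun _ => -1) fun _ => 1

/-- The integral of `e (γ F)` over the cube. -/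
def formIntegral (γ : ℝ) : ℂ := ∫ y in cube n, eAdd (γ * aeval y F)

/-- The singular integral. -/
def singularIntegral : ℝ := (∫ γ : ℝ, formIntegral F γ).re

/-- `I (γ) e (- γ c)`. -/
def twistedIntegral (c γ : ℝ) : ℂ := formIntegral F γ * eAdd (-(γ * c))

/-- The singular integral of `F x = N`, at `c = N / P ^ d`. -/
def repIntegral (c : ℝ) : ℝ := (∫ γ : ℝ, twistedIntegral F c γ).re

theorem twistedIntegral_zero : twistedIntegral F 0 = formIntegral F := by
  funext γ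
  simp [twistedIntegral]

theorem repIntegral_zero : repIntegral F 0 = singularIntegral F := by
  rw [repIntegral, twistedIntegral_zero, singularIntegral]

theorem continuous_eAdd : Continuous eAdd := by
  unfold eAdd
  fun_prop

theorem continuous_aeval_form : Continuous fun y : Fin n → ℝ => aeval y F := by
  simp only [aeval_eq_sum]
  fun_prop

theorem integrableOn_eAdd_form (γ : ℝ) {s : Set (Fin n → ℝ)} (a b : Fin n → ℝ)
    (hs : s ⊆ Set.Icc a b) : IntegrableOn (fun y => eAdd (γ * aeval y F)) s :=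
  ((continuous_eAdd.comp (continuous_const.mul (continuous_aeval_form F))).continuousOn
    |>.integrableOn_compact isCompact_Icc).mono_set hs

theorem volume_cube_lt_top : volume (cube n) < ⊤ := isCompact_Icc.measure_lt_top

theorem volume_real_cube : volume.real (cube n) = 2 ^ n := by
  rw [cube, Measure.real, Real.volume_Icc_pi_toReal fun _ => by norm_num]
  simp [show (1 : ℝ) - -1 = 2 by norm_num]

theorem norm_formIntegral_le (γ : ℝ) : ‖formIntegral F γ‖ ≤ 2 ^ n := by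
  refine (norm_setIntegral_le_of_norm_le_const (C := 1) volume_cube_lt_top fun y _ => ?_).trans ?_
  · rw [norm_eAdd]
  · rw [one_mul, volume_real_cube]

theorem mem_cube_iff {y : Fin n → ℝ} : y ∈ cube n ↔ ∀ i, |y i| ≤ 1 := by
  simp only [cube, Set.mem_Icc, Pi.le_def, abs_le]
  exact ⟨fun h i => ⟨h.1 i, h.2 i⟩, fun h => ⟨fun i => (h i).1, fun i => (h i).2⟩⟩

theorem formIntegral_neg (γ : ℝ) : formIntegral F (-γ) = conj (formIntegral F γ) := by
  rw [formIntegral, formIntegral, ← integral_conj]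
  simp only [conj_eAdd, neg_mul]

theorem norm_formIntegral_sub_le {d : ℕ} (hF : F.IsHomogeneous d) (γ δ : ℝ) :
    ‖formIntegral F γ - formIntegral F δ‖ ≤ 2 * π * formSize F * 2 ^ n * |γ - δ| := by
  have hi : ∀ t, IntegrableOn (fun y => eAdd (t * aeval y F)) (cube n) := fun t =>
    integrableOn_eAdd_form F t _ _ Set.Subset.rfl
  rw [formIntegral, formIntegral, ← integral_sub (hi γ) (hi δ)]
  refine (norm_setIntegral_le_of_norm_le_const (C := 2 * π * formSize F * |γ - δ|)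
    volume_cube_lt_top fun y hy => ?_).trans (le_of_eq ?_)
  · rw [mul_comm γ, mul_comm δ]
    refine (norm_eAdd_mul_sub_le _ _ _).trans ?_
    have h := abs_aeval_le F hF y (mem_cube_iff.1 hy)
    rw [one_pow, mul_one] at h
    rw [mul_assoc (2 * π)]
    gcongr
  · rw [volume_real_cube]; ring

theorem continuous_formIntegral {d : ℕ} (hF : F.IsHomogeneous d) :
    Continuous (formIntegral F) := by
  refine (LipschitzWith.of_dist_le' (K := 2 * π * formSize F * 2 ^ n) fun γ δ => ?_).continuous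
  rw [dist_eq_norm, Real.dist_eq]
  exact norm_formIntegral_sub_le F hF γ δ

theorem norm_twistedIntegral (c γ : ℝ) : ‖twistedIntegral F c γ‖ = ‖formIntegral F γ‖ := by
  rw [twistedIntegral, norm_mul, norm_eAdd, mul_one]

theorem norm_twistedIntegral_sub_le {d : ℕ} (hF : F.IsHomogeneous d) {B : ℝ} {c : ℝ}
    (hc : |c| ≤ B) (γ δ : ℝ) : ‖twistedIntegral F c γ - twistedIntegral F c δ‖ ≤
      2 * π * ((formSize F : ℝ) + B) * 2 ^ n * |γ - δ| := by
  rw [twistedIntegral, twistedIntegral, show formIntegral F γ * eAdd (-(γ * c)) -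
      formIntegral F δ * eAdd (-(δ * c)) = (formIntegral F γ - formIntegral F δ) *
        eAdd (-(γ * c)) + formIntegral F δ * (eAdd ((-c) * γ) - eAdd ((-c) * δ)) by ring_nf]
  refine (norm_add_le _ _).trans ?_
  rw [norm_mul, norm_eAdd, mul_one, norm_mul]
  refine (add_le_add (norm_formIntegral_sub_le F hF γ δ) (mul_le_mul (norm_formIntegral_le F δ)
    ((norm_eAdd_mul_sub_le _ _ _).trans (mul_le_mul_of_nonneg_left
      (mul_le_mul_of_nonneg_right ((abs_neg c).trans_le hc) (abs_nonneg _)) (by positivity)))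
        (norm_nonneg _) (by positivity))).trans (le_of_eq ?_)
  ring

theorem continuous_twistedIntegral {d : ℕ} (hF : F.IsHomogeneous d) (c : ℝ) :
    Continuous (twistedIntegral F c) :=
  (continuous_formIntegral F hF).mul (continuous_eAdd.comp (by fun_prop))

/-- The unit cell at a point. -/
def unitCell (x : Fin n → ℤ) : Set (Fin n → ℝ) :=
  Set.pi Set.univ fun i => Set.Ico (x i : ℝ) ((x i : ℝ) + 1)

theorem mem_unitCell {x : Fin n → ℤ} {y : Fin n → ℝ} :
    y ∈ unitCell x ↔ ∀ i, ⌊y i⌋ = x i := by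
  simp [unitCell, Int.floor_eq_iff]

/-- **The sum and the integral.** -/
theorem exists_sum_integral {m : ℕ} (hF : F.IsHomogeneous (m + 2)) :
    ∃ C : ℝ, 0 < C ∧ ∀ (P : ℕ) (β : ℝ), 1 ≤ P →
      ‖formSum F P β - (P : ℂ) ^ n * formIntegral F (β * (P : ℝ) ^ (m + 2))‖ ≤
        C * (P : ℝ) ^ (n - 1) * (1 + (P : ℝ) ^ (m + 2) * |β|) := by
  classical
  obtain ⟨L, hL⟩ : ∃ L : ℝ, L = 2 * π * (((m + 2 : ℕ) : ℝ) * formSize F * 2 ^ (m + 1)) :=
    ⟨_, rfl⟩
  have hL0 : 0 ≤ L := hL ▸ by positivity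
  refine ⟨(n : ℝ) * 3 ^ n + 2 ^ n * L + 1, by positivity, fun P β hP => ?_⟩
  have hP0 : (1 : ℝ) ≤ P := by exact_mod_cast hP
  obtain ⟨f, hf⟩ : ∃ f : (Fin n → ℝ) → ℂ, f = fun y => eAdd (β * aeval y F) := ⟨_, rfl⟩
  obtain ⟨X, hX⟩ : ∃ X : Finset (Fin n → ℤ),
      X = Fintype.piFinset fun _ => Finset.Ico (-(P : ℤ)) P := ⟨_, rfl⟩
  have hint : ∀ x : Fin n → ℤ, IntegrableOn f (unitCell x) := fun x => by
    rw [hf]
    refine integrableOn_eAdd_form F β (fun i => (x i : ℝ)) (fun i => (x i : ℝ) + 1) ?_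
    exact fun y hy => ⟨fun i => (hy i trivial).1, fun i => (hy i trivial).2.le⟩
  have hscale : (P : ℂ) ^ n * formIntegral F (β * (P : ℝ) ^ (m + 2)) =
      ∫ y in Set.Icc (fun _ => -(P : ℝ)) (fun _ => (P : ℝ)), f y := by
    have hP' : (0 : ℝ) < P := by linarith
    have h1 := Measure.setIntegral_comp_smul_of_pos (volume : Measure (Fin n → ℝ)) f (cube n) hP'
    have h2 : ∀ y : Fin n → ℝ, f ((P : ℝ) • y) =
        eAdd (β * (P : ℝ) ^ (m + 2) * aeval y F) := fun y => by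
      rw [hf]
      simp only [aeval_smul F hF, mul_assoc]
    have h3 : (P : ℝ) • cube n = Set.Icc (fun _ => -(P : ℝ)) (fun _ => (P : ℝ)) := by
      ext y
      rw [Set.mem_smul_set_iff_inv_smul_mem₀ hP'.ne']
      simp only [cube, Set.mem_Icc, Pi.le_def, Pi.smul_apply, smul_eq_mul]
      refine and_congr (forall_congr' fun i => ?_) (forall_congr' fun i => ?_)
      · rw [le_inv_mul_iff₀ hP']; simp
      · rw [inv_mul_le_iff₀ hP']; simp
    simp only [h2, h3, Module.finrank_fintype_fun_eq_card, Fintype.card_fin] at h1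
    rw [formIntegral, h1, Complex.real_smul]
    push_cast
    rw [← mul_assoc, mul_inv_cancel₀ (pow_ne_zero _ (by exact_mod_cast hP'.ne')), one_mul]
  have hcover : ⋃ x ∈ X, unitCell x =
      Set.pi Set.univ fun _ : Fin n => Set.Ico (-(P : ℝ)) (P : ℝ) := by
    ext y
    simp only [Set.mem_iUnion, mem_unitCell, exists_prop, hX, Fintype.mem_piFinset,
      Finset.mem_Ico, Set.mem_univ_pi, Set.mem_Ico]
    constructor
    · rintro ⟨x, hx, hy⟩ i
      have h1 := hx i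
      rw [← hy i, Int.le_floor, Int.floor_lt] at h1
      push_cast at h1
      exact h1
    · intro hy
      refine ⟨fun i => ⌊y i⌋, fun i => ?_, fun i => rfl⟩
      rw [Int.le_floor, Int.floor_lt]
      push_cast
      exact hy i
  have hdecomp : ∫ y in Set.Icc (fun _ : Fin n => -(P : ℝ)) (fun _ => (P : ℝ)), f y =
      ∑ x ∈ X, ∫ y in unitCell x, f y := by
    rw [← integral_biUnion_finset (s := unitCell) X
      (fun x _ => MeasurableSet.univ_pi fun i => measurableSet_Ico)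
      (fun x _ x' _ hne => Set.disjoint_left.2 fun y h1 h2 => hne (funext fun i => by
        rw [← mem_unitCell.1 h1 i, mem_unitCell.1 h2 i])) fun x _ => hint x, hcover]
    exact (setIntegral_congr_set Measure.univ_pi_Ico_ae_eq_Icc).symm
  obtain ⟨D, hD⟩ : ∃ D : ℝ, D = L * (|β| * (P : ℝ) ^ (m + 1)) := ⟨_, rfl⟩
  have hcell : ∀ x ∈ X, ‖f (fun i => (x i : ℝ)) - ∫ y in unitCell x, f y‖ ≤ D := by
    intro x hx
    rw [hX, Fintype.mem_piFinset] at hx
    have hx' : ∀ i, -(P : ℝ) ≤ x i ∧ (x i : ℝ) + 1 ≤ P := fun i => by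
      have := Finset.mem_Ico.1 (hx i)
      exact ⟨by exact_mod_cast this.1, by exact_mod_cast (show x i + 1 ≤ (P : ℤ) by omega)⟩
    have hvol : volume.real (unitCell x) = 1 := by
      rw [Measure.real, unitCell, Real.volume_pi_Ico_toReal fun i => by linarith]
      simp
    have hfin : volume (unitCell x) < ⊤ :=
      lt_of_le_of_lt (measure_mono (Set.pi_mono fun i _ => Set.Ico_subset_Icc_self))
        (isCompact_univ_pi fun i => isCompact_Icc).measure_lt_top
    have e : f (fun i => (x i : ℝ)) = ∫ _ in unitCell x, f (fun i => (x i : ℝ)) := by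
      rw [setIntegral_const, hvol, one_smul]
    rw [e, ← integral_sub (integrableOn_const (C := f fun i => (x i : ℝ)) hfin.ne) (hint x)]
    refine (norm_setIntegral_le_of_norm_le_const (C := D) hfin fun y hy => ?_).trans
      (le_of_eq (by rw [hvol, mul_one]))
    have hy' : ∀ i, (x i : ℝ) ≤ y i ∧ y i < x i + 1 := fun i => hy i trivial
    rw [hf]
    refine (norm_eAdd_mul_sub_le _ _ _).trans ?_
    have h := abs_aeval_sub_le F hF (fun i => (x i : ℝ)) y (A := 2 * P) (δ := 1) (by linarith)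
      (fun i => abs_le.2 ⟨by linarith [hx' i], by linarith [hx' i]⟩)
      (fun i => abs_le.2 ⟨by linarith [hx' i, hy' i], by linarith [hx' i, hy' i]⟩)
      fun i => abs_le.2 ⟨by linarith [hy' i], by linarith [hy' i]⟩
    calc 2 * π * (|β| * |_|) ≤
          2 * π * (|β| * (((m + 1 + 1 : ℕ) : ℝ) * formSize F * (2 * (P : ℝ)) ^ (m + 1) * 1)) := by
          gcongr
      _ = _ := by rw [hD, hL, mul_pow]; ring
  have hsub : X ⊆ cbox n P := fun x hx => mem_cbox.2 fun i => by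
    rw [hX, Fintype.mem_piFinset] at hx
    have := Finset.mem_Ico.1 (hx i)
    exact abs_le.2 ⟨this.1, this.2.le⟩
  have hXc : X.card = (2 * P) ^ n := by
    rw [hX, Fintype.card_piFinset_const, Int.card_Ico,
      show ((P : ℤ) - -(P : ℤ)).toNat = 2 * P by omega]
  rw [hscale, hdecomp, formSum_eq, ← sum_sdiff hsub, add_sub_assoc, ← sum_sub_distrib]
  refine (norm_add_le _ _).trans ?_
  have hbdry : ‖∑ x ∈ cbox n P \ X, eAdd (β * aeval (fun i => (x i : ℝ)) F)‖ ≤
      (n : ℝ) * 3 ^ n * (P : ℝ) ^ (n - 1) := by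
    refine (norm_sum_le _ _).trans ((sum_le_card_nsmul _ _ 1 fun x _ => (norm_eAdd _).le).trans ?_)
    rw [nsmul_one, card_sdiff_of_subset hsub, Nat.cast_sub (card_le_card hsub), hXc, card_cbox]
    push_cast
    refine (pow_sub_pow_le (by positivity) (by linarith) n).trans ?_
    rw [show (n : ℝ) * (2 * P + 1 - 2 * P) = n by ring, mul_assoc]
    refine mul_le_mul_of_nonneg_left ?_ (Nat.cast_nonneg n)
    calc (2 * (P : ℝ) + 1) ^ (n - 1) ≤ (3 * (P : ℝ)) ^ (n - 1) :=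
          pow_le_pow_left₀ (by positivity) (by linarith) _
      _ = 3 ^ (n - 1) * (P : ℝ) ^ (n - 1) := mul_pow _ _ _
      _ ≤ _ := mul_le_mul_of_nonneg_right (pow_le_pow_right₀ (by norm_num) (Nat.sub_le _ _))
          (by positivity)
  have hcells : ‖∑ x ∈ X, (eAdd (β * aeval (fun i => (x i : ℝ)) F) - ∫ y in unitCell x, f y)‖ ≤
      2 ^ n * L * (P : ℝ) ^ (n - 1) * ((P : ℝ) ^ (m + 2) * |β|) := by
    refine (norm_sum_le _ _).trans ((sum_le_card_nsmul _ _ D fun x hx => ?_).trans ?_)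
    · simpa [hf] using hcell x hx
    rw [nsmul_eq_mul, hXc, hD]
    push_cast
    rw [mul_pow]
    have hPn : (P : ℝ) ^ n ≤ (P : ℝ) ^ (n - 1) * P := by
      rw [← pow_succ]; exact pow_le_pow_right₀ hP0 (by omega)
    calc 2 ^ n * (P : ℝ) ^ n * (L * (|β| * (P : ℝ) ^ (m + 1)))
        ≤ 2 ^ n * ((P : ℝ) ^ (n - 1) * P) * (L * (|β| * (P : ℝ) ^ (m + 1))) := by gcongr
      _ = _ := by ring
  refine (add_le_add hbdry hcells).trans ?_
  have h0 : 0 ≤ (P : ℝ) ^ (m + 2) * |β| := by positivity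
  have h1 : 0 ≤ (P : ℝ) ^ (n - 1) := by positivity
  nlinarith [mul_nonneg (mul_nonneg (show (0 : ℝ) ≤ n * 3 ^ n + 1 by positivity) h1) h0,
    mul_nonneg (show (0 : ℝ) ≤ 2 ^ n * L + 1 by positivity) h1]

/-- **The decay of the integral.** -/
theorem exists_formIntegral_le {m s : ℕ} (hF : F.IsHomogeneous (m + 2)) (hs : SingularDimLE F s)
    (hn : s + (m + 1) * 2 ^ (m + 2) < n) :
    ∃ C : ℝ, 0 < C ∧ ∀ γ : ℝ, ‖formIntegral F γ‖ ≤ C * (1 + γ ^ 2)⁻¹ := by
  obtain ⟨C₁, hC₁, happ⟩ := exists_sum_integral F hF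
  obtain ⟨C₂, hC₂, hpoint⟩ := exists_pointwise F hF hs hn
  have he := savingExp_pos m
  have he1 := savingExp_le_one m
  have hn1 : 1 ≤ n := by omega
  have hn0 : (1 : ℝ) ≤ n := by exact_mod_cast hn1
  obtain ⟨L₀, hL₀, hlog⟩ := exists_log_le (δ := savingExp m / (4 * n)) (by positivity)
  refine ⟨5 * 2 ^ n + 4 * (C₂ * L₀ ^ n + C₁), by positivity, fun γ => ?_⟩
  rw [← div_eq_mul_inv, le_div_iff₀ (by positivity)]
  rcases lt_or_ge |γ| 2 with hsmall | hbig
  · have h1 : 1 + γ ^ 2 ≤ 5 := by nlinarith [sq_abs γ, abs_nonneg γ]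
    have h2 := mul_le_mul (norm_formIntegral_le F γ) h1 (by positivity) (by positivity)
    have h3 : 0 ≤ 4 * (C₂ * L₀ ^ n + C₁) := by positivity
    linarith
  have hγ0 : 0 < |γ| := by linarith
  obtain ⟨P, hP⟩ : ∃ P, P = ⌈|γ| ^ 4⌉₊ := ⟨_, rfl⟩
  have hγ4 : (16 : ℝ) ≤ |γ| ^ 4 := by
    calc (16 : ℝ) = 2 ^ 4 := by norm_num
      _ ≤ _ := pow_le_pow_left₀ zero_le_two hbig 4
  have hPle : |γ| ^ 4 ≤ P := hP ▸ Nat.le_ceil _
  have hPge : (P : ℝ) ≤ 2 * |γ| ^ 4 := by
    have := Nat.ceil_lt_add_one (show 0 ≤ |γ| ^ 4 by positivity)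
    rw [← hP] at this
    linarith
  have hP0 : (1 : ℝ) ≤ P := by linarith
  have hP1 : 1 ≤ P := by exact_mod_cast hP0
  obtain ⟨β, hβ⟩ : ∃ β, β = γ / (P : ℝ) ^ (m + 2) := ⟨_, rfl⟩
  have hβγ : β * (P : ℝ) ^ (m + 2) = γ := by rw [hβ]; field_simp
  have hβa : (P : ℝ) ^ (m + 2) * |β| = |γ| := by
    rw [← abs_of_pos (show (0 : ℝ) < (P : ℝ) ^ (m + 2) by positivity), ← abs_mul, mul_comm, hβγ]
  have h1 := hpoint P 1 0 β |γ| hP1 le_rfl isCoprime_one_left.symm (by
    rw [Nat.cast_one, one_mul, hβa, max_eq_right (by linarith)]) (by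
    have h2 : |γ| ^ 2 ≤ |γ| ^ 4 := pow_le_pow_right₀ (by linarith) (by norm_num)
    exact (h2.trans hPle).trans (le_self_pow₀ hP0 (by omega)))
  rw [Int.cast_zero, zero_div, zero_add] at h1
  have h2 := happ P β hP1
  rw [hβγ, hβa, norm_sub_rev] at h2
  have h3 := (norm_sub_norm_le _ _).trans h2
  rw [norm_mul, norm_pow, Complex.norm_natCast] at h3
  obtain ⟨N, hN⟩ : ∃ N, N = ‖formIntegral F γ‖ := ⟨_, rfl⟩
  rw [← hN] at h3 ⊢
  have hS : ‖formSum F P β‖ * γ ^ 2 ≤ 2 * C₂ * L₀ ^ n * (P : ℝ) ^ n := by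
    refine le_of_mul_le_mul_right ?_ (Real.rpow_pos_of_pos hγ0 (savingExp m))
    have hL : (1 + Real.log P) ^ n ≤ L₀ ^ n * (2 * |γ| ^ savingExp m) := by
      refine (pow_le_pow_left₀ (by linarith [Real.log_nonneg hP0]) (hlog _ hP0) n).trans ?_
      rw [mul_pow]
      refine mul_le_mul_of_nonneg_left ?_ (by positivity)
      rw [← Real.rpow_natCast (_ ^ _) n, ← Real.rpow_mul (by linarith),
        show savingExp m / (4 * n) * n = savingExp m / 4 by field_simp]
      refine (Real.rpow_le_rpow (by linarith) hPge (by positivity)).trans ?_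
      rw [Real.mul_rpow two_pos.le (by positivity), ← Real.rpow_natCast |γ| 4,
        ← Real.rpow_mul hγ0.le, show ((4 : ℕ) : ℝ) * (savingExp m / 4) = savingExp m by
          push_cast; ring]
      refine mul_le_mul_of_nonneg_right ?_ (by positivity)
      exact (Real.rpow_le_rpow_of_exponent_le one_le_two (by linarith)).trans (Real.rpow_one 2).le
    rw [mul_assoc, show γ ^ 2 * |γ| ^ savingExp m = |γ| ^ (2 + savingExp m) by
      rw [Real.rpow_add hγ0, Real.rpow_two, sq_abs]]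
    refine h1.trans ((mul_le_mul_of_nonneg_right (mul_le_mul_of_nonneg_left hL hC₂.le)
      (by positivity)).trans (le_of_eq (by ring)))
  have hE : C₁ * (P : ℝ) ^ (n - 1) * (1 + |γ|) * γ ^ 2 ≤ 2 * C₁ * (P : ℝ) ^ n := by
    rw [show (P : ℝ) ^ n = (P : ℝ) ^ (n - 1) * P by rw [← pow_succ, Nat.sub_add_cancel hn1]]
    have : (1 + |γ|) * γ ^ 2 ≤ 2 * (P : ℝ) := by
      rw [← sq_abs γ]
      calc (1 + |γ|) * |γ| ^ 2 ≤ (2 * |γ| ^ 2) * |γ| ^ 2 := by gcongr; nlinarith
        _ = 2 * |γ| ^ 4 := by ring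
        _ ≤ _ := by linarith
    calc C₁ * (P : ℝ) ^ (n - 1) * (1 + |γ|) * γ ^ 2
        = C₁ * (P : ℝ) ^ (n - 1) * ((1 + |γ|) * γ ^ 2) := by ring
      _ ≤ C₁ * (P : ℝ) ^ (n - 1) * (2 * P) := by gcongr
      _ = _ := by ring
  have hsq : 1 + γ ^ 2 ≤ 2 * γ ^ 2 := by nlinarith [sq_abs γ]
  have hmain : N * γ ^ 2 ≤ 2 * (C₂ * L₀ ^ n + C₁) := by
    refine le_of_mul_le_mul_left ?_ (by positivity : (0 : ℝ) < (P : ℝ) ^ n)
    have h4 := mul_le_mul_of_nonneg_right h3 (sq_nonneg γ)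
    linarith
  have h5 : N * (1 + γ ^ 2) ≤ N * (2 * γ ^ 2) := mul_le_mul_of_nonneg_left hsq (hN ▸ norm_nonneg _)
  have h6 : (0 : ℝ) ≤ 5 * 2 ^ n := by positivity
  linarith

theorem integrable_formIntegral {m s : ℕ} (hF : F.IsHomogeneous (m + 2))
    (hs : SingularDimLE F s) (hn : s + (m + 1) * 2 ^ (m + 2) < n) :
    Integrable (formIntegral F) := by
  obtain ⟨C, -, hC⟩ := exists_formIntegral_le F hF hs hn
  exact (integrable_inv_one_add_sq.const_mul C).mono'
    (continuous_formIntegral F hF).aestronglyMeasurable (Filter.Eventually.of_forall hC)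

theorem integral_formIntegral_eq : ∫ γ : ℝ, formIntegral F γ = (singularIntegral F : ℂ) := by
  refine Complex.ext (by rw [singularIntegral, Complex.ofReal_re]) ?_
  rw [Complex.ofReal_im]
  refine Complex.conj_eq_iff_im.1 ?_
  rw [← integral_conj]
  simp only [← formIntegral_neg]
  exact integral_neg_eq_self (formIntegral F) volume

theorem integrable_twistedIntegral {m s : ℕ} (hF : F.IsHomogeneous (m + 2))
    (hs : SingularDimLE F s) (hn : s + (m + 1) * 2 ^ (m + 2) < n) (c : ℝ) :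
    Integrable (twistedIntegral F c) :=
  (integrable_formIntegral F hF hs hn).norm.mono'
    (continuous_twistedIntegral F hF c).aestronglyMeasurable
    (Filter.Eventually.of_forall fun γ => (norm_twistedIntegral F c γ).le)

theorem integral_twistedIntegral_eq (c : ℝ) :
    ∫ γ : ℝ, twistedIntegral F c γ = (repIntegral F c : ℂ) := by
  refine Complex.ext (by rw [repIntegral, Complex.ofReal_re]) ?_
  rw [Complex.ofReal_im]
  refine Complex.conj_eq_iff_im.1 ?_
  rw [← integral_conj]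
  refine Eq.trans (integral_congr_ae (Filter.Eventually.of_forall fun γ => ?_))
    (integral_neg_eq_self (twistedIntegral F c) volume)
  simp only [twistedIntegral, map_mul, ← formIntegral_neg, conj_eAdd]
  ring_nf

theorem norm_riemann_sub_le (f : ℝ → ℂ) (hf : Continuous f) {K B : ℝ}
    (hK : ∀ x y, ‖f x - f y‖ ≤ K * |x - y|) (hB : ∀ x, ‖f x‖ ≤ B) {P : ℕ} (hP : 1 ≤ P) (H : ℕ) :
    ‖∑ o ∈ Finset.Icc (-(H : ℤ)) H, f ((o : ℝ) / P) -
        (P : ℂ) * ∫ γ in (-(H : ℝ) / P)..((H : ℝ) / P), f γ‖ ≤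
      2 * H * (K / P) + B := by
  obtain ⟨a, ha⟩ : ∃ a : ℕ → ℝ, a = fun k : ℕ => ((k : ℝ) - H) / P := ⟨_, rfl⟩
  have hP0 : (0 : ℝ) < P := Nat.cast_pos.2 hP
  have hK0 : 0 ≤ K := by
    have := (norm_nonneg _).trans (hK 1 0)
    simpa using this
  have hends : a 0 = -(H : ℝ) / P ∧ a (2 * H) = (H : ℝ) / P := by
    rw [ha]
    refine ⟨by simp, ?_⟩
    push_cast
    ring
  rw [← hends.1, ← hends.2, ← intervalIntegral.sum_integral_adjacent_intervals
    fun k _ => hf.intervalIntegrable _ _]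
  have hsum : ∑ o ∈ Finset.Icc (-(H : ℤ)) H, f ((o : ℝ) / P) =
      ∑ k ∈ range (2 * H), f (a k) + f (a (2 * H)) := by
    rw [← sum_range_succ fun k => f (a k)]
    refine sum_nbij' (fun o => (o + H).toNat) (fun k => (k : ℤ) - H) (fun o ho => ?_)
      (fun k hk => ?_) (fun o ho => ?_) (fun k _ => by omega) fun o ho => ?_
    · rw [Finset.mem_Icc] at ho; rw [mem_range]; omega
    · rw [mem_range] at hk; rw [Finset.mem_Icc]; omega
    · rw [Finset.mem_Icc] at ho; omega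
    · rw [Finset.mem_Icc] at ho
      rw [ha]
      have e : (((o + H).toNat : ℕ) : ℝ) = (o : ℝ) + H := by
        exact_mod_cast Int.toNat_of_nonneg (show 0 ≤ o + H by omega)
      simp only [e, add_sub_cancel_right]
  rw [hsum, mul_sum, add_sub_right_comm, ← sum_sub_distrib]
  refine (norm_add_le _ _).trans (add_le_add ?_ (hB _))
  refine (norm_sum_le _ _).trans ((sum_le_card_nsmul _ _ (K / P) fun k _ => ?_).trans (le_of_eq ?_))
  · have hlen : a (k + 1) - a k = 1 / P := by rw [ha]; push_cast; ring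
    have e : f (a k) = (P : ℂ) * ∫ _ in (a k)..(a (k + 1)), f (a k) := by
      have : (P : ℂ) ≠ 0 := Nat.cast_ne_zero.2 (by omega)
      rw [intervalIntegral.integral_const, hlen, Complex.real_smul]
      push_cast
      field_simp
    rw [e, ← mul_sub, ← intervalIntegral.integral_sub (_root_.intervalIntegrable_const)
      (hf.intervalIntegrable _ _), norm_mul, Complex.norm_natCast]
    refine (mul_le_mul_of_nonneg_left (intervalIntegral.norm_integral_le_of_norm_le_const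
      (C := K / P) fun γ hγ => ?_) hP0.le).trans (le_of_eq ?_)
    · refine (hK _ _).trans ?_
      rw [div_eq_mul_one_div K, ← hlen]
      refine mul_le_mul_of_nonneg_left ?_ hK0
      rw [Set.uIoc_of_le (by linarith [show (0 : ℝ) < 1 / P by positivity])] at hγ
      rw [abs_le]
      constructor <;> linarith [hγ.1, hγ.2]
    · rw [hlen, abs_of_pos (by positivity)]; field_simp
  · rw [card_range, nsmul_eq_mul]; push_cast; rfl

/-- **The sum along an arc.** -/
theorem exists_arc_sum_rep {m s : ℕ} (hF : F.IsHomogeneous (m + 2)) (hs : SingularDimLE F s)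
    (hn : s + (m + 1) * 2 ^ (m + 2) < n)  (B : ℕ) :
    ∃ C : ℝ, 0 < C ∧ ∀ (P W : ℕ) (N : ℤ), 1 ≤ P → 1 ≤ W → |N| ≤ (B * P ^ (m + 2) : ℕ) →
      ‖∑ o ∈ Finset.Icc (-((W * P + 1 : ℕ) : ℤ)) (W * P + 1 : ℕ),
          repSum F P N ((o : ℝ) / ((P ^ (m + 3) : ℕ) : ℝ)) -
        (P : ℂ) ^ (n + 1) * (repIntegral F ((N : ℝ) / (P : ℝ) ^ (m + 2)) : ℂ)‖ ≤
      C * ((W : ℝ) ^ 2 * (P : ℝ) ^ n + (P : ℝ) ^ (n + 1) / W) := by
  obtain ⟨C₁, hC₁, happ⟩ := exists_sum_integral F hF
  obtain ⟨C₂, hC₂, hdec⟩ := exists_formIntegral_le F hF hs hn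
  obtain ⟨K, hK⟩ : ∃ K : ℝ, K = 2 * π * ((formSize F : ℝ) + B) * 2 ^ n := ⟨_, rfl⟩
  have hK0 : 0 ≤ K := hK ▸ by positivity
  refine ⟨20 * C₁ + 4 * K + 2 ^ n + 2 * C₂, by positivity, fun P W N hP hW hN => ?_⟩
  obtain ⟨c, hc⟩ : ∃ c : ℝ, c = (N : ℝ) / (P : ℝ) ^ (m + 2) := ⟨_, rfl⟩
  rw [← hc]
  have hint := integrable_twistedIntegral F hF hs hn c
  have hcB : |c| ≤ (B : ℝ) := by
    rw [hc, abs_div, abs_of_pos (by positivity : (0 : ℝ) < (P : ℝ) ^ (m + 2)),
      div_le_iff₀ (by positivity)]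
    exact_mod_cast hN
  obtain ⟨H, hH⟩ : ∃ H, H = W * P + 1 := ⟨_, rfl⟩
  rw [← hH]
  have hP0 : (1 : ℝ) ≤ P := by exact_mod_cast hP
  have hW0 : (1 : ℝ) ≤ W := by exact_mod_cast hW
  have hWP : (1 : ℝ) ≤ W * P := one_le_mul_of_one_le_of_one_le hW0 hP0
  have hH' : (H : ℝ) = W * P + 1 := by rw [hH]; push_cast; rfl
  have harg : ∀ o : ℤ, (o : ℝ) / ((P ^ (m + 3) : ℕ) : ℝ) * (P : ℝ) ^ (m + 2) = (o : ℝ) / P :=
    fun o => by push_cast; field_simp; ring
  have h1 : ∀ o ∈ Finset.Icc (-(H : ℤ)) H,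
      ‖repSum F P N ((o : ℝ) / ((P ^ (m + 3) : ℕ) : ℝ)) -
        (P : ℂ) ^ n * twistedIntegral F c ((o : ℝ) / P)‖ ≤ 4 * C₁ * W * (P : ℝ) ^ (n - 1) := by
    intro o ho
    have h := happ P ((o : ℝ) / ((P ^ (m + 3) : ℕ) : ℝ)) hP
    rw [harg] at h
    rw [repSum, twistedIntegral, show (o : ℝ) / ((P ^ (m + 3) : ℕ) : ℝ) * N = (o : ℝ) / P * c by
      rw [hc, ← harg o]; field_simp, ← mul_assoc, ← sub_mul, norm_mul, norm_eAdd, mul_one]
    refine h.trans ?_
    have ho' : |(o : ℝ)| ≤ H := by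
      rw [← Int.cast_abs]; exact_mod_cast abs_le.2 (Finset.mem_Icc.1 ho)
    have e : (P : ℝ) ^ (m + 2) * |(o : ℝ) / ((P ^ (m + 3) : ℕ) : ℝ)| = |(o : ℝ)| / P := by
      rw [abs_div, Nat.abs_cast]; push_cast; field_simp; ring
    rw [e]
    have : 1 + |(o : ℝ)| / P ≤ 4 * W := by
      have : |(o : ℝ)| / P ≤ 2 * W := by
        rw [div_le_iff₀ (by linarith)]; linarith
      linarith
    calc C₁ * (P : ℝ) ^ (n - 1) * (1 + |(o : ℝ)| / P) ≤ C₁ * (P : ℝ) ^ (n - 1) * (4 * W) := by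
          gcongr
      _ = _ := by ring
  obtain ⟨T, hT⟩ : ∃ T : ℝ, T = (H : ℝ) / P := ⟨_, rfl⟩
  have hT0 : (W : ℝ) ≤ T := by rw [hT, le_div_iff₀ (by linarith)]; linarith
  have htail : ∀ g : ℝ → ℂ, (∀ γ, ‖g γ‖ ≤ C₂ * (1 + γ ^ 2)⁻¹) →
      ‖∫ γ in Set.Ioi T, g γ‖ ≤ C₂ / W := by
    intro g hg
    have hTpos : 0 < T := by linarith
    have hint2 : IntegrableOn (fun γ : ℝ => C₂ * γ ^ (-2 : ℝ)) (Set.Ioi T) :=
      (integrableOn_Ioi_rpow_of_lt (by norm_num) hTpos).const_mul C₂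
    refine (norm_integral_le_of_norm_le hint2 ?_).trans ?_
    · refine (ae_restrict_iff' measurableSet_Ioi).2 (Filter.Eventually.of_forall fun γ hγ => ?_)
      have hγ0 : 0 < γ := hTpos.trans hγ
      refine (hg γ).trans (mul_le_mul_of_nonneg_left ?_ hC₂.le)
      rw [Real.rpow_neg hγ0.le, Real.rpow_two]
      exact inv_anti₀ (by positivity) (by linarith)
    · rw [integral_const_mul, integral_Ioi_rpow_of_lt (by norm_num) hTpos,
        show (-2 : ℝ) + 1 = -1 by norm_num, Real.rpow_neg_one, neg_div_neg_eq, div_one]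
      rw [div_eq_mul_inv C₂]
      exact mul_le_mul_of_nonneg_left (inv_anti₀ (by linarith) hT0) hC₂.le
  have hfull : ‖(∫ γ in (-T)..T, twistedIntegral F c γ) - (repIntegral F c : ℂ)‖ ≤ 2 * C₂ / W := by
    have hneg : ∫ γ in Set.Iic (-T), twistedIntegral F c γ =
        ∫ γ in Set.Ioi T, twistedIntegral F c (-γ) :=
      (integral_comp_neg_Ioi T (twistedIntegral F c)).symm
    have e : (repIntegral F c : ℂ) - (∫ γ in (-T)..T, twistedIntegral F c γ) =
        (∫ γ in Set.Ioi T, twistedIntegral F c (-γ)) + ∫ γ in Set.Ioi T, twistedIntegral F c γ := by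
      rw [← integral_twistedIntegral_eq, ← intervalIntegral.integral_Iic_add_Ioi (b := -T)
        hint.integrableOn hint.integrableOn, ← hneg,
        ← intervalIntegral.integral_interval_add_Ioi hint.integrableOn hint.integrableOn (a := -T)
          (b := T)]
      ring
    rw [norm_sub_rev, e]
    refine (norm_add_le _ _).trans (le_of_le_of_eq (add_le_add
      (htail _ fun γ => by simpa [norm_twistedIntegral] using hdec (-γ))
        (htail _ fun γ => (norm_twistedIntegral F c γ).trans_le (hdec γ))) ?_)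
    ring
  obtain ⟨J, hJ⟩ : ∃ J, J = ∫ γ in (-T)..T, twistedIntegral F c γ := ⟨_, rfl⟩
  have hR := norm_riemann_sub_le (twistedIntegral F c) (continuous_twistedIntegral F hF c) (K := K)
    (B := 2 ^ n) (fun x y => hK ▸ norm_twistedIntegral_sub_le F hF hcB x y)
    (fun γ => (norm_twistedIntegral F c γ).trans_le (norm_formIntegral_le F γ)) hP H
  rw [neg_div, ← hT, ← hJ] at hR
  rw [← hJ] at hfull
  have hPn : (P : ℝ) ^ (n - 1) * P = (P : ℝ) ^ n := by
    rw [← pow_succ, Nat.sub_add_cancel (by omega : 1 ≤ n)]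
  have hA : ‖∑ o ∈ Finset.Icc (-(H : ℤ)) H, repSum F P N ((o : ℝ) / ((P ^ (m + 3) : ℕ) : ℝ)) -
      (P : ℂ) ^ n * ∑ o ∈ Finset.Icc (-(H : ℤ)) H, twistedIntegral F c ((o : ℝ) / P)‖ ≤
        20 * C₁ * ((W : ℝ) ^ 2 * (P : ℝ) ^ n) := by
    rw [mul_sum, ← sum_sub_distrib]
    refine (norm_sum_le _ _).trans ((sum_le_card_nsmul _ _ _ h1).trans ?_)
    rw [nsmul_eq_mul, Int.card_Icc, show ((H : ℤ) + 1 - -(H : ℤ)).toNat = 2 * H + 1 by omega,
      ← hPn]
    push_cast
    calc (2 * (H : ℝ) + 1) * (4 * C₁ * W * (P : ℝ) ^ (n - 1))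
        ≤ (5 * (W * P)) * (4 * C₁ * W * (P : ℝ) ^ (n - 1)) := by
          gcongr; linarith
      _ = _ := by ring
  have hB : ‖(P : ℂ) ^ n * (∑ o ∈ Finset.Icc (-(H : ℤ)) H, twistedIntegral F c ((o : ℝ) / P)) -
      (P : ℂ) ^ (n + 1) * J‖ ≤ (4 * K + 2 ^ n) * ((W : ℝ) ^ 2 * (P : ℝ) ^ n) := by
    rw [pow_succ, mul_assoc, ← mul_sub, norm_mul, norm_pow, Complex.norm_natCast,
      mul_comm ((W : ℝ) ^ 2), ← mul_assoc, mul_comm (4 * K + 2 ^ n), mul_assoc]
    refine mul_le_mul_of_nonneg_left (hR.trans ?_) (by positivity)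
    have hHP : 2 * (H : ℝ) * (K / P) ≤ 4 * K * W := by
      rw [mul_div_assoc', div_le_iff₀ (by linarith)]
      nlinarith
    have hW2 : (W : ℝ) ≤ (W : ℝ) ^ 2 := le_self_pow₀ hW0 two_ne_zero
    have hb : (0 : ℝ) ≤ 2 ^ n := by positivity
    nlinarith
  have hC : ‖(P : ℂ) ^ (n + 1) * J - (P : ℂ) ^ (n + 1) * (repIntegral F c : ℂ)‖ ≤
      2 * C₂ * ((P : ℝ) ^ (n + 1) / W) := by
    rw [← mul_sub, norm_mul, norm_pow, Complex.norm_natCast,
      show 2 * C₂ * ((P : ℝ) ^ (n + 1) / W) = (P : ℝ) ^ (n + 1) * (2 * C₂ / W) by ring]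
    exact mul_le_mul_of_nonneg_left hfull (by positivity)
  refine (norm_sub_le_norm_sub_add_norm_sub _ _ _).trans ((add_le_add
    ((norm_sub_le_norm_sub_add_norm_sub _ _ _).trans (add_le_add hA hB)) hC).trans ?_)
  have hX : 0 ≤ (W : ℝ) ^ 2 * (P : ℝ) ^ n := by positivity
  have hY : 0 ≤ (P : ℝ) ^ (n + 1) / W := by positivity
  nlinarith [mul_nonneg hC₂.le hX, mul_nonneg (show 0 ≤ 20 * C₁ + 4 * K + 2 ^ n by positivity) hY]

/-- The case `N = 0`. -/
theorem exists_arc_sum {m s : ℕ} (hF : F.IsHomogeneous (m + 2)) (hs : SingularDimLE F s)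
    (hn : s + (m + 1) * 2 ^ (m + 2) < n) : ∃ C : ℝ, 0 < C ∧ ∀ P W : ℕ, 1 ≤ P → 1 ≤ W →
      ‖∑ o ∈ Finset.Icc (-((W * P + 1 : ℕ) : ℤ)) (W * P + 1 : ℕ),
          formSum F P ((o : ℝ) / ((P ^ (m + 3) : ℕ) : ℝ)) -
        (P : ℂ) ^ (n + 1) * (singularIntegral F : ℂ)‖ ≤
      C * ((W : ℝ) ^ 2 * (P : ℝ) ^ n + (P : ℝ) ^ (n + 1) / W) := by
  obtain ⟨C, hC, h⟩ := exists_arc_sum_rep F hF hs hn 0
  refine ⟨C, hC, fun P W hP hW => ?_⟩
  have := h P W 0 hP hW (by simp)
  simpa only [repSum_zero, Int.cast_zero, zero_div, repIntegral_zero] using this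

end FA.FormsManyVariables
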