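import Fermat.Agent.FormsManyVariables.Weyl
import Mathlib.Algebra.MvPolynomial.Eval

/-!
# The values of a form on real points

On the cube of size `A` a form of degree `d` is at most `K A ^ d` and changes by at most
`d K A ^ (d - 1) δ` over a distance `δ`, `K` being the sum of the sizes of its coefficients.
-/

set_option autoImplicit false

noncomputable section

namespace FA.FormsManyVariables

open Finset MvPolynomial

variable {n : ℕ} (F : MvPolynomial (Fin n) ℤ)

/-- The sum of the sizes of the coefficients. -/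
def formSize : ℕ := ∑ e ∈ F.support, (coeff e F).natAbs

theorem aeval_intCast {R : Type*} [CommRing R] (x : Fin n → ℤ) :
    aeval (fun i => (x i : R)) F = ((eval x F : ℤ) : R) := by
  induction F using MvPolynomial.induction_on with
  | C a => simp
  | add p q hp hq => simp [hp, hq]
  | mul_X p i hp => simp [hp]

theorem aeval_eq_sum {R : Type*} [CommRing R] (x : Fin n → R) :
    aeval x F = ∑ e ∈ F.support, ((coeff e F : ℤ) : R) * ∏ i, x i ^ e i := by
  rw [aeval_def, eval₂_eq']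
  simp

theorem sum_exponents_eq {d : ℕ} (hF : F.IsHomogeneous d) {e : Fin n →₀ ℕ} (he : e ∈ F.support) :
    ∑ i, e i = d := by
  rw [← Finsupp.sum_fintype e (fun _ l => l) fun _ => rfl]
  simpa [Finsupp.weight_apply] using hF (MvPolynomial.mem_support_iff.1 he)

theorem aeval_smul {d : ℕ} (hF : F.IsHomogeneous d) {R : Type*} [CommRing R] (t : R)
    (x : Fin n → R) : aeval (t • x) F = t ^ d * aeval x F := by
  rw [aeval_eq_sum, aeval_eq_sum, mul_sum]
  refine sum_congr rfl fun e he => ?_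
  simp only [Pi.smul_apply, smul_eq_mul, mul_pow, prod_mul_distrib, prod_pow_eq_pow_sum,
    sum_exponents_eq F hF he]
  ring

theorem eval_smul_int {d : ℕ} (hF : F.IsHomogeneous d) (t : ℤ) (x : Fin n → ℤ) :
    eval (t • x) F = t ^ d * eval x F := by
  simpa [aeval_eq_eval] using aeval_smul F hF t x

theorem abs_monomial_sub_le (x y : Fin n → ℝ) {A δ : ℝ} (hA : 0 ≤ A) (hx : ∀ i, |x i| ≤ A)
    (hy : ∀ i, |y i| ≤ A) (hxy : ∀ i, |x i - y i| ≤ δ) (e : Fin n → ℕ) (t : Finset (Fin n)) :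
    A * |∏ i ∈ t, x i ^ e i - ∏ i ∈ t, y i ^ e i| ≤
      (∑ i ∈ t, e i : ℕ) * A ^ (∑ i ∈ t, e i) * δ := by
  have hpow : ∀ (i : Fin n) (l : ℕ), A * |x i ^ l - y i ^ l| ≤ l * A ^ l * δ := by
    intro i l
    induction l with
    | zero => simp
    | succ l ih =>
      rw [show x i ^ (l + 1) - y i ^ (l + 1) =
        x i * (x i ^ l - y i ^ l) + y i ^ l * (x i - y i) by ring]
      have h1 : A * (|x i| * |x i ^ l - y i ^ l|) ≤ A * (l * A ^ l * δ) := by
        rw [mul_left_comm]
        exact mul_le_mul (hx i) ih (by positivity) hA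
      have h2 : A * (|y i ^ l| * |x i - y i|) ≤ A * (A ^ l * δ) := by
        rw [abs_pow]
        exact mul_le_mul_of_nonneg_left (mul_le_mul (pow_le_pow_left₀ (abs_nonneg _) (hy i) l)
          (hxy i) (abs_nonneg _) (by positivity)) hA
      refine (mul_le_mul_of_nonneg_left (abs_add_le _ _) hA).trans ?_
      rw [abs_mul, abs_mul, mul_add, pow_succ]
      push_cast
      linarith
  induction t using Finset.induction with
  | empty => simp
  | insert a t ha ih =>
    rw [prod_insert ha, prod_insert ha, sum_insert ha]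
    obtain ⟨X, hX⟩ : ∃ X, X = ∏ i ∈ t, x i ^ e i := ⟨_, rfl⟩
    obtain ⟨Y, hY⟩ : ∃ Y, Y = ∏ i ∈ t, y i ^ e i := ⟨_, rfl⟩
    rw [← hX, ← hY] at ih ⊢
    have hYle : |Y| ≤ A ^ (∑ i ∈ t, e i) := by
      rw [hY, abs_prod, ← prod_pow_eq_pow_sum]
      exact prod_le_prod (fun i _ => abs_nonneg _) fun i _ => by
        rw [abs_pow]; exact pow_le_pow_left₀ (abs_nonneg _) (hy i) _
    have hxa : |x a ^ e a| ≤ A ^ e a := by
      rw [abs_pow]; exact pow_le_pow_left₀ (abs_nonneg _) (hx a) _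
    rw [show x a ^ e a * X - y a ^ e a * Y = x a ^ e a * (X - Y) + Y * (x a ^ e a - y a ^ e a) by
      ring]
    refine (mul_le_mul_of_nonneg_left (abs_add_le _ _) hA).trans ?_
    rw [abs_mul, abs_mul, mul_add, mul_left_comm A, mul_left_comm A |Y|, pow_add]
    have h1 := mul_le_mul hxa ih (by positivity) (by positivity)
    have h2 := mul_le_mul hYle (hpow a (e a)) (by positivity) (by positivity)
    push_cast at h1 h2 ⊢
    linarith

/-- **The Lipschitz bound.** -/
theorem abs_aeval_sub_le {d : ℕ} (hF : F.IsHomogeneous (d + 1)) (x y : Fin n → ℝ) {A δ : ℝ}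
    (hA : 0 < A) (hx : ∀ i, |x i| ≤ A) (hy : ∀ i, |y i| ≤ A) (hxy : ∀ i, |x i - y i| ≤ δ) :
    |aeval x F - aeval y F| ≤ ((d + 1 : ℕ) : ℝ) * formSize F * A ^ d * δ := by
  refine le_of_mul_le_mul_left ?_ hA
  rw [aeval_eq_sum, aeval_eq_sum, ← sum_sub_distrib]
  simp only [← mul_sub]
  refine (mul_le_mul_of_nonneg_left (abs_sum_le_sum_abs _ _) hA.le).trans ?_
  rw [mul_sum, formSize, Nat.cast_sum, mul_sum, sum_mul, sum_mul, mul_sum]
  refine sum_le_sum fun e he => ?_
  rw [abs_mul, mul_left_comm, Nat.cast_natAbs, Int.cast_abs]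
  have h := abs_monomial_sub_le x y hA.le hx hy hxy (fun i => e i) univ
  rw [sum_exponents_eq F hF he] at h
  calc |((coeff e F : ℤ) : ℝ)| * (A * |∏ i, x i ^ e i - ∏ i, y i ^ e i|)
      ≤ |((coeff e F : ℤ) : ℝ)| * (((d + 1 : ℕ) : ℝ) * A ^ (d + 1) * δ) := by gcongr
    _ = _ := by ring

theorem abs_aeval_le {d : ℕ} (hF : F.IsHomogeneous d) (x : Fin n → ℝ) {A : ℝ}
    (hx : ∀ i, |x i| ≤ A) : |aeval x F| ≤ formSize F * A ^ d := by
  rw [aeval_eq_sum, formSize, Nat.cast_sum, sum_mul]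
  refine (abs_sum_le_sum_abs _ _).trans (sum_le_sum fun e he => ?_)
  rw [abs_mul, Nat.cast_natAbs, Int.cast_abs, abs_prod]
  refine mul_le_mul_of_nonneg_left ?_ (abs_nonneg _)
  rw [← sum_exponents_eq F hF he, ← prod_pow_eq_pow_sum]
  exact prod_le_prod (fun i _ => abs_nonneg _) fun i _ => by
    rw [abs_pow]; exact pow_le_pow_left₀ (abs_nonneg _) (hx i) _

theorem abs_eval_le {d : ℕ} (hF : F.IsHomogeneous d) {P : ℕ} {x : Fin n → ℤ}
    (hx : ∀ i, |x i| ≤ (P : ℤ)) : |eval x F| ≤ (formSize F : ℤ) * (P : ℤ) ^ d := by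
  have h := abs_aeval_le F hF (fun i => (x i : ℝ)) (A := (P : ℝ)) fun i => by exact_mod_cast hx i
  rw [aeval_intCast] at h
  exact_mod_cast h

theorem formSum_eq (P : ℕ) (α : ℝ) : formSum F P α =
    ∑ x ∈ CubicForms.cbox n P, ThreePrimes.eAdd (α * aeval (fun i => (x i : ℝ)) F) := by
  simp only [formSum, aeval_intCast]

end FA.FormsManyVariables
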