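import Fermat.Agent.FormsManyVariables.Bounds
import Fermat.Agent.CubicForms.Complete

/-!
# Complete sums of a form

Near `a / q` the sum over the box is `q ^ (-n) S (a, q)` times the sum at `β` up to
`O (q P ^ (n - 1) (1 + P ^ d |β|))`, by averaging over the translations by residues.
-/

set_option autoImplicit false

noncomputable section

namespace FA.FormsManyVariables

open Finset FA.ThreePrimes FA.WaringAsymptotic FA.CubicForms MvPolynomial
open scoped Real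

variable {n : ℕ} (F : MvPolynomial (Fin n) ℤ)

/-- The complete sum `S (a, q)`. -/
def completeSum (q : ℕ) (a : ℤ) : ℂ :=
  ∑ r ∈ residueBox n q, eAdd (((a * eval (fun i => (r i : ℤ)) F : ℤ) : ℝ) / q)

theorem norm_completeSum_le (q : ℕ) (a : ℤ) : ‖completeSum F q a‖ ≤ (q : ℝ) ^ n := by
  refine (norm_sum_le _ _).trans (le_of_eq ?_)
  simp [norm_eAdd, card_residueBox]

theorem eAdd_eval_congr {q : ℕ} (hq : 0 < q) (a : ℤ) {x y : Fin n → ℤ}
    (h : ∀ i, (x i : ZMod q) = (y i : ZMod q)) :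
    eAdd (((a * eval x F : ℤ) : ℝ) / q) = eAdd (((a * eval y F : ℤ) : ℝ) / q) := by
  refine eAdd_natCast_div_congr hq ?_
  rw [Int.cast_mul, Int.cast_mul, ← aeval_intCast, ← aeval_intCast, funext h]

/-- Translations permute the residues. -/
theorem sum_residues_shift {q : ℕ} (hq : 0 < q) (a : ℤ) (x : Fin n → ℤ) :
    ∑ r ∈ residueBox n q, eAdd (((a * eval (x + fun i => (r i : ℤ)) F : ℤ) : ℝ) / q) =
      completeSum F q a := by
  have : NeZero q := ⟨hq.ne'⟩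
  refine sum_nbij' (fun r i => ((x i : ZMod q) + r i).val) (fun r i => ((r i : ZMod q) - x i).val)
    (fun r _ => mem_residueBox.2 fun i => ZMod.val_lt _)
    (fun r _ => mem_residueBox.2 fun i => ZMod.val_lt _) (fun r hr => ?_) (fun r hr => ?_)
    fun r _ => eAdd_eval_congr F hq a fun i => ?_
  · funext i
    simp only [ZMod.natCast_zmod_val, add_sub_cancel_left,
      ZMod.val_cast_of_lt (mem_residueBox.1 hr i)]
  · funext i
    simp only [ZMod.natCast_zmod_val, add_sub_cancel,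
      ZMod.val_cast_of_lt (mem_residueBox.1 hr i)]
  · simp only [Pi.add_apply, Int.cast_add, Int.cast_natCast, ZMod.natCast_zmod_val]

theorem formSum_congr (P : ℕ) {α β : ℝ} {z : ℤ} (h : α = β + z) :
    formSum F P α = formSum F P β := by
  refine sum_congr rfl fun x _ => ?_
  rw [h, add_mul, ← Int.cast_mul, eAdd_add, eAdd_intCast, mul_one]

theorem formSum_zero (P : ℕ) : formSum F P 0 = (((2 * P + 1) ^ n : ℕ) : ℂ) := by
  simp [formSum, card_cbox]

theorem norm_eAdd_mul_sub_le (β s t : ℝ) :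
    ‖eAdd (β * s) - eAdd (β * t)‖ ≤ 2 * π * (|β| * |s - t|) := by
  rw [show eAdd (β * s) - eAdd (β * t) = eAdd (β * t) * (eAdd (β * (s - t)) - 1) by
    rw [mul_sub, mul_one, ← eAdd_add]; ring_nf, norm_mul, norm_eAdd, one_mul, ← abs_mul]
  exact norm_eAdd_sub_one_le _

/-- **The main term near a fraction.** -/
theorem exists_major_approx_form {m : ℕ} (hF : F.IsHomogeneous (m + 2)) :
    ∃ C : ℝ, 0 < C ∧ ∀ (P q : ℕ) (a : ℤ) (β : ℝ), 1 ≤ q → q ≤ P →
      ‖formSum F P ((a : ℝ) / q + β) - completeSum F q a / (q : ℂ) ^ n * formSum F P β‖ ≤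
        C * q * (P : ℝ) ^ (n - 1) * (1 + (P : ℝ) ^ (m + 2) * |β|) := by
  obtain ⟨L₀, hL₀⟩ : ∃ L₀ : ℝ, L₀ = 2 * π * (((m + 2 : ℕ) : ℝ) * formSize F * 2 ^ (m + 1)) :=
    ⟨_, rfl⟩
  have hL0 : 0 ≤ L₀ := hL₀ ▸ by positivity
  refine ⟨(4 * n + L₀ * 3 + 1) * 3 ^ n, by positivity, fun P q a β hq hqP => ?_⟩
  have hq0 : 0 < q := hq
  have hP : 1 ≤ P := hq.trans hqP
  have hP0 : (1 : ℝ) ≤ P := by exact_mod_cast hP
  have hqn : ((q : ℂ) ^ n) ≠ 0 := pow_ne_zero _ (Nat.cast_ne_zero.2 hq0.ne')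
  obtain ⟨f, hf⟩ : ∃ f : (Fin n → ℤ) → ℂ,
      f = fun y => eAdd (((a : ℝ) / q + β) * (eval y F : ℤ)) := ⟨_, rfl⟩
  obtain ⟨V, hV⟩ : ∃ V, V = formSum F P β := ⟨_, rfl⟩
  have hsplit : ∀ (x : Fin n → ℤ), ∀ y : Fin n → ℤ, f y =
      eAdd (((a * eval y F : ℤ) : ℝ) / q) * eAdd (β * (eval x F : ℤ)) +
        eAdd (((a * eval y F : ℤ) : ℝ) / q) *
          (eAdd (β * (eval y F : ℤ)) - eAdd (β * (eval x F : ℤ))) := fun x y => by
    rw [← mul_add, add_sub_cancel, ← eAdd_add, hf]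
    push_cast
    ring_nf
  obtain ⟨D, hD⟩ : ∃ D : ℝ, D = L₀ * ((q : ℝ) * (P : ℝ) ^ (m + 1) * |β|) := ⟨_, rfl⟩
  have hΔ : ∀ x ∈ cbox n P, ∀ r ∈ residueBox n q,
      ‖eAdd (β * (eval (x + fun i => (r i : ℤ)) F : ℤ)) - eAdd (β * (eval x F : ℤ))‖ ≤ D := by
    intro x hx r hr
    have hq2 : (q : ℝ) ≤ P := Nat.cast_le.2 hqP
    have hr' : ∀ i, |((r i : ℕ) : ℝ)| ≤ (q : ℝ) := fun i => by
      rw [Nat.abs_cast]; exact_mod_cast (mem_residueBox.1 hr i).le
    have hx' : ∀ i, |(x i : ℝ)| ≤ (P : ℝ) := fun i => by exact_mod_cast mem_cbox.1 hx i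
    refine (norm_eAdd_mul_sub_le _ _ _).trans ?_
    rw [← aeval_intCast, ← aeval_intCast]
    have h := abs_aeval_sub_le F hF (fun i => ((x + fun i => (r i : ℤ)) i : ℝ))
      (fun i => (x i : ℝ)) (A := 2 * P) (δ := q) (by linarith) (fun i => by
        push_cast [Pi.add_apply]
        exact (abs_add_le _ _).trans (by linarith [hx' i, hr' i]))
      (fun i => (hx' i).trans (by linarith)) fun i => by
        push_cast [Pi.add_apply]
        rw [add_sub_cancel_left]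
        exact hr' i
    calc 2 * π * (|β| * |_|) ≤
          2 * π * (|β| * (((m + 1 + 1 : ℕ) : ℝ) * formSize F * (2 * (P : ℝ)) ^ (m + 1) * q)) := by
          gcongr
      _ = _ := by rw [hD, hL₀, mul_pow]; ring
  have hD0 : 0 ≤ D := hD ▸ by positivity
  have hmain : ‖∑ r ∈ residueBox n q, ∑ x ∈ cbox n P, f (x + fun i => (r i : ℤ)) -
      completeSum F q a * V‖ ≤ (q : ℝ) ^ n * ((3 * (P : ℝ)) ^ n * D) := by
    rw [sum_comm, hV, formSum, mul_sum, ← sum_sub_distrib]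
    refine (norm_sum_le _ _).trans ((sum_le_card_nsmul _ _ ((q : ℝ) ^ n * D) fun x hx => ?_).trans
      ?_)
    · rw [sum_congr rfl fun r _ => hsplit x (x + fun i => (r i : ℤ)), sum_add_distrib, ← sum_mul,
        sum_residues_shift F hq0, add_sub_cancel_left]
      refine (norm_sum_le _ _).trans ((sum_le_card_nsmul _ _ D fun r hr => ?_).trans (le_of_eq ?_))
      · rw [norm_mul, norm_eAdd, one_mul]
        exact hΔ x hx r hr
      · rw [nsmul_eq_mul, card_residueBox, Nat.cast_pow]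
    · rw [nsmul_eq_mul, card_cbox, Nat.cast_pow, mul_left_comm]
      gcongr
      push_cast
      linarith
  have hshift : ‖(q : ℂ) ^ n * formSum F P ((a : ℝ) / q + β) -
      ∑ r ∈ residueBox n q, ∑ x ∈ cbox n P, f (x + fun i => (r i : ℤ))‖ ≤
      (q : ℝ) ^ n * (4 * n * q * (3 * (P : ℝ)) ^ (n - 1)) := by
    rw [show (q : ℂ) ^ n * formSum F P ((a : ℝ) / q + β) =
      ∑ r ∈ residueBox n q, ∑ x ∈ cbox n P, f x by
      rw [sum_const, card_residueBox, nsmul_eq_mul, Nat.cast_pow, formSum, hf], ← sum_sub_distrib]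
    refine (norm_sum_le _ _).trans ((sum_le_card_nsmul _ _
      (4 * n * q * (3 * (P : ℝ)) ^ (n - 1)) fun r hr => ?_).trans (le_of_eq ?_))
    · rw [norm_sub_rev]
      refine norm_sum_shift_sub_le f (fun y => by rw [hf, norm_eAdd]) hqP fun i => ?_
      rw [Nat.abs_cast]
      exact_mod_cast (mem_residueBox.1 hr i).le
    · rw [nsmul_eq_mul, card_residueBox, Nat.cast_pow]
  rw [← hV, show formSum F P ((a : ℝ) / q + β) - completeSum F q a / (q : ℂ) ^ n * V =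
    ((q : ℂ) ^ n * formSum F P ((a : ℝ) / q + β) - completeSum F q a * V) / (q : ℂ) ^ n by
      field_simp, norm_div, norm_pow, Complex.norm_natCast, div_le_iff₀ (by positivity)]
  refine (norm_sub_le_norm_sub_add_norm_sub _
    (∑ r ∈ residueBox n q, ∑ x ∈ cbox n P, f (x + fun i => (r i : ℤ))) _).trans
    ((add_le_add hshift hmain).trans ?_)
  rw [← mul_add, mul_comm ((q : ℝ) ^ n)]
  refine mul_le_mul_of_nonneg_right ?_ (by positivity)
  have hP' : (P : ℝ) ^ n ≤ (P : ℝ) ^ (n - 1) * P := by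
    rw [← pow_succ]; exact pow_le_pow_right₀ hP0 (by omega)
  have h3 : (3 : ℝ) ^ (n - 1) ≤ 3 ^ n := pow_le_pow_right₀ (by norm_num) (Nat.sub_le _ _)
  have hw : 0 ≤ (P : ℝ) ^ (m + 2) * |β| := by positivity
  calc 4 * (n : ℝ) * q * (3 * (P : ℝ)) ^ (n - 1) + (3 * (P : ℝ)) ^ n * D
      = 4 * (n : ℝ) * q * (3 ^ (n - 1) * (P : ℝ) ^ (n - 1)) +
          3 ^ n * (P : ℝ) ^ n * (L₀ * ((q : ℝ) * (P : ℝ) ^ (m + 1) * |β|)) := by
        rw [hD, mul_pow, mul_pow]
    _ ≤ 4 * (n : ℝ) * q * (3 ^ n * (P : ℝ) ^ (n - 1)) +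
          3 ^ n * ((P : ℝ) ^ (n - 1) * P) * (L₀ * ((q : ℝ) * (P : ℝ) ^ (m + 1) * |β|)) := by
        gcongr
    _ = 3 ^ n * q * (P : ℝ) ^ (n - 1) * (4 * n + L₀ * ((P : ℝ) ^ (m + 2) * |β|)) := by ring
    _ ≤ 3 ^ n * q * (P : ℝ) ^ (n - 1) *
          ((4 * n + L₀ * 3 + 1) * (1 + (P : ℝ) ^ (m + 2) * |β|)) := by
        gcongr
        nlinarith [mul_nonneg hL0 hw]
    _ = _ := by ring

theorem norm_formSum_sub_le {m : ℕ} (hF : F.IsHomogeneous (m + 2)) (P : ℕ) (α β : ℝ) :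
    ‖formSum F P α - formSum F P β‖ ≤
      2 * π * formSize F * (P : ℝ) ^ (m + 2) * ((2 * P + 1 : ℕ) : ℝ) ^ n * |α - β| := by
  rw [formSum, formSum, ← sum_sub_distrib]
  refine (norm_sum_le _ _).trans ((sum_le_card_nsmul _ _
    (2 * π * formSize F * (P : ℝ) ^ (m + 2) * |α - β|) fun x hx => ?_).trans (le_of_eq ?_))
  · rw [mul_comm α, mul_comm β]
    refine (norm_eAdd_mul_sub_le _ _ _).trans ?_
    have hz : |((eval x F : ℤ) : ℝ)| ≤ (formSize F : ℝ) * (P : ℝ) ^ (m + 2) := by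
      exact_mod_cast abs_eval_le F hF (mem_cbox.1 hx)
    calc 2 * π * (|((eval x F : ℤ) : ℝ)| * |α - β|)
        ≤ 2 * π * ((formSize F : ℝ) * (P : ℝ) ^ (m + 2) * |α - β|) := by gcongr
      _ = _ := by ring
  · rw [nsmul_eq_mul, card_cbox, Nat.cast_pow]; ring

end FA.FormsManyVariables
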