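import Mathlib.Algebra.Group.ForwardDiff
import Mathlib.Algebra.MvPolynomial.Funext
import Mathlib.Algebra.MvPolynomial.PDeriv
import Mathlib.Data.List.FinRange
import Mathlib.Data.List.Perm.Basic
import Mathlib.LinearAlgebra.Multilinear.Basic
import Mathlib.RingTheory.MvPolynomial.Homogeneous

/-!
# The differences of a form

A function on `ℤ ^ n` has degree at most `k` if all its `(k + 1)`-st differences vanish. Its `k`-th
differences are then a symmetrical multilinear function of the steps, and for a form of degree `k`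
this function is `k!` times the form on the diagonal.
-/

set_option autoImplicit false

noncomputable section

namespace FA.FormsManyVariables

open Finset MvPolynomial

variable {n : ℕ}

/-- Every `(k + 1)`-st difference vanishes. -/
def DegLE : ℕ → ((Fin n → ℤ) → ℤ) → Prop
  | 0, φ => ∀ x, φ x = φ 0
  | k + 1, φ => ∀ h, DegLE k (fwdDiff h φ)

theorem degLE_const (c : ℤ) : ∀ k, DegLE (n := n) k fun _ => c
  | 0 => fun _ => rfl
  | k + 1 => fun h => by rw [fwdDiff_const]; exact degLE_const 0 k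

theorem DegLE.succ : ∀ {k : ℕ} {φ : (Fin n → ℤ) → ℤ}, DegLE k φ → DegLE (k + 1) φ
  | 0, φ, hφ => fun h x => by simp only [fwdDiff]; rw [hφ (x + h), hφ x, hφ (0 + h)]
  | k + 1, φ, hφ => fun h => (hφ h).succ

theorem DegLE.mono {k m : ℕ} {φ : (Fin n → ℤ) → ℤ} (hφ : DegLE k φ) (hkm : k ≤ m) : DegLE m φ := by
  induction hkm with
  | refl => exact hφ
  | step _ ih => exact ih.succ

theorem DegLE.add : ∀ {k : ℕ} {φ ψ : (Fin n → ℤ) → ℤ}, DegLE k φ → DegLE k ψ → DegLE k (φ + ψ)
  | 0, φ, ψ, h₁, h₂ => fun x => by simp only [Pi.add_apply, h₁ x, h₂ x]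
  | k + 1, φ, ψ, h₁, h₂ => fun h => by rw [fwdDiff_add]; exact (h₁ h).add (h₂ h)

theorem DegLE.smul : ∀ {k : ℕ} {φ : (Fin n → ℤ) → ℤ}, DegLE k φ → ∀ c : ℤ, DegLE k (c • φ)
  | 0, φ, h₁, c => fun x => by simp only [Pi.smul_apply, h₁ x]
  | k + 1, φ, h₁, c => fun h => by rw [fwdDiff_const_smul]; exact (h₁ h).smul c

theorem DegLE.shift : ∀ {k : ℕ} {φ : (Fin n → ℤ) → ℤ}, DegLE k φ → ∀ t, DegLE k fun x => φ (x + t)
  | 0, φ, h₁, t => fun x => (h₁ (x + t)).trans (h₁ (0 + t)).symm
  | k + 1, φ, h₁, t => fun h => by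
    have := (h₁ h).shift t
    simp only [fwdDiff, add_right_comm _ t h] at this
    exact this

theorem DegLE.mul : ∀ (m : ℕ) {a b : ℕ} {φ ψ : (Fin n → ℤ) → ℤ}, a + b = m → DegLE a φ →
    DegLE b ψ → DegLE m (φ * ψ) := by
  intro m
  induction m with
  | zero =>
    intro a b φ ψ e h₁ h₂ x
    obtain ⟨rfl, rfl⟩ : a = 0 ∧ b = 0 := by omega
    simp only [Pi.mul_apply, h₁ x, h₂ x]
  | succ m ih =>
    intro a b φ ψ e h₁ h₂ h
    have hd : fwdDiff h (φ * ψ) =
        fwdDiff h φ * (fun x => ψ (x + h)) + φ * fwdDiff h ψ := by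
      funext x
      simp only [fwdDiff, Pi.mul_apply, Pi.add_apply]
      ring
    rw [hd]
    refine DegLE.add ?_ ?_
    · cases a with
      | zero =>
        have : fwdDiff h φ = 0 := funext fun x => by
          simp only [fwdDiff, h₁ (x + h), h₁ x, sub_self, Pi.zero_apply]
        rw [this, zero_mul]
        exact degLE_const 0 m
      | succ a => exact ih (by omega) (h₁ h) (h₂.shift h)
    · cases b with
      | zero =>
        have : fwdDiff h ψ = 0 := funext fun x => by
          simp only [fwdDiff, h₂ (x + h), h₂ x, sub_self, Pi.zero_apply]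
        rw [this, mul_zero]
        exact degLE_const 0 m
      | succ b => exact ih (by omega) h₁ (h₂ h)

theorem degLE_coord (i : Fin n) : DegLE 1 fun x : Fin n → ℤ => x i := fun h x => by
  simp [fwdDiff]

theorem degLE_pow (i : Fin n) : ∀ e : ℕ, DegLE e fun x : Fin n → ℤ => x i ^ e
  | 0 => fun x => by simp
  | e + 1 => by
    simpa only [pow_succ, Pi.mul_def] using
      DegLE.mul (e + 1) rfl (degLE_pow i e) (degLE_coord i)

/-- A polynomial of degree at most `m` has degree at most `m`. -/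
theorem degLE_eval (G : MvPolynomial (Fin n) ℤ) {m : ℕ} (hG : G.totalDegree ≤ m) :
    DegLE m fun x => eval x G := by
  have hmono : ∀ (t : Finset (Fin n)) (s : Fin n →₀ ℕ),
      DegLE (∑ i ∈ t, s i) fun x : Fin n → ℤ => ∏ i ∈ t, x i ^ s i := by
    intro t s
    induction t using Finset.induction with
    | empty => simpa using degLE_const 1 0
    | insert a t ha ih =>
      simp only [sum_insert ha, prod_insert ha]
      exact DegLE.mul _ rfl (degLE_pow a (s a)) ih
  have hsum : (fun x : Fin n → ℤ => eval x G) =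
      ∑ s ∈ G.support, coeff s G • fun x : Fin n → ℤ => ∏ i, x i ^ s i := by
    funext x
    rw [eval_eq', Finset.sum_apply]
    rfl
  rw [hsum]
  refine Finset.sum_induction _ (DegLE m) (fun _ _ => DegLE.add) (degLE_const 0 m) fun s hs =>
    ((hmono univ s).mono ?_).smul _
  refine le_trans (le_of_eq ?_) ((le_totalDegree hs).trans hG)
  exact (Finsupp.sum_fintype s (fun _ e => e) fun _ => rfl).symm

/-- The iterated difference. -/
def itDiff {m : ℕ} (h : Fin m → Fin n → ℤ) (φ : (Fin n → ℤ) → ℤ) : (Fin n → ℤ) → ℤ :=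
  (List.ofFn h).foldl (fun ψ a => fwdDiff a ψ) φ

/-- The `m`-th difference at `0`. -/
def lead {m : ℕ} (φ : (Fin n → ℤ) → ℤ) (h : Fin m → Fin n → ℤ) : ℤ := itDiff h φ 0

theorem itDiff_cons {m : ℕ} (a : Fin n → ℤ) (h : Fin m → Fin n → ℤ) (φ : (Fin n → ℤ) → ℤ) :
    itDiff (Fin.cons a h) φ = itDiff h (fwdDiff a φ) := by
  simp [itDiff, List.ofFn_succ]

theorem itDiff_snoc {m : ℕ} (h : Fin m → Fin n → ℤ) (a : Fin n → ℤ) (φ : (Fin n → ℤ) → ℤ) :
    itDiff (Fin.snoc h a : Fin (m + 1) → Fin n → ℤ) φ = fwdDiff a (itDiff h φ) := by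
  rw [itDiff, List.ofFn_succ']
  simp only [Fin.snoc_castSucc, Fin.snoc_last, List.concat_eq_append, List.foldl_append,
    List.foldl_cons, List.foldl_nil]
  rfl

theorem itDiff_perm {m : ℕ} (σ : Equiv.Perm (Fin m)) (h : Fin m → Fin n → ℤ)
    (φ : (Fin n → ℤ) → ℤ) : itDiff (h ∘ σ) φ = itDiff h φ := by
  have : RightCommutative fun (ψ : (Fin n → ℤ) → ℤ) (a : Fin n → ℤ) => fwdDiff a ψ := ⟨fun ψ a b =>
    funext fun x => by simp only [fwdDiff, add_right_comm x a b]; ring⟩
  exact (Equiv.Perm.ofFn_comp_perm σ h).foldl_eq φ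

theorem lead_perm {m : ℕ} (σ : Equiv.Perm (Fin m)) (h : Fin m → Fin n → ℤ)
    (φ : (Fin n → ℤ) → ℤ) : lead φ (h ∘ σ) = lead φ h := congrFun (itDiff_perm σ h φ) 0

theorem itDiff_add : ∀ {m : ℕ} (h : Fin m → Fin n → ℤ) (φ ψ : (Fin n → ℤ) → ℤ),
    itDiff h (φ + ψ) = itDiff h φ + itDiff h ψ
  | 0, h, φ, ψ => by simp [itDiff]
  | m + 1, h, φ, ψ => by
    rw [← Fin.cons_self_tail h, itDiff_cons, itDiff_cons, itDiff_cons, fwdDiff_add, itDiff_add]

theorem DegLE.itDiff_const : ∀ {m : ℕ} {φ : (Fin n → ℤ) → ℤ}, DegLE m φ →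
    ∀ (h : Fin m → Fin n → ℤ) (x : Fin n → ℤ), itDiff h φ x = lead φ h
  | 0, φ, hφ, h, x => by simpa [lead, itDiff] using hφ x
  | m + 1, φ, hφ, h, x => by
    rw [lead, ← Fin.cons_self_tail h, itDiff_cons]
    exact (hφ (h 0)).itDiff_const _ x

theorem DegLE.itDiff_eq_zero {m : ℕ} {φ : (Fin n → ℤ) → ℤ} (hφ : DegLE m φ)
    (h : Fin (m + 1) → Fin n → ℤ) : itDiff h φ = 0 := by
  rw [← Fin.snoc_init_self h, itDiff_snoc]
  funext x
  simp only [fwdDiff, hφ.itDiff_const, sub_self, Pi.zero_apply]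

theorem lead_cons_add {m : ℕ} {φ : (Fin n → ℤ) → ℤ} (hφ : DegLE (m + 1) φ) (a b : Fin n → ℤ)
    (h : Fin m → Fin n → ℤ) : lead φ (Fin.cons (a + b) h : Fin (m + 1) → Fin n → ℤ) =
      lead φ (Fin.cons a h) + lead φ (Fin.cons b h) := by
  have e : fwdDiff (a + b) φ = fwdDiff a φ + fwdDiff b φ + fwdDiff b (fwdDiff a φ) := by
    funext x
    simp only [fwdDiff, Pi.add_apply, add_right_comm x b a, add_assoc]
    ring
  have h0 : itDiff h (fwdDiff b (fwdDiff a φ)) = 0 := by
    cases m with
    | zero =>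
      funext x
      simpa [itDiff, fwdDiff, sub_eq_zero] using (hφ a (x + b)).trans (hφ a x).symm
    | succ m => exact (hφ a b).itDiff_eq_zero h
  simp only [lead, itDiff_cons, e, itDiff_add, h0, Pi.add_apply, Pi.zero_apply, add_zero]

theorem lead_update_add {m : ℕ} {φ : (Fin n → ℤ) → ℤ} (hφ : DegLE m φ) (h : Fin m → Fin n → ℤ)
    (i : Fin m) (a b : Fin n → ℤ) :
    lead φ (Function.update h i (a + b)) =
      lead φ (Function.update h i a) + lead φ (Function.update h i b) := by
  cases m with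
  | zero => exact i.elim0
  | succ m =>
    have e : ∀ c, lead φ (Function.update h i c) =
        lead φ (Fin.cons c (Fin.tail (h ∘ Equiv.swap 0 i))) := fun c => by
      rw [← lead_perm (Equiv.swap 0 i) (Function.update h i c), Function.update_comp_equiv,
        Equiv.symm_swap, Equiv.swap_apply_right, ← Fin.cons_self_tail (h ∘ Equiv.swap 0 i),
        Fin.update_cons_zero, Fin.tail_cons]
    simp only [e]
    exact lead_cons_add hφ a b _

/-- The multilinear function. -/
def leadMap {m : ℕ} (φ : (Fin n → ℤ) → ℤ) (hφ : DegLE m φ) :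
    MultilinearMap ℤ (fun _ : Fin m => Fin n → ℤ) ℤ where
  toFun := lead φ
  map_update_add' := by
    intro inst h i a b
    obtain rfl : inst = instDecidableEqFin m := Subsingleton.elim _ _
    exact lead_update_add hφ h i a b
  map_update_smul' := by
    intro inst h i c a
    obtain rfl : inst = instDecidableEqFin m := Subsingleton.elim _ _
    have := map_zsmul (AddMonoidHom.mk' (fun a => lead φ (Function.update h i a))
      fun a b => lead_update_add hφ h i a b) c a
    exact this

variable (F : MvPolynomial (Fin n) ℤ)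

/-- The coefficients of the multilinear form of `F`. -/
def polarCoeff {m : ℕ} (f : Fin m → Fin n) : ℤ :=
  lead (fun x => eval x F) fun i => Pi.single (f i) 1

theorem polarCoeff_perm {m : ℕ} (σ : Equiv.Perm (Fin m)) (f : Fin m → Fin n) :
    polarCoeff F (f ∘ σ) = polarCoeff F f :=
  lead_perm σ (fun i => Pi.single (f i) 1) _

/-- The multilinear forms of the gradient. -/
def polarJ {R : Type*} [CommRing R] {k : ℕ} (v : Fin k → Fin n → R) (j : Fin n) : R :=
  ∑ f : Fin k → Fin n, (polarCoeff F (Fin.snoc f j : Fin (k + 1) → Fin n) : R) * ∏ i, v i (f i)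

theorem polarJ_map {R S : Type*} [CommRing R] [CommRing S] {k : ℕ} (g : R →+* S)
    (v : Fin k → Fin n → R) (j : Fin n) :
    polarJ F (fun i l => g (v i l)) j = g (polarJ F v j) := by
  simp [polarJ, map_sum, map_mul, map_prod]

theorem polarJ_update {R : Type*} [CommRing R] {k : ℕ} (v : Fin k → Fin n → R) (i : Fin k)
    (g : Fin n → R) (j : Fin n) : polarJ F (Function.update v i g) j =
      ∑ l, g l * polarJ F (Function.update v i (Pi.single l 1)) j := by
  have e : ∀ (w : Fin n → R) (f : Fin k → Fin n), ∏ i', Function.update v i w i' (f i') =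
      w (f i) * ∏ i' ∈ univ.erase i, v i' (f i') := fun w f => by
    rw [← mul_prod_erase _ _ (mem_univ i), Function.update_self]
    exact congrArg _ (prod_congr rfl fun i' hi' => by
      rw [Function.update_of_ne (ne_of_mem_erase hi')])
  simp only [polarJ, e, mul_sum]
  rw [sum_comm]
  refine sum_congr rfl fun f _ => ?_
  rw [sum_eq_single (f i) (fun l _ hl => by simp [hl.symm]) fun h => absurd (mem_univ _) h,
    Pi.single_eq_same]
  ring

theorem lead_snoc_eq {k : ℕ} (hF : F.totalDegree ≤ k + 1) (h : Fin k → Fin n → ℤ)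
    (x : Fin n → ℤ) : lead (fun y => eval y F) (Fin.snoc h x : Fin (k + 1) → Fin n → ℤ) =
      ∑ j, x j * polarJ F h j := by
  have hdeg := degLE_eval F hF
  change leadMap _ hdeg (Fin.snoc h x) = _
  have e : (Fin.snoc h x : Fin (k + 1) → Fin n → ℤ) = fun i =>
      ∑ l, (Fin.snoc h x : Fin (k + 1) → Fin n → ℤ) i l • (Pi.single l 1 : Fin n → ℤ) := by
    funext i l
    simp [Finset.sum_apply, Pi.single_apply]
  conv_lhs => rw [e, MultilinearMap.map_sum]
  simp only [MultilinearMap.map_smul_univ, smul_eq_mul, polarJ, mul_sum]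
  rw [sum_comm, ← (Fin.snocEquiv fun _ : Fin (k + 1) => Fin n).sum_comp, Fintype.sum_prod_type,
    sum_comm]
  refine sum_congr rfl fun f _ => sum_congr rfl fun j _ => ?_
  change (∏ i, (Fin.snoc h x : Fin (k + 1) → Fin n → ℤ) i ((Fin.snoc f j : _ → Fin n) i)) *
    polarCoeff F (Fin.snoc f j : Fin (k + 1) → Fin n) = _
  rw [Fin.prod_univ_castSucc]
  simp only [Fin.snoc_castSucc, Fin.snoc_last, Int.cast_id]
  ring

/-- **The last difference is linear.** -/
theorem itDiff_eq_affine {k : ℕ} (hF : F.totalDegree ≤ k + 1) (h : Fin k → Fin n → ℤ)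
    (x : Fin n → ℤ) : itDiff h (fun y => eval y F) x =
      itDiff h (fun y => eval y F) 0 + ∑ j, x j * polarJ F h j := by
  rw [← lead_snoc_eq F hF, lead, itDiff_snoc]
  simp only [fwdDiff, zero_add]
  ring

theorem polarJ_single {k : ℕ} (hF : F.totalDegree ≤ k + 1) (h : Fin k → Fin n → ℤ) (j : Fin n) :
    polarJ F h j = lead (fun y => eval y F)
      (Fin.snoc h (Pi.single j 1) : Fin (k + 1) → Fin n → ℤ) := by
  rw [lead_snoc_eq F hF, sum_eq_single j (fun l _ hl => by simp [hl])
    fun h => absurd (mem_univ _) h, Pi.single_eq_same, one_mul]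

/-- The matrix of one slot is symmetrical. -/
theorem polarJ_update_symm {k : ℕ} (hF : F.totalDegree ≤ k + 1) (h : Fin k → Fin n → ℤ)
    (i : Fin k) (j l : Fin n) : polarJ F (Function.update h i (Pi.single l 1)) j =
      polarJ F (Function.update h i (Pi.single j 1)) l := by
  rw [polarJ_single F hF, polarJ_single F hF,
    ← lead_perm (Equiv.swap i.castSucc (Fin.last k))]
  congr 1
  funext a
  have hne : i.castSucc ≠ Fin.last k := (Fin.castSucc_lt_last i).ne
  rcases Fin.eq_castSucc_or_eq_last a with ⟨b, rfl⟩ | rfl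
  · by_cases hb : b = i
    · subst hb
      simp [hne.symm]
    · rw [Function.comp_apply, Equiv.swap_apply_of_ne_of_ne
        (fun e => hb (Fin.castSucc_injective k e)) (Fin.castSucc_lt_last b).ne]
      simp [hb]
  · simp

theorem fwdDiff_iterate_eq : ∀ (m : ℕ) (z : Fin n → ℤ) (φ : (Fin n → ℤ) → ℤ),
    itDiff (fun _ : Fin m => z) φ = (fwdDiff z)^[m] φ
  | 0, z, φ => by simp [itDiff]
  | m + 1, z, φ => by
    rw [show (fun _ : Fin (m + 1) => z) = Fin.cons z fun _ : Fin m => z from
      funext (Fin.cases (by simp) fun i => by simp), itDiff_cons, fwdDiff_iterate_eq,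
      Function.iterate_succ_apply]

theorem polarJ_diag_int {k : ℕ} (hF : F.IsHomogeneous (k + 1)) (z : Fin n → ℤ) :
    ∑ j, z j * polarJ F (fun _ : Fin k => z) j = ((k + 1).factorial : ℤ) * eval z F := by
  rw [← lead_snoc_eq F hF.totalDegree_le, lead,
    show (Fin.snoc (fun _ : Fin k => z) z : Fin (k + 1) → Fin n → ℤ) = fun _ => z from
      funext (Fin.lastCases (by simp) fun i => by simp), fwdDiff_iterate_eq,
    fwdDiff_iter_eq_sum_shift]
  have hh : ∀ m : ℕ, eval (m • z) F = (m : ℤ) ^ (k + 1) * eval z F := fun m => by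
    rw [eval_eq', eval_eq', mul_sum]
    refine sum_congr rfl fun s hs => ?_
    simp only [Pi.smul_apply, nsmul_eq_mul, mul_pow, prod_mul_distrib, prod_pow_eq_pow_sum]
    rw [show ∑ i, s i = k + 1 by
      rw [← Finsupp.sum_fintype s (fun _ e => e) fun _ => rfl]
      simpa [Finsupp.weight_apply] using hF (MvPolynomial.mem_support_iff.1 hs)]
    ring
  have h1 := congrFun (fwdDiff_iter_eq_factorial (R := ℤ) (n := k + 1)) 0
  rw [fwdDiff_iter_eq_sum_shift] at h1
  simp only [zero_add, hh, smul_eq_mul]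
  simp only [zero_add, smul_eq_mul, mul_one, Pi.natCast_apply, nsmul_eq_mul] at h1
  rw [← h1, sum_mul]
  exact sum_congr rfl fun i _ => by ring

theorem pderiv_prod_X {m : ℕ} (f : Fin m → Fin n) (j : Fin n) (t : Finset (Fin m)) :
    pderiv j (∏ i ∈ t, (X (f i) : MvPolynomial (Fin n) ℤ)) =
      ∑ i ∈ t, if f i = j then ∏ i' ∈ t.erase i, X (f i') else 0 := by
  induction t using Finset.induction with
  | empty => simp
  | insert a t ha ih =>
    rw [prod_insert ha, pderiv_mul, ih, sum_insert ha, erase_insert ha, mul_sum, pderiv_X]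
    congr 1
    · rcases eq_or_ne (f a) j with e | e <;> simp [e]
    · refine sum_congr rfl fun i hi => ?_
      have hai : a ≠ i := fun e => ha (e ▸ hi)
      rw [erase_insert_of_ne hai, prod_insert (fun e => ha (mem_of_mem_erase e)), mul_ite, mul_zero]

theorem polarJ_diag_poly {k : ℕ} (hF : F.IsHomogeneous (k + 1)) (j : Fin n) :
    polarJ F (fun _ : Fin k => fun l => (X l : MvPolynomial (Fin n) ℤ)) j =
      C (k.factorial : ℤ) * pderiv j F := by
  obtain ⟨G, hG⟩ : ∃ G : MvPolynomial (Fin n) ℤ,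
      G = ∑ f : Fin (k + 1) → Fin n, C (polarCoeff F f) * ∏ i, X (f i) := ⟨_, rfl⟩
  have hGF : G = C ((k + 1).factorial : ℤ) * F := by
    refine MvPolynomial.funext fun z => ?_
    rw [hG, map_mul, eval_C, ← polarJ_diag_int F hF, map_sum,
      ← (Fin.snocEquiv fun _ : Fin (k + 1) => Fin n).sum_comp, Fintype.sum_prod_type]
    refine sum_congr rfl fun l _ => ?_
    simp only [polarJ, mul_sum]
    refine sum_congr rfl fun f _ => ?_
    change eval z (C (polarCoeff F (Fin.snoc f l : _ → Fin n)) *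
      ∏ i, X ((Fin.snoc f l : Fin (k + 1) → Fin n) i)) = _
    rw [Fin.prod_univ_castSucc]
    simp only [Fin.snoc_castSucc, Fin.snoc_last, map_mul, eval_C, map_prod, eval_X, Int.cast_id]
    ring
  obtain ⟨Q, hQ⟩ : ∃ Q, Q = polarJ F (fun _ : Fin k => fun l => (X l : MvPolynomial (Fin n) ℤ)) j :=
    ⟨_, rfl⟩
  have hd : pderiv j G = C ((k + 1 : ℕ) : ℤ) * Q := by
    rw [hG, map_sum]
    simp only [pderiv_C_mul, pderiv_prod_X, mul_sum]
    rw [sum_comm, Nat.cast_add_one]
    obtain ⟨T, hT⟩ : ∃ T : Fin (k + 1) → MvPolynomial (Fin n) ℤ, T = fun i =>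
        ∑ f : Fin (k + 1) → Fin n, C (polarCoeff F f) *
          if f i = j then ∏ i' ∈ univ.erase i, X (f i') else 0 := ⟨_, rfl⟩
    have hTi : ∀ i, T i = Q := by
      intro i
      obtain ⟨σ, hσ⟩ : ∃ σ, σ = Equiv.swap i (Fin.last k) := ⟨_, rfl⟩
      rw [hT]
      simp only
      rw [← (Equiv.arrowCongr σ (Equiv.refl (Fin n))).sum_comp]
      have hperm : ∀ f : Fin (k + 1) → Fin n,
          (Equiv.arrowCongr σ (Equiv.refl (Fin n))) f = f ∘ σ := fun f => by
        funext a
        simp [hσ]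
      have hprod : ∀ f : Fin (k + 1) → Fin n,
          ∏ i' ∈ univ.erase i, (X ((f ∘ σ) i') : MvPolynomial (Fin n) ℤ) =
            ∏ a : Fin k, X (f a.castSucc) := fun f => by
        have h1 : (univ.erase i).map σ.toEmbedding = univ.erase (Fin.last k) := by
          rw [map_erase, map_univ_equiv]
          simp [hσ]
        have h2 : univ.erase (Fin.last k) = (univ : Finset (Fin k)).map Fin.castSuccEmb := by
          ext a
          rcases Fin.eq_castSucc_or_eq_last a with ⟨b, rfl⟩ | rfl <;>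
            simp [Fin.castSucc_inj, (Fin.castSucc_lt_last _).ne]
        have h3 : ∏ a : Fin k, (X (f a.castSucc) : MvPolynomial (Fin n) ℤ) =
            ∏ a ∈ univ.erase (Fin.last k), X (f a) := by
          rw [h2, prod_map]; rfl
        rw [h3, ← h1, prod_map]
        rfl
      simp only [hperm, polarCoeff_perm, hprod]
      simp only [Function.comp_apply]
      simp only [hσ, Equiv.swap_apply_left]
      rw [← (Fin.snocEquiv fun _ : Fin (k + 1) => Fin n).sum_comp,
        Fintype.sum_prod_type, sum_eq_single j (fun l _ hl => sum_eq_zero fun f _ => ?_)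
          fun h => absurd (mem_univ _) h, hQ, polarJ]
      · refine sum_congr rfl fun f _ => ?_
        change C (polarCoeff F (Fin.snoc f j : Fin (k + 1) → Fin n)) *
          (if (Fin.snoc f j : Fin (k + 1) → Fin n) (Fin.last k) = j then
            ∏ a : Fin k, X ((Fin.snoc f j : Fin (k + 1) → Fin n) a.castSucc) else 0) = _
        simp only [Fin.snoc_last, if_true, Fin.snoc_castSucc]
        rw [← eq_intCast (C : ℤ →+* MvPolynomial (Fin n) ℤ)]
      · change C (polarCoeff F (Fin.snoc f l : Fin (k + 1) → Fin n)) *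
          (if (Fin.snoc f l : Fin (k + 1) → Fin n) (Fin.last k) = j then _ else 0) = _
        simp [Fin.snoc_last, hl]
    simp only [hT] at hTi
    rw [sum_congr rfl fun i _ => hTi i, sum_const, card_univ, Fintype.card_fin, nsmul_eq_mul]
    push_cast
    rw [map_add, map_one, map_natCast]
  rw [hGF, pderiv_C_mul, Nat.factorial_succ, Nat.cast_mul, map_mul,
    mul_assoc] at hd
  rw [← hQ]
  exact (mul_left_cancel₀ (by simp [Nat.cast_add_one_ne_zero]) hd).symm

/-- **The diagonal.** -/
theorem polarJ_diag {R : Type*} [CommRing R] {k : ℕ} (hF : F.IsHomogeneous (k + 1)) (z : Fin n → R)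
    (j : Fin n) : polarJ F (fun _ : Fin k => z) j =
      (k.factorial : R) * aeval z (pderiv j F) := by
  have h := congrArg (aeval z) (polarJ_diag_poly F hF j)
  rw [map_mul, aeval_C, map_natCast] at h
  rw [← h]
  have e := polarJ_map F (k := k) (aeval (R := ℤ) z).toRingHom (fun _ l => X l) j
  simp only [AlgHom.toRingHom_eq_coe, RingHom.coe_coe, aeval_X] at e
  exact e

end FA.FormsManyVariables
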