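import Fermat.Agent.CubicForms.Rank
import Fermat.Agent.FormsManyVariables.Diff
import Mathlib.Analysis.Complex.Polynomial.Basic
import Mathlib.LinearAlgebra.Dimension.Constructions
import Mathlib.RingTheory.Nullstellensatz

/-!
# The zeros of the multilinear forms

If homogeneous polynomials have no common zero but `0`, some power of every variable is a
combination of them, so that polynomials with these highest parts have boundedly many common
zeros. Hence the tuples of integer vectors of size `R` at which all the multilinear forms of the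
gradient vanish number `O (R ^ ((k - 1) n + s))`, `s` bounding the dimension of the singular locus.
-/

set_option autoImplicit false

noncomputable section

namespace FA.FormsManyVariables

open Finset MvPolynomial FA.CubicForms

variable {n : ℕ}

/-- `s` integer linear forms cut the singular locus down to the origin, as they can if and only if
its dimension is at most `s`. -/
def SingularDimLE (F : MvPolynomial (Fin n) ℤ) (s : ℕ) : Prop :=
  ∃ ℓ : Fin s → Fin n → ℤ, ∀ z : Fin n → ℂ, (∀ j, aeval z (pderiv j F) = 0) →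
    (∀ a, ∑ l, (ℓ a l : ℂ) * z l = 0) → z = 0

theorem exists_pow_combination {J : Type*} [Fintype J] (G : J → MvPolynomial (Fin n) ℂ)
    (e : J → ℕ) (hG : ∀ j, (G j).IsHomogeneous (e j))
    (h0 : ∀ z, (∀ j, eval z (G j) = 0) → z = 0) (i : Fin n) :
    ∃ M : ℕ, ∀ N, M ≤ N → ∃ A : J → MvPolynomial (Fin n) ℂ,
      (∀ j, (A j).totalDegree + e j ≤ N) ∧ (X i) ^ N = ∑ j, A j * G j := by
  classical
  have hrad : (X i : MvPolynomial (Fin n) ℂ) ∈ (Ideal.span (Set.range G)).radical := by
    rw [← vanishingIdeal_zeroLocus_eq_radical (K := ℂ), mem_vanishingIdeal_iff]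
    intro z hz
    rw [mem_zeroLocus_iff] at hz
    have hz0 := h0 z fun j => by
      simpa [aeval_eq_eval] using hz _ (Ideal.subset_span ⟨j, rfl⟩)
    simp [hz0]
  obtain ⟨M, hM⟩ := Ideal.mem_radical_iff.1 hrad
  refine ⟨M + ∑ j, e j, fun N hN => ?_⟩
  have hej : ∀ j, e j ≤ N := fun j =>
    le_trans (le_trans (single_le_sum (fun l _ => Nat.zero_le (e l)) (mem_univ j))
      (Nat.le_add_left _ M)) hN
  have hpow : (X i : MvPolynomial (Fin n) ℂ) ^ N ∈ Ideal.span (Set.range G) :=
    Ideal.pow_mem_of_pow_mem _ hM ((Nat.le_add_right _ _).trans hN)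
  obtain ⟨A, hA⟩ := Ideal.mem_span_range_iff_exists_fun.1 hpow
  refine ⟨fun j => homogeneousComponent (N - e j) (A j), fun j => ?_, ?_⟩
  · have := (homogeneousComponent_isHomogeneous (N - e j) (A j)).totalDegree_le
    have := hej j
    simp only
    omega
  have hX : homogeneousComponent N ((X i : MvPolynomial (Fin n) ℂ) ^ N) = (X i) ^ N := by
    have := (isHomogeneous_X ℂ i).pow N
    rw [one_mul] at this
    rw [homogeneousComponent_of_mem ((mem_homogeneousSubmodule N _).2 this), if_pos rfl]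
  rw [← hX, ← hA, map_sum]
  refine sum_congr rfl fun j _ => ?_
  conv_lhs => rw [← sum_homogeneousComponent (A j), sum_mul, map_sum]
  have hterm : ∀ m, homogeneousComponent N (homogeneousComponent m (A j) * G j) =
      if m = N - e j then homogeneousComponent m (A j) * G j else 0 := fun m => by
    rw [homogeneousComponent_of_mem ((mem_homogeneousSubmodule (m + e j) _).2
      ((homogeneousComponent_isHomogeneous m (A j)).mul (hG j)))]
    by_cases hm : m = N - e j
    · rw [if_pos (by have := hej j; omega), if_pos hm]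
    · rw [if_neg (by omega), if_neg hm]
  simp only [hterm, sum_ite_eq', mem_range]
  split_ifs with h
  · rfl
  · rw [homogeneousComponent_eq_zero _ _ (by omega), zero_mul]

/-- **Boundedly many common zeros.** -/
theorem exists_card_zeros_le {J : Type*} [Fintype J] (G₀ : J → MvPolynomial (Fin n) ℂ)
    (e : J → ℕ) (hG₀ : ∀ j, (G₀ j).IsHomogeneous (e j))
    (h0 : ∀ z, (∀ j, eval z (G₀ j) = 0) → z = 0) :
    ∃ B : ℕ, ∀ G : J → MvPolynomial (Fin n) ℂ, (∀ j, (G j - G₀ j).totalDegree < e j) →
      ∀ S : Finset (Fin n → ℂ), (∀ z ∈ S, ∀ j, eval z (G j) = 0) → S.card ≤ B := by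
  classical
  choose M hM using exists_pow_combination G₀ e hG₀ h0
  obtain ⟨N, hN⟩ : ∃ N, N = ∑ i, M i + 1 := ⟨_, rfl⟩
  have hMN : ∀ i, M i ≤ N := fun i =>
    hN ▸ (single_le_sum (fun l _ => Nat.zero_le (M l)) (mem_univ i)).trans (Nat.le_succ _)
  choose A hAdeg hA using fun i => hM i N (hMN i)
  refine ⟨N ^ n, fun G hG S hS => ?_⟩
  let f : MvPolynomial (Fin n) ℂ →ₗ[ℂ] S → ℂ := LinearMap.pi fun z => (aeval z.1).toLinearMap
  have hf : ∀ (P : MvPolynomial (Fin n) ℂ) (z : S), f P z = eval z.1 P := fun P z => by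
    simp [f, aeval_eq_eval]
  let b : (Fin n → Fin N) → S → ℂ := fun a z => ∏ i, z.1 i ^ (a i : ℕ)
  have hspan : ∀ m : ℕ, ∀ P : MvPolynomial (Fin n) ℂ, P.totalDegree < m →
      f P ∈ Submodule.span ℂ (Set.range b) := by
    intro m
    induction m with
    | zero => intro P hP; exact absurd hP (Nat.not_lt_zero _)
    | succ m ih =>
      intro P hP
      rw [P.as_sum, map_sum]
      refine sum_mem fun s hs => ?_
      have hsdeg : (s.sum fun _ e => e) ≤ m := le_trans (le_totalDegree hs) (by omega)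
      rw [show monomial s (coeff s P) = coeff s P • monomial s (1 : ℂ) by
        rw [smul_monomial, smul_eq_mul, mul_one], map_smul]
      refine Submodule.smul_mem _ _ ?_
      by_cases hsmall : ∀ i, s i < N
      · refine Submodule.subset_span ⟨fun i => ⟨s i, hsmall i⟩, funext fun z => ?_⟩
        rw [hf, eval_monomial, one_mul, Finsupp.prod_fintype _ _ fun i => pow_zero _]
      push Not at hsmall
      obtain ⟨i, hi⟩ := hsmall
      obtain ⟨s', hs'⟩ : ∃ s', s' = s - Finsupp.single i N := ⟨_, rfl⟩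
      have hss : s = s' + Finsupp.single i N := by
        rw [hs', tsub_add_cancel_of_le (Finsupp.single_le_iff.2 hi)]
      have hval : f (monomial s (1 : ℂ)) =
          f (monomial s' 1 * ∑ j, A i j * (G₀ j - G j)) := funext fun z => by
        rw [hf, hf, hss, show monomial (s' + Finsupp.single i N) (1 : ℂ) =
          monomial s' 1 * X i ^ N by rw [X_pow_eq_monomial, monomial_mul, one_mul],
          hA i, map_mul, map_mul]
        congr 1
        simp only [map_sum, map_mul, map_sub, hS z.1 z.2, sub_zero]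
      rw [hval]
      refine ih _ (lt_of_le_of_lt (totalDegree_mul _ _) ?_)
      have h1 : (monomial s' (1 : ℂ)).totalDegree ≤ s'.sum fun _ e => e :=
        totalDegree_monomial_le _ _
      have h2 : (∑ j, A i j * (G₀ j - G j)).totalDegree < N := by
        refine lt_of_le_of_lt (totalDegree_finsetSum _ _)
          ((Finset.sup_lt_iff (by rw [hN]; exact Nat.succ_pos _)).2 fun j _ => ?_)
        refine lt_of_le_of_lt (totalDegree_mul _ _) ?_
        have := hAdeg i j
        have := hG j
        rw [← neg_sub, totalDegree_neg]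
        omega
      have h3 : (s'.sum fun _ e => e) + N = s.sum fun _ e => e := by
        rw [hss, Finsupp.sum_add_index' (fun _ => rfl) (fun _ _ _ => rfl),
          Finsupp.sum_single_index rfl]
      omega
  have htop : Submodule.span ℂ (Set.range b) = ⊤ := by
    refine eq_top_iff.2 fun g _ => ?_
    have hP : ∀ p : S, ∃ P : MvPolynomial (Fin n) ℂ,
        ∀ q : S, eval q.1 P = if q = p then 1 else 0 := by
      intro p
      have : ∀ q ∈ S.erase p.1, ∃ P : MvPolynomial (Fin n) ℂ, eval p.1 P = 1 ∧ eval q P = 0 := by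
        intro q hq
        obtain ⟨i, hi⟩ := Function.ne_iff.1 (ne_of_mem_erase hq)
        exact ⟨C (p.1 i - q i)⁻¹ * (X i - C (q i)), by
          simp [inv_mul_cancel₀ (sub_ne_zero.2 hi.symm)], by simp⟩
      choose! c hc using this
      refine ⟨∏ q ∈ S.erase p.1, c q, fun q => ?_⟩
      rw [map_prod]
      split_ifs with h
      · subst h
        exact prod_eq_one fun r hr => (hc r hr).1
      · have hq : q.1 ∈ S.erase p.1 := mem_erase.2 ⟨fun e => h (Subtype.ext e), q.2⟩
        exact prod_eq_zero hq (hc q.1 hq).2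
    choose P hP using hP
    have hg : g = f (∑ p, g p • P p) := funext fun q => by
      rw [hf, map_sum]
      simp [smul_eval, hP]
    rw [hg]
    exact hspan _ _ (Nat.lt_succ_self _)
  have h1 := finrank_range_le_card (R := ℂ) b
  rw [Set.finrank, htop, finrank_top, Module.finrank_fintype_fun_eq_card, Fintype.card_coe,
    Fintype.card_fun, Fintype.card_fin, Fintype.card_fin] at h1
  exact h1

theorem totalDegree_prod_add_C_sub {m : ℕ} (f : Fin m → Fin n) (y : Fin m → ℂ)
    (t : Finset (Fin m)) : (∏ i ∈ t, ((X (f i) : MvPolynomial (Fin n) ℂ) + C (y i)) -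
      ∏ i ∈ t, X (f i)).totalDegree ≤ t.card - 1 ∧
    (∏ i ∈ t, ((X (f i) : MvPolynomial (Fin n) ℂ) + C (y i))).totalDegree ≤ t.card := by
  induction t using Finset.induction with
  | empty => simp
  | insert a t ha ih =>
    rw [prod_insert ha, prod_insert ha, card_insert_of_notMem ha, Nat.add_sub_cancel,
      show ((X (f a) : MvPolynomial (Fin n) ℂ) + C (y a)) * ∏ i ∈ t, (X (f i) + C (y i)) -
        X (f a) * ∏ i ∈ t, X (f i) = X (f a) * (∏ i ∈ t, (X (f i) + C (y i)) - ∏ i ∈ t, X (f i)) +
          C (y a) * ∏ i ∈ t, (X (f i) + C (y i)) by ring]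
    refine ⟨(totalDegree_add _ _).trans (max_le ?_ ?_), (totalDegree_mul _ _).trans ?_⟩
    · rcases t.eq_empty_or_nonempty with rfl | ht
      · simp
      · refine (totalDegree_mul _ _).trans ?_
        have := ih.1
        have := ht.card_pos
        rw [totalDegree_X]
        omega
    · refine (totalDegree_mul _ _).trans ?_
      rw [totalDegree_C]
      have := ih.2
      omega
    · have h1 : ((X (f a) : MvPolynomial (Fin n) ℂ) + C (y a)).totalDegree ≤ 1 :=
        (totalDegree_add _ _).trans (by simp)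
      have := ih.2
      omega

/-- **The zeros of the multilinear forms.** -/
theorem exists_card_polar_zero_le (F : MvPolynomial (Fin n) ℤ) {m s : ℕ}
    (hF : F.IsHomogeneous (m + 2)) (hs : SingularDimLE F s) :
    ∃ C : ℝ, 0 < C ∧ ∀ R : ℕ, 1 ≤ R →
      (((Fintype.piFinset fun _ : Fin (m + 1) => cbox n R).filter
        fun h => ∀ j, polarJ F h j = 0).card : ℝ) ≤ C * (R : ℝ) ^ (n * m + s) := by
  classical
  obtain ⟨ℓ, hℓ⟩ := hs
  obtain ⟨G₀, hG₀⟩ : ∃ G₀ : Fin n ⊕ Fin s → MvPolynomial (Fin n) ℂ, G₀ = Sum.elim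
      (fun j => polarJ F (fun _ : Fin (m + 1) => fun l => X l) j)
      fun a => ∑ l, C (ℓ a l : ℂ) * X l := ⟨_, rfl⟩
  obtain ⟨e, he⟩ : ∃ e : Fin n ⊕ Fin s → ℕ, e = Sum.elim (fun _ => m + 1) fun _ => 1 := ⟨_, rfl⟩
  have hhom : ∀ j, (G₀ j).IsHomogeneous (e j) := by
    rw [hG₀, he]
    rintro (j | a)
    · refine IsHomogeneous.sum _ _ _ fun f _ => ?_
      rw [← map_intCast (C (R := ℂ) (σ := Fin n))]
      have := IsHomogeneous.prod univ (fun i => X (f i)) (fun _ : Fin (m + 1) => 1)
        fun i _ => isHomogeneous_X ℂ (f i)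
      simp only [sum_const, card_univ, Fintype.card_fin, smul_eq_mul, mul_one] at this
      have h' := (isHomogeneous_C (Fin n)
        (((polarCoeff F (Fin.snoc f j : Fin (m + 1 + 1) → Fin n)) : ℤ) : ℂ)).mul this
      rw [zero_add] at h'
      exact h'
    · refine IsHomogeneous.sum _ _ _ fun l _ => ?_
      simpa using (isHomogeneous_C (Fin n) (ℓ a l : ℂ)).mul (isHomogeneous_X ℂ l)
  have h0 : ∀ z, (∀ j, eval z (G₀ j) = 0) → z = 0 := by
    intro z hz
    refine hℓ z (fun j => ?_) fun a => ?_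
    · have h := hz (Sum.inl j)
      simp only [hG₀, Sum.elim_inl, ← polarJ_map, eval_X] at h
      rw [polarJ_diag F hF] at h
      exact (mul_eq_zero.1 h).resolve_left (Nat.cast_ne_zero.2 (Nat.factorial_ne_zero _))
    · simpa [hG₀] using hz (Sum.inr a)
  obtain ⟨B, hB⟩ := exists_card_zeros_le G₀ e hhom h0
  obtain ⟨A, hA⟩ : ∃ A : ℕ, A = ∑ a, ∑ l, (ℓ a l).natAbs := ⟨_, rfl⟩
  refine ⟨(B + 1) * 5 ^ (n * m) * (2 * A + 1) ^ s, by positivity, fun R hR => ?_⟩
  obtain ⟨Z, hZ⟩ : ∃ Z, Z = (Fintype.piFinset fun _ : Fin (m + 1) => cbox n R).filter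
      fun h => ∀ j, polarJ F h j = 0 := ⟨_, rfl⟩
  obtain ⟨key, hkey⟩ : ∃ key : (Fin (m + 1) → Fin n → ℤ) → (Fin m → Fin n → ℤ) × (Fin s → ℤ),
      key = fun h => (fun i => h i.succ - h 0, fun a => ∑ l, ℓ a l * h 0 l) := ⟨_, rfl⟩
  have himg : ∀ h ∈ Z, key h ∈ (Fintype.piFinset fun _ : Fin m => cbox n (2 * R)) ×ˢ
      Fintype.piFinset fun _ : Fin s => Icc (-((A * R : ℕ) : ℤ)) (A * R : ℕ) := by
    intro h hh
    have hh' := Fintype.mem_piFinset.1 (mem_filter.1 (hZ ▸ hh)).1
    rw [hkey, mem_product]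
    refine ⟨Fintype.mem_piFinset.2 fun i => mem_cbox.2 fun l => ?_,
      Fintype.mem_piFinset.2 fun a => mem_Icc.2 (abs_le.1 ?_)⟩
    · have := mem_cbox.1 (hh' i.succ) l
      have := mem_cbox.1 (hh' 0) l
      simp only [Pi.sub_apply]
      push_cast
      exact (abs_sub _ _).trans (by linarith)
    · change |∑ l, ℓ a l * h 0 l| ≤ ((A * R : ℕ) : ℤ)
      refine (abs_sum_le_sum_abs _ _).trans ?_
      rw [hA]
      push_cast
      rw [sum_mul]
      refine le_trans (sum_le_sum fun l _ => ?_)
        ((sum_mul _ _ _).ge.trans (single_le_sum (f := fun a => (∑ l, |ℓ a l|) * (R : ℤ))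
          (fun a _ => by positivity) (mem_univ a)))
      rw [abs_mul]
      exact mul_le_mul_of_nonneg_left (mem_cbox.1 (hh' 0) l) (abs_nonneg _)
  have hfib : ∀ c, (Z.filter fun h => key h = c).card ≤ B := by
    intro c
    obtain ⟨y, hy⟩ : ∃ y : Fin (m + 1) → Fin n → ℤ, y = Fin.cons 0 c.1 := ⟨_, rfl⟩
    obtain ⟨T, hT⟩ : ∃ T, T = Z.filter fun h => key h = c := ⟨_, rfl⟩
    rw [← hT]
    have hrec : ∀ h ∈ T, ∀ i l, h i l = h 0 l + y i l := by
      intro h hh i l
      obtain ⟨-, hk⟩ := mem_filter.1 (hT ▸ hh)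
      rw [← hk, hkey] at hy
      rw [hy]
      refine Fin.cases ?_ (fun i => ?_) i <;> simp
    have hinj : Set.InjOn (fun h : Fin (m + 1) → Fin n → ℤ => fun l => (h 0 l : ℂ)) T := by
      intro h hh h' hh' e
      funext i l
      rw [hrec h hh, hrec h' hh', Int.cast_inj.1 (congrFun e l)]
    rw [← card_image_of_injOn hinj]
    refine hB (Sum.elim (fun j => polarJ F (fun i l => X l + C (y i l : ℂ)) j)
      fun a => (∑ l, C (ℓ a l : ℂ) * X l) - C (c.2 a : ℂ)) (fun j => ?_) _ fun z hz => ?_
    · rcases j with j | a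
      · simp only [hG₀, he, Sum.elim_inl, polarJ, ← sum_sub_distrib, ← mul_sub]
        refine lt_of_le_of_lt (totalDegree_finsetSum _ _)
          ((Finset.sup_lt_iff (Nat.succ_pos m)).2 fun f _ => ?_)
        refine lt_of_le_of_lt (totalDegree_mul _ _) ?_
        rw [← map_intCast (C (R := ℂ) (σ := Fin n)), totalDegree_C]
        have := (totalDegree_prod_add_C_sub f (fun i => (y i (f i) : ℂ)) univ).1
        rw [card_univ, Fintype.card_fin] at this
        omega
      · simp only [hG₀, he, Sum.elim_inr, sub_sub_cancel_left, totalDegree_neg, totalDegree_C]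
        exact Nat.one_pos
    · obtain ⟨h, hh, rfl⟩ := mem_image.1 hz
      obtain ⟨hhZ, hk⟩ := mem_filter.1 (hT ▸ hh)
      rw [hZ, mem_filter] at hhZ
      rintro (j | a)
      · simp only [Sum.elim_inl, ← polarJ_map, map_add, eval_X, eval_C]
        rw [show (fun i l => (h 0 l : ℂ) + (y i l : ℂ)) = fun i l => Int.castRingHom ℂ (h i l) from
          funext fun i => funext fun l => by rw [hrec h hh i l]; simp, polarJ_map,
          hhZ.2 j, map_zero]
      · simp [← hk, hkey]
  have hsum := card_le_mul_card_image_of_maps_to himg B fun c _ => hfib c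
  rw [← hZ]
  refine (Nat.cast_le.2 hsum).trans ?_
  rw [card_product, Fintype.card_piFinset_const, Fintype.card_piFinset_const, cbox,
    Fintype.card_piFinset_const, Int.card_Icc, Int.card_Icc,
    show ((2 * R : ℕ) : ℤ) + 1 - -((2 * R : ℕ) : ℤ) = ((4 * R + 1 : ℕ) : ℤ) by push_cast; ring,
    show ((A * R : ℕ) : ℤ) + 1 - -((A * R : ℕ) : ℤ) = ((2 * (A * R) + 1 : ℕ) : ℤ) by
      push_cast; ring, Int.toNat_natCast, Int.toNat_natCast, ← pow_mul]
  have hR1 : (1 : ℝ) ≤ R := by exact_mod_cast hR
  push_cast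
  rw [pow_add, show ((B : ℝ) + 1) * 5 ^ (n * m) * (2 * A + 1) ^ s *
    ((R : ℝ) ^ (n * m) * (R : ℝ) ^ s) =
      (B + 1) * ((5 * R) ^ (n * m) * ((2 * A + 1) * R) ^ s) by rw [mul_pow, mul_pow]; ring]
  gcongr
  · linarith
  · linarith
  · nlinarith [(Nat.cast_nonneg A : (0 : ℝ) ≤ A)]

end FA.FormsManyVariables
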