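import Fermat.Agent.FormsManyVariables.RealPositive
import Fermat.Agent.FormsManyVariables.SeriesPositive
import Fermat.Agent.CubicForms.PadicZero
import Mathlib.Analysis.SpecialFunctions.Trigonometric.Basic

/-!
# The Hasse principle for forms in many variables

A nonsingular form of degree `d` in more than `(d - 1) 2 ^ d` variables with nonsingular zeros
over `ℝ` and every `ℚ_p` has `c P ^ (n - d)` zeros of size `P`, `c > 0`. For odd degree there is
always a real zero, and for cubic forms always a `p`-adic one.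
-/

set_option autoImplicit false

noncomputable section

namespace FA.FormsManyVariables

open Finset MvPolynomial Filter Topology FA.CubicForms

variable {n : ℕ} (F : MvPolynomial (Fin n) ℤ)

theorem exists_real_nonsingular_zero {m : ℕ} (hF : F.IsHomogeneous (m + 2))
    (hns : IsNonsingularForm F) {z : Fin n → ℝ} (hz : z ≠ 0) (hFz : aeval z F = 0) :
    ∃ w : Fin n → ℝ, (∀ i, |w i| ≤ 1 / 2) ∧ aeval w F = 0 ∧
      ∃ j, aeval w (pderiv j F) ≠ 0 := by
  obtain ⟨t, ht⟩ : ∃ t : ℝ, t = 1 / (2 * ∑ i, |z i|) := ⟨_, rfl⟩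
  obtain ⟨i₁, hi₁⟩ := Function.ne_iff.1 hz
  have hpos : 0 < ∑ i, |z i| :=
    lt_of_lt_of_le (abs_pos.2 hi₁) (single_le_sum (fun i _ => abs_nonneg (z i)) (mem_univ i₁))
  have ht0 : 0 < t := ht ▸ by positivity
  refine ⟨t • z, fun i => ?_, by rw [aeval_smul F hF, hFz, mul_zero],
    hns.exists_pderiv_ne F hF fun h => ?_⟩
  · rw [Pi.smul_apply, smul_eq_mul, abs_mul, abs_of_pos ht0, ht, div_mul_eq_mul_div, one_mul,
      div_le_iff₀ (by positivity)]
    linarith [single_le_sum (fun l _ => abs_nonneg (z l)) (mem_univ i)]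
  · exact hi₁ (by simpa [ht0.ne'] using congrFun h i₁)

/-- **Positivity.** -/
theorem exists_asymptotic_pos {m : ℕ} (hF : F.IsHomogeneous (m + 2)) (hns : IsNonsingularForm F)
    (hn : (m + 1) * 2 ^ (m + 2) < n) (hreal : ∃ z : Fin n → ℝ, z ≠ 0 ∧ aeval z F = 0)
    (hpadic : ∀ (p : ℕ) [Fact p.Prime], ∃ z : Fin n → ℚ_[p], z ≠ 0 ∧ aeval z F = 0) :
    ∃ c δ C : ℝ, 0 < c ∧ 0 < δ ∧ ∀ P : ℕ, 1 ≤ P →
      |(countZeros F P : ℝ) - c * (P : ℝ) ^ (n - (m + 2))| ≤
        C * (P : ℝ) ^ (((n - (m + 2) : ℕ) : ℝ) - δ) := by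
  have hs : SingularDimLE F 0 := (singularDimLE_zero_iff F).2 hns
  have hn' : 0 + (m + 1) * 2 ^ (m + 2) < n := by rwa [zero_add]
  obtain ⟨δ, C, hδ, -, h⟩ := exists_asymptotic F hF hs hn'
  refine ⟨singularSeries F * singularIntegral F, δ, C, mul_pos ?_ ?_, hδ, h⟩
  · refine singularSeries_pos F hF hs hn' fun p hp => ?_
    have : Fact p.Prime := ⟨hp⟩
    obtain ⟨z, hz, hFz⟩ := hpadic p
    exact hns.exists_zeroCount_ge F hF hz hFz
  · obtain ⟨z, hz, hFz⟩ := hreal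
    obtain ⟨w, hwb, hwF, j, hj⟩ := exists_real_nonsingular_zero F hF hns hz hFz
    exact singularIntegral_pos F hF hs hn' hwF hwb hj

/-- **The Hasse principle.** -/
theorem hasse_principle_forms {m : ℕ} (hF : F.IsHomogeneous (m + 2)) (hns : IsNonsingularForm F)
    (hn : (m + 1) * 2 ^ (m + 2) < n) :
    (∃ x : Fin n → ℤ, x ≠ 0 ∧ eval x F = 0) ↔
      (∃ z : Fin n → ℝ, z ≠ 0 ∧ aeval z F = 0) ∧
        ∀ (p : ℕ) [Fact p.Prime], ∃ z : Fin n → ℚ_[p], z ≠ 0 ∧ aeval z F = 0 := by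
  constructor
  · rintro ⟨x, hx, hFx⟩
    refine ⟨⟨fun i => (x i : ℝ), fun h => hx (funext fun i => ?_), ?_⟩,
      fun p _ => ⟨fun i => (x i : ℚ_[p]), fun h => hx (funext fun i => ?_), ?_⟩⟩
    · simpa using congrFun h i
    · rw [aeval_intCast, hFx, Int.cast_zero]
    · simpa using congrFun h i
    · rw [aeval_intCast, hFx, Int.cast_zero]
  rintro ⟨hreal, hpadic⟩
  obtain ⟨c, δ, C, hc, hδ, h⟩ := exists_asymptotic_pos F hF hns hn hreal hpadic
  have hdn : 1 ≤ n - (m + 2) := by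
    have : m + 2 ≤ (m + 1) * 2 ^ (m + 2) :=
      (show m + 2 ≤ 2 ^ (m + 2) from Nat.lt_two_pow_self.le).trans
        (Nat.le_mul_of_pos_left _ (Nat.succ_pos m))
    omega
  obtain ⟨E, hE⟩ : ∃ E, E = n - (m + 2) := ⟨_, rfl⟩
  rw [← hE] at h hdn
  have ht : Tendsto (fun P : ℕ => C * (P : ℝ) ^ (-δ)) atTop (𝓝 (C * 0)) :=
    ((tendsto_rpow_neg_atTop hδ).comp tendsto_natCast_atTop_atTop).const_mul C
  rw [mul_zero] at ht
  obtain ⟨P, hPε, hPbig⟩ := ((ht.eventually (eventually_le_nhds (half_pos hc))).and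
    (eventually_ge_atTop (⌈2 / c⌉₊ + 1))).exists
  have hP1 : (1 : ℝ) ≤ P := by exact_mod_cast (show 1 ≤ P by omega)
  have hP2 : 2 / c < (P : ℝ) := by
    have h1 : ((⌈2 / c⌉₊ + 1 : ℕ) : ℝ) ≤ P := Nat.cast_le.2 hPbig
    push_cast at h1
    linarith [Nat.le_ceil (2 / c)]
  have h0 := (abs_le.1 (h P (by omega))).1
  rw [sub_eq_add_neg (E : ℝ), Real.rpow_add (by linarith), Real.rpow_natCast] at h0
  have hcount : (1 : ℝ) < countZeros F P := by
    have h2 : C * ((P : ℝ) ^ E * (P : ℝ) ^ (-δ)) ≤ c / 2 * (P : ℝ) ^ E := by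
      rw [mul_left_comm, mul_comm (c / 2)]
      exact mul_le_mul_of_nonneg_left hPε (by positivity)
    have h3 : (P : ℝ) ≤ (P : ℝ) ^ E := le_self_pow₀ hP1 (by omega)
    rw [div_lt_iff₀ hc] at hP2
    nlinarith
  by_contra hcon
  push Not at hcon
  have : countZeros F P ≤ 1 := by
    refine card_le_one.2 fun x hx y hy => ?_
    have e : ∀ w ∈ (cbox n P).filter (fun x => eval x F = 0), w = 0 := fun w hw =>
      by_contra fun h' => hcon w h' (mem_filter.1 hw).2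
    rw [e x hx, e y hy]
  have : (countZeros F P : ℝ) ≤ 1 := by exact_mod_cast this
  linarith

/-- **A real zero in odd degree.** -/
theorem exists_real_zero_odd {d : ℕ} (hd : Odd d) (hF : F.IsHomogeneous d) (hn : 2 ≤ n) :
    ∃ z : Fin n → ℝ, z ≠ 0 ∧ aeval z F = 0 := by
  obtain ⟨i, hi⟩ : ∃ i : Fin n, i = ⟨0, by omega⟩ := ⟨_, rfl⟩
  obtain ⟨l, hl⟩ : ∃ l : Fin n, l = ⟨1, by omega⟩ := ⟨_, rfl⟩
  have hil : i ≠ l := by rw [hi, hl]; simp
  obtain ⟨γ, hγ⟩ : ∃ γ : ℝ → Fin n → ℝ,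
      γ = fun t => Real.cos t • Pi.single i 1 + Real.sin t • Pi.single l 1 := ⟨_, rfl⟩
  have hne : ∀ t, γ t ≠ 0 := fun t h => by
    have h1 := congrFun h i
    have h2 := congrFun h l
    simp [hγ, hil, hil.symm] at h1 h2
    simpa [h1, h2] using Real.cos_sq_add_sin_sq t
  have hcont : Continuous fun t => aeval (γ t) F :=
    (continuous_aeval_form F).comp (hγ ▸ by fun_prop)
  have hend : aeval (γ Real.pi) F = -aeval (γ 0) F := by
    have e : γ Real.pi = (-1 : ℝ) • γ 0 := by simp [hγ]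
    rw [e, aeval_smul F hF, hd.neg_one_pow, neg_one_mul]
  obtain ⟨t, -, ht⟩ := intermediate_value_uIcc (f := fun t => aeval (γ t) F)
    hcont.continuousOn (show (0 : ℝ) ∈ Set.uIcc (aeval (γ 0) F) (aeval (γ Real.pi) F) by
      rw [hend, Set.mem_uIcc]
      rcases le_total (aeval (γ 0) F) 0 with h | h
      · exact Or.inl ⟨h, by linarith⟩
      · exact Or.inr ⟨by linarith, h⟩)
  exact ⟨γ t, hne t, ht⟩

/-- **Nonsingular cubic forms in at least seventeen variables.** -/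
theorem exists_cubic_asymptotic (hF : F.IsHomogeneous 3) (hns : IsNonsingularForm F)
    (hn : 17 ≤ n) : ∃ c δ C : ℝ, 0 < c ∧ 0 < δ ∧ ∀ P : ℕ, 1 ≤ P →
      |(countZeros F P : ℝ) - c * (P : ℝ) ^ (n - 3)| ≤
        C * (P : ℝ) ^ (((n - 3 : ℕ) : ℝ) - δ) := by
  refine exists_asymptotic_pos (m := 1) F hF hns (by norm_num; omega)
    (exists_real_zero_odd F (by decide) hF (by omega)) fun p _ => ?_
  obtain ⟨z, hz, hFz⟩ := exists_padic_zero (p := p) (by rw [Fintype.card_fin]; omega)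
    (map (Int.castRingHom ℚ_[p]) F) (hF.map _)
  refine ⟨z, hz, ?_⟩
  rwa [eval_map, ← algebraMap_int_eq, ← aeval_def] at hFz

end FA.FormsManyVariables
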