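import Fermat.Agent.FormsManyVariables.Complete
import Fermat.Agent.FormsManyVariables.Pointwise
import Fermat.Agent.CubicForms.Minor

/-!
# The minor arcs

On the grid `h / P ^ (d + 1)` the major arcs are the `W P + 1` steps to either side of the
fractions with denominator at most `W`. Off them a point has an approximation `a / q + β` with
`q > W` or `P ^ d |β| > W`, and in each dyadic class the bound at one fraction saves a power of
`max (q, q P ^ d |β|)`.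
-/

set_option autoImplicit false

noncomputable section

namespace FA.FormsManyVariables

open Finset FA.ThreePrimes FA.CubicForms

variable {n : ℕ} (F : MvPolynomial (Fin n) ℤ)

/-- The major arcs on the grid of degree `d`. -/
def formArcs (d P W : ℕ) : Finset ℕ :=
  (arcCentres W ×ˢ Icc (-((W * P + 1 : ℕ) : ℤ)) (W * P + 1 : ℕ)).image
    fun zo => arcPoint (P ^ (d + 1)) zo.1 zo.2

theorem far_of_not_mem_arcs {d P W h : ℕ} (hP : 1 ≤ P) (hh : h < P ^ (d + 1))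
    (hmem : h ∉ formArcs d P W) {z : Σ _ : ℕ, ℕ} (hz : z ∈ arcCentres W) :
    (W : ℝ) / (P : ℝ) ^ d < nearDist ((h : ℝ) / ((P ^ (d + 1) : ℕ) : ℝ) - centre z) := by
  by_contra hcon
  rw [not_lt] at hcon
  obtain ⟨M, hM⟩ : ∃ M : ℝ, M = ((P ^ (d + 1) : ℕ) : ℝ) := ⟨_, rfl⟩
  have hP0 : (0 : ℝ) < P := Nat.cast_pos.2 hP
  have hM0 : 0 < M := by rw [hM]; push_cast; positivity
  obtain ⟨k, hk⟩ : ∃ k, k = round ((h : ℝ) / M - centre z) := ⟨_, rfl⟩
  rw [nearDist, ← hM, ← hk] at hcon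
  obtain ⟨o, ho⟩ : ∃ o : ℤ, o = (h : ℤ) - k * (P ^ (d + 1) : ℕ) - round (centre z * M) :=
    ⟨_, rfl⟩
  have hoR : |(o : ℝ)| < ((W * P + 1 : ℕ) : ℝ) + 1 := by
    have e : (o : ℝ) = ((h : ℝ) / M - centre z - k) * M +
        (centre z * M - round (centre z * M)) := by
      rw [ho]; push_cast; rw [hM]; push_cast; field_simp; ring
    rw [e]
    refine (abs_add_le _ _).trans_lt ?_
    rw [abs_mul, abs_of_pos hM0]
    have h1 := mul_le_mul_of_nonneg_right hcon hM0.le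
    have h2 : (W : ℝ) / (P : ℝ) ^ d * M = W * P := by
      rw [hM]; push_cast; rw [pow_succ]; field_simp
    have h3 := abs_sub_round (centre z * M)
    push_cast
    linarith
  refine hmem (mem_image.2 ⟨(z, o), mem_product.2 ⟨hz, mem_Icc.2 (abs_le.1 ?_)⟩, ?_⟩)
  · rw [← Int.lt_add_one_iff]
    exact_mod_cast hoR
  · rw [arcPoint, ← hM]
    simp only
    rw [show round (centre z * M) + o = (h : ℤ) + (-k) * (P ^ (d + 1) : ℕ) by rw [ho]; ring,
      Int.add_mul_emod_self_right, Int.emod_eq_of_lt (Int.natCast_nonneg h) (Int.ofNat_lt.2 hh),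
      Int.toNat_natCast]

/-- **The sum over the minor arcs.** -/
theorem exists_minor_sum {m s : ℕ} (hF : F.IsHomogeneous (m + 2)) (hs : SingularDimLE F s)
    (hn : s + (m + 1) * 2 ^ (m + 2) < n) : ∃ C : ℝ, 0 < C ∧ ∀ P W : ℕ, 1 ≤ P → 1 ≤ W →
      ∑ h ∈ range (P ^ (m + 3)) \ formArcs (m + 2) P W,
          ‖formSum F P ((h : ℝ) / ((P ^ (m + 3) : ℕ) : ℝ))‖ ≤
        C * (1 + Real.log P) ^ (n + 2) * (P : ℝ) ^ (n + 1) * (W : ℝ) ^ (-savingExp m) := by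
  classical
  obtain ⟨C₁, hC₁, hpoint⟩ := exists_pointwise F hF hs hn
  obtain ⟨D, hD⟩ : ∃ D : ℝ, D = (2 * ((m + 2 : ℕ) : ℝ) + 1) ^ 2 := ⟨_, rfl⟩
  refine ⟨D * (48 * C₁), by rw [hD]; positivity, fun P W hP hW => ?_⟩
  obtain ⟨e, he⟩ : ∃ e, e = savingExp m := ⟨_, rfl⟩
  have he0 : 0 < e := he ▸ savingExp_pos m
  have he1 : e ≤ 1 := he ▸ savingExp_le_one m
  rw [← he]
  obtain ⟨d, hd⟩ : ∃ d, d = m + 2 := ⟨_, rfl⟩
  rw [show m + 3 = d + 1 by omega, ← hd]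
  rw [← hd] at hpoint hD
  have hP0 : (1 : ℝ) ≤ P := by exact_mod_cast hP
  have hW0 : (1 : ℝ) ≤ W := by exact_mod_cast hW
  have hPd : (0 : ℝ) < (P : ℝ) ^ d := by positivity
  obtain ⟨L, hL⟩ : ∃ L, L = 1 + Real.log P := ⟨_, rfl⟩
  rw [← hL]
  have hL1 : 1 ≤ L := by rw [hL]; linarith [Real.log_nonneg hP0]
  obtain ⟨N, hN⟩ : ∃ N, N = (P ^ d).sqrt := ⟨_, rfl⟩
  have hN0 : 0 < N := hN ▸ Nat.sqrt_pos.2 (by positivity)
  have hN2 : (N : ℝ) ^ 2 ≤ (P : ℝ) ^ d := by exact_mod_cast (hN ▸ Nat.sqrt_le' (P ^ d))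
  have hN3 : (P : ℝ) ^ d ≤ ((N : ℝ) + 1) ^ 2 := by
    exact_mod_cast (hN ▸ (Nat.lt_succ_sqrt' (P ^ d)).le : P ^ d ≤ (N + 1) ^ 2)
  choose q a β z hq hqN ha hco hrep hβ using fun h : ℕ =>
    exists_approx ((h : ℝ) / ((P ^ (d + 1) : ℕ) : ℝ)) hN0
  obtain ⟨S, hS⟩ : ∃ S, S = range (P ^ (d + 1)) \ formArcs d P W := ⟨_, rfl⟩
  rw [← hS]
  obtain ⟨f, hf⟩ : ∃ f : ℕ → ℝ, f = fun h => ‖formSum F P ((a h : ℝ) / q h + β h)‖ := ⟨_, rfl⟩
  have hfS : ∀ h : ℕ, ‖formSum F P ((h : ℝ) / ((P ^ (d + 1) : ℕ) : ℝ))‖ = f h := fun h => by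
    rw [hf, formSum_congr F P (hrep h)]
  simp only [hfS]
  obtain ⟨i, hi⟩ : ∃ i : ℕ → ℕ, i = fun h => Nat.log 2 (q h) := ⟨_, rfl⟩
  obtain ⟨j, hj⟩ : ∃ j : ℕ → ℕ, j = fun h => Nat.log 2 ⌊(P : ℝ) ^ d * |β h|⌋₊ := ⟨_, rfl⟩
  have hQ : ∀ h, ((2 : ℝ) ^ i h ≤ q h) ∧ (q h : ℝ) < 2 * (2 : ℝ) ^ i h := fun h => by
    rw [hi]
    have h1 := Nat.pow_log_le_self 2 (show q h ≠ 0 by have := hq h; omega)
    have h2 := Nat.lt_pow_succ_log_self one_lt_two (q h)
    rw [pow_succ'] at h2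
    exact ⟨by exact_mod_cast h1, by exact_mod_cast h2⟩
  have hB : ∀ h, ((2 : ℝ) ^ j h ≤ max 1 ((P : ℝ) ^ d * |β h|)) ∧
      (P : ℝ) ^ d * |β h| ≤ 2 * (2 : ℝ) ^ j h := fun h => by
    obtain ⟨w, hw⟩ : ∃ w, w = ⌊(P : ℝ) ^ d * |β h|⌋₊ := ⟨_, rfl⟩
    have hlt : (P : ℝ) ^ d * |β h| < (w : ℝ) + 1 := hw ▸ Nat.lt_floor_add_one _
    simp only [hj, ← hw]
    rcases Nat.eq_zero_or_pos w with h0 | h0
    · rw [h0] at hlt ⊢
      simp only [Nat.log_zero_right, pow_zero, Nat.cast_zero] at hlt ⊢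
      exact ⟨le_max_left _ _, by linarith⟩
    · have h1 : ((2 : ℝ) ^ Nat.log 2 w) ≤ w := by exact_mod_cast Nat.pow_log_le_self 2 h0.ne'
      have h2 : (w : ℝ) + 1 ≤ 2 * (2 : ℝ) ^ Nat.log 2 w := by
        rw [← pow_succ']
        exact_mod_cast Nat.lt_pow_succ_log_self one_lt_two w
      refine ⟨h1.trans (le_trans (hw ▸ Nat.floor_le (by positivity)) (le_max_right _ _)), ?_⟩
      linarith
  obtain ⟨Λ, hΛ⟩ : ∃ Λ, Λ = Nat.log 2 (P ^ d) + 1 := ⟨_, rfl⟩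
  have hΛL : (Λ : ℝ) ≤ (2 * (d : ℝ) + 1) * L := by
    rw [hΛ]
    have := natLog_le (show 1 ≤ P ^ d from Nat.one_le_pow _ _ hP)
    push_cast at this ⊢
    rw [Real.log_pow] at this
    rw [hL]
    nlinarith [mul_nonneg (Nat.cast_nonneg d : (0 : ℝ) ≤ d) (Real.log_nonneg hP0),
      Real.log_nonneg hP0]
  have hmaps : ∀ h, (i h, j h) ∈ range Λ ×ˢ range Λ := fun h => by
    refine mem_product.2 ⟨mem_range.2 ?_, mem_range.2 ?_⟩
    · simp only [hi, hΛ]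
      exact Nat.lt_succ_of_le (Nat.log_mono_right
        ((hqN h).trans (hN ▸ Nat.sqrt_le_self _)))
    · simp only [hj, hΛ]
      refine Nat.lt_succ_of_le (Nat.log_mono_right (Nat.floor_le_of_le ?_))
      have h1 : |β h| ≤ 1 := (hβ h).trans (by
        rw [div_le_one (by have := hq h; positivity)]
        exact one_le_mul_of_one_le_of_one_le (by linarith [(Nat.cast_nonneg N : (0 : ℝ) ≤ N)])
          (by exact_mod_cast hq h))
      push_cast
      exact mul_le_of_le_one_right hPd.le h1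
  obtain ⟨X, hX⟩ : ∃ X, X = L ^ n * (P : ℝ) ^ (n + 1) * (W : ℝ) ^ (-e) := ⟨_, rfl⟩
  have hX0 : 0 ≤ X := hX ▸ by positivity
  have hclass : ∀ t : ℕ × ℕ,
      ∑ h ∈ S.filter (fun h => (i h, j h) = t), f h ≤ 48 * C₁ * X := by
    intro t
    obtain ⟨T, hT⟩ : ∃ T, T = S.filter fun h => (i h, j h) = t := ⟨_, rfl⟩
    rw [← hT]
    rcases T.eq_empty_or_nonempty with h0 | ⟨h₀, hh₀⟩
    · rw [h0, sum_empty]; positivity
    obtain ⟨Q, hQdef⟩ : ∃ Q : ℝ, Q = (2 : ℝ) ^ t.1 := ⟨_, rfl⟩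
    obtain ⟨B, hBdef⟩ : ∃ B : ℝ, B = (2 : ℝ) ^ t.2 := ⟨_, rfl⟩
    have hQ1 : 1 ≤ Q := hQdef ▸ one_le_pow₀ one_le_two
    have hB1 : 1 ≤ B := hBdef ▸ one_le_pow₀ one_le_two
    have hQB : (1 : ℝ) ≤ Q * B := one_le_mul_of_one_le_of_one_le hQ1 hB1
    have hmem : ∀ h ∈ T, h ∈ S ∧ Q ≤ q h ∧ (q h : ℝ) < 2 * Q ∧
        B ≤ max 1 ((P : ℝ) ^ d * |β h|) ∧ (P : ℝ) ^ d * |β h| ≤ 2 * B := by
      intro h hh
      obtain ⟨h1, h2⟩ := mem_filter.1 (hT ▸ hh)
      rw [hQdef, hBdef, ← h2]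
      exact ⟨h1, (hQ h).1, (hQ h).2, (hB h).1, (hB h).2⟩
    have hterm : ∀ h ∈ T, f h ≤ C₁ * L ^ n * (P : ℝ) ^ n / (Q * B) ^ (2 + e) := by
      intro h hh
      obtain ⟨-, h1, -, h3, -⟩ := hmem h hh
      obtain ⟨Φ, hΦ⟩ : ∃ Φ : ℝ, Φ = max (q h : ℝ) ((q h : ℝ) * (P : ℝ) ^ d * |β h|) := ⟨_, rfl⟩
      have hq0 : (0 : ℝ) < q h := Nat.cast_pos.2 (hq h)
      have hΦ2 : Φ ^ 2 ≤ (P : ℝ) ^ d := by
        have h4 : (q h : ℝ) * (P : ℝ) ^ d * |β h| ≤ (P : ℝ) ^ d / ((N : ℝ) + 1) := by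
          refine (mul_le_mul_of_nonneg_left (hβ h) (by positivity)).trans (le_of_eq ?_)
          field_simp
        rw [hΦ]
        rcases max_cases (q h : ℝ) ((q h : ℝ) * (P : ℝ) ^ d * |β h|) with ⟨h2, -⟩ | ⟨h2, -⟩
        · rw [h2]
          exact (pow_le_pow_left₀ hq0.le (Nat.cast_le.2 (hqN h)) 2).trans hN2
        · rw [h2]
          refine (pow_le_pow_left₀ (by positivity) h4 2).trans ?_
          rw [div_pow, div_le_iff₀ (by positivity), sq ((P : ℝ) ^ d)]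
          exact mul_le_mul_of_nonneg_left hN3 hPd.le
      have hp := hpoint P (q h) (a h : ℤ) (β h) Φ hP (hq h)
        (Int.isCoprime_iff_nat_coprime.2 (by simpa using (hco h).symm)) hΦ hΦ2
      rw [Int.cast_natCast, ← hL, ← he] at hp
      rw [hf, le_div_iff₀ (by positivity)]
      refine le_trans ?_ hp
      refine mul_le_mul_of_nonneg_left (Real.rpow_le_rpow (by positivity) ?_ (by linarith))
        (norm_nonneg _)
      rw [hΦ, mul_assoc (q h : ℝ)]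
      calc Q * B ≤ (q h : ℝ) * max 1 ((P : ℝ) ^ d * |β h|) :=
            mul_le_mul h1 h3 (by linarith) hq0.le
        _ = _ := by rw [mul_max_of_nonneg _ _ hq0.le, mul_one]
    have hcard : (T.card : ℝ) ≤ 24 * Q ^ 2 * (B * P) := by
      have hmaps' : ∀ h ∈ T, (q h, a h) ∈ dyadicFractions (2 ^ t.1) := fun h hh => by
        obtain ⟨-, h1, h2, -, -⟩ := hmem h hh
        rw [hQdef] at h1 h2
        have h1' : 2 ^ t.1 ≤ q h := by exact_mod_cast h1
        have h2' : q h < 2 * 2 ^ t.1 := by exact_mod_cast h2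
        simp only [dyadicFractions, mem_filter, mem_product, mem_Ico, mem_range]
        exact ⟨⟨⟨h1', h2'⟩, (ha h).trans h2'⟩, ha h, hco h⟩
      rw [card_eq_sum_card_fiberwise hmaps', Nat.cast_sum]
      refine (sum_le_card_nsmul _ _ (6 * (B * P)) fun u _ => ?_).trans ?_
      · refine (card_near_le (pow_pos hP (d + 1)) _ (fun h hh => ?_) ((u.2 : ℝ) / u.1)
          (2 * B / (P : ℝ) ^ d) (by positivity) fun h hh => ?_).trans ?_
        · have := (hmem h (mem_filter.1 hh).1).1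
          rw [hS, mem_sdiff, mem_range] at this
          exact this.1
        · obtain ⟨hh1, rfl⟩ := mem_filter.1 hh
          refine ⟨z h, ?_⟩
          rw [hrep h, add_sub_right_comm, add_sub_cancel_right, add_sub_cancel_left,
            le_div_iff₀ hPd, mul_comm]
          exact (hmem h hh1).2.2.2.2
        · push_cast
          rw [pow_succ]
          field_simp
          nlinarith [one_le_mul_of_one_le_of_one_le hB1 hP0]
      · rw [nsmul_eq_mul, show 24 * Q ^ 2 * (B * P) = 4 * Q ^ 2 * (6 * (B * P)) by ring]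
        refine mul_le_mul_of_nonneg_right ?_ (by positivity)
        rw [hQdef]
        exact_mod_cast card_dyadicFractions_le (2 ^ t.1)
    have hsave : (Q * B) ^ (-e) ≤ 2 * (W : ℝ) ^ (-e) := by
      obtain ⟨h1, h2, h3, -, h5⟩ := hmem h₀ hh₀
      have hlow : (W : ℝ) / 2 ≤ Q * B := by
        rcases le_or_gt (q h₀) W with hle | hlt
        · have hmem₀ := h1
          rw [hS, mem_sdiff, mem_range] at hmem₀
          have h6 := far_of_not_mem_arcs hP hmem₀.1 hmem₀.2 (z := ⟨q h₀, a h₀⟩)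
            (mem_arcCentres.2 ⟨⟨hq h₀, hle⟩, ha h₀, hco h₀⟩)
          rw [hrep h₀, centre, add_sub_right_comm, nearDist_add_intCast, add_sub_cancel_left] at h6
          have h7 := h6.trans_le (by simpa using nearDist_le_abs_sub (β h₀) 0)
          rw [div_lt_iff₀ hPd] at h7
          have := le_mul_of_one_le_left (show (0 : ℝ) ≤ B by linarith) hQ1
          linarith
        · have h7 : (W : ℝ) ≤ q h₀ := Nat.cast_le.2 hlt.le
          have := le_mul_of_one_le_right (show (0 : ℝ) ≤ Q by linarith) hB1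
          linarith
      refine (Real.rpow_le_rpow_of_nonpos (by positivity) hlow (by linarith)).trans ?_
      rw [Real.div_rpow (by linarith) two_pos.le, Real.rpow_neg two_pos.le, div_inv_eq_mul,
        mul_comm]
      refine mul_le_mul_of_nonneg_right ?_ (by positivity)
      exact (Real.rpow_le_rpow_of_exponent_le one_le_two he1).trans (Real.rpow_one 2).le
    refine (sum_le_card_nsmul _ _ _ hterm).trans ?_
    rw [nsmul_eq_mul, Real.rpow_add (by positivity), Real.rpow_two]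
    have hQ2 : (Q * B) ^ 2 = Q ^ 2 * B * B := by ring
    calc (T.card : ℝ) * (C₁ * L ^ n * (P : ℝ) ^ n / ((Q * B) ^ 2 * (Q * B) ^ e))
        ≤ 24 * Q ^ 2 * (B * P) * (C₁ * L ^ n * (P : ℝ) ^ n / ((Q * B) ^ 2 * (Q * B) ^ e)) := by
          gcongr
      _ = 24 * C₁ * (L ^ n * (P : ℝ) ^ (n + 1)) * ((Q * B) ^ e)⁻¹ * (1 / B) := by
          rw [hQ2]; field_simp; ring
      _ ≤ 24 * C₁ * (L ^ n * (P : ℝ) ^ (n + 1)) * ((Q * B) ^ e)⁻¹ * 1 :=
          mul_le_mul_of_nonneg_left ((div_le_one (by linarith)).2 hB1) (by positivity)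
      _ ≤ 24 * C₁ * (L ^ n * (P : ℝ) ^ (n + 1)) * (2 * (W : ℝ) ^ (-e)) := by
          rw [mul_one, ← Real.rpow_neg (by positivity)]
          exact mul_le_mul_of_nonneg_left hsave (by positivity)
      _ = 48 * C₁ * X := by rw [hX]; ring
  rw [← sum_fiberwise_of_maps_to (g := fun h => (i h, j h)) (t := range Λ ×ˢ range Λ)
    fun h _ => hmaps h]
  refine (sum_le_card_nsmul _ _ _ fun t _ => hclass t).trans ?_
  rw [nsmul_eq_mul, card_product, card_range]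
  push_cast
  calc (Λ : ℝ) * Λ * (48 * C₁ * X) ≤ ((2 * (d : ℝ) + 1) * L) * ((2 * (d : ℝ) + 1) * L) *
        (48 * C₁ * X) := by gcongr
    _ = _ := by rw [hD, hX]; ring

end FA.FormsManyVariables
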