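import Fermat.Agent.FormsManyVariables.Asymptotic
import Fermat.Agent.FormsManyVariables.Local
import Fermat.Agent.CubicForms.Major
import Mathlib.Topology.Order.IntermediateValue

/-!
# The singular integral is positive

Near a nonsingular real zero a form takes `≫ P ^ n / W` values of size `P ^ d / W` on the box, so
by Fejér's kernel the sum along an arc is `≫ P ^ (n + 1)`; as this is asymptotic to
`J P ^ (n + 1)`, the singular integral is positive.
-/

set_option autoImplicit false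

noncomputable section

namespace FA.FormsManyVariables

open Finset FA.ThreePrimes FA.WaringAsymptotic FA.CubicForms MvPolynomial Filter Topology

variable {n : ℕ} (F : MvPolynomial (Fin n) ℤ)

theorem natFloor_sub_ge {a b : ℝ} {k : ℕ} (h : (k : ℝ) + 1 ≤ b - a) :
    k ≤ (Icc ⌈a⌉ ⌊b⌋).card := by
  rw [Int.card_Icc]
  have h1 := Int.ceil_lt_add_one a
  have h2 := Int.lt_floor_add_one b
  have : ((k : ℤ) : ℝ) < ((⌊b⌋ + 1 - ⌈a⌉ + 1 : ℤ) : ℝ) := by push_cast; linarith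
  rw [Int.cast_lt] at this
  omega

/-- **Many small values near a nonsingular zero.** -/
theorem exists_small_values_form {m : ℕ} (hF : F.IsHomogeneous (m + 2)) {z : Fin n → ℝ}
    (hz : aeval z F = 0) (hzb : ∀ i, |z i| ≤ 1 / 2) {j : Fin n}
    (hj : aeval z (pderiv j F) ≠ 0) : ∃ η : ℝ, 0 < η ∧ ∃ K : ℕ, ∀ P W : ℕ, 1 ≤ W → K * W ≤ P →
      η * (P : ℝ) ^ n / W ≤ ((cbox n P).filter fun x =>
        |((eval x F : ℤ) : ℝ)| ≤ (P : ℝ) ^ (m + 2) / (24 * W)).card := by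
  classical
  -- a sign change
  obtain ⟨g, hg⟩ : ∃ g : ℝ → ℝ, g = fun t => aeval (Function.update z j t) F := ⟨_, rfl⟩
  have hg0 : g (z j) = 0 := by rw [hg]; simpa using hz
  have hgd : HasDerivAt g (aeval z (pderiv j F)) (z j) := by
    obtain ⟨f, hf⟩ : ∃ f : Polynomial ℝ,
        f = aeval (Function.update (fun i => Polynomial.C (z i)) j Polynomial.X) F := ⟨_, rfl⟩
    have e : g = fun t => f.eval t := funext fun t => by rw [hg, hf, eval_aeval_line]
    rw [e]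
    have h := f.hasDerivAt (z j)
    rw [hf, derivative_aeval_line, eval_aeval_line, Function.update_eq_self] at h
    rw [hf]
    exact h
  obtain ⟨ρ, hρ, hρ4, hsign⟩ : ∃ ρ : ℝ, 0 < ρ ∧ ρ ≤ 1 / 4 ∧ g (z j - ρ) * g (z j + ρ) < 0 := by
    have hlim := hasDerivAt_iff_tendsto_slope.1 hgd
    obtain ⟨c, hc⟩ : ∃ c, c = aeval z (pderiv j F) := ⟨_, rfl⟩
    rw [← hc] at hlim hj
    have hpos : ∀ᶠ t in 𝓝[≠] (z j), 0 < slope g (z j) t * c :=
      (hlim.mul_const c).eventually (eventually_gt_nhds (mul_self_pos.2 hj))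
    rw [eventually_nhdsWithin_iff, Metric.eventually_nhds_iff] at hpos
    obtain ⟨r, hr, hr'⟩ := hpos
    refine ⟨min (r / 2) (1 / 4), by positivity, min_le_right _ _, ?_⟩
    obtain ⟨ρ, hρdef⟩ : ∃ ρ, ρ = min (r / 2) (1 / 4 : ℝ) := ⟨_, rfl⟩
    rw [← hρdef]
    have hρ0 : 0 < ρ := hρdef ▸ by positivity
    have hρr : ρ < r := by have := min_le_left (r / 2) (1 / 4 : ℝ); linarith
    have h1 := hr' (y := z j + ρ) (by simpa [Real.dist_eq, abs_of_pos hρ0]) (by simp [hρ0.ne'])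
    have h2 := hr' (y := z j - ρ) (by simpa [Real.dist_eq, abs_of_pos hρ0]) (by simp [hρ0.ne'])
    rw [slope_def_field, hg0, sub_zero, add_sub_cancel_left, div_mul_eq_mul_div,
      div_pos_iff_of_pos_right hρ0] at h1
    rw [slope_def_field, hg0, sub_zero, sub_sub_cancel_left, div_neg, neg_mul, neg_pos,
      div_mul_eq_mul_div, div_lt_iff₀ hρ0, zero_mul] at h2
    have h3 : g (z j + ρ) * c * (g (z j - ρ) * c) < 0 := mul_neg_of_pos_of_neg h1 h2
    have h4 : 0 < c * c := mul_self_pos.2 hj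
    by_contra hcon
    rw [not_lt] at hcon
    nlinarith [mul_nonneg hcon h4.le]
  -- it persists nearby
  obtain ⟨δ, hδ, hδ4, hnear⟩ : ∃ δ : ℝ, 0 < δ ∧ δ ≤ 1 / 4 ∧ ∀ w : Fin n → ℝ,
      (∀ i, |w i - z i| ≤ δ) → ∃ τ, |τ - z j| ≤ ρ ∧ aeval (Function.update w j τ) F = 0 := by
    have hcont : Continuous fun w : Fin n → ℝ =>
        aeval (Function.update w j (z j - ρ)) F * aeval (Function.update w j (z j + ρ)) F :=
      ((continuous_aeval_form F).comp (continuous_id.update j continuous_const)).mul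
        ((continuous_aeval_form F).comp (continuous_id.update j continuous_const))
    have hev := hcont.continuousAt.eventually_lt (continuousAt_const (y := (0 : ℝ)))
      (show _ < (0 : ℝ) by simpa [hg] using hsign)
    obtain ⟨r, hr, hr'⟩ := Metric.eventually_nhds_iff.1 hev
    refine ⟨min (r / 2) (1 / 4), by positivity, min_le_right _ _, fun w hw => ?_⟩
    have h := hr' (y := w) (by
      refine lt_of_le_of_lt ((dist_pi_le_iff (by positivity : (0 : ℝ) ≤ r / 2)).2 fun i => ?_)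
        (by linarith)
      rw [Real.dist_eq]
      exact (hw i).trans (min_le_left _ _))
    obtain ⟨φ, hφ⟩ : ∃ φ : ℝ → ℝ, φ = fun t => aeval (Function.update w j t) F := ⟨_, rfl⟩
    have hφc : Continuous φ := hφ ▸
      (continuous_aeval_form F).comp (continuous_const.update j continuous_id)
    obtain ⟨τ, hτ, hτ0⟩ : ∃ τ ∈ Set.Icc (z j - ρ) (z j + ρ), φ τ = 0 := by
      have h1 : φ (z j - ρ) * φ (z j + ρ) < 0 := by rw [hφ]; exact h
      rcases lt_or_ge (φ (z j - ρ)) 0 with hl | hl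
      · exact intermediate_value_Icc (by linarith) hφc.continuousOn
          ⟨hl.le, by nlinarith⟩
      · exact intermediate_value_Icc' (by linarith) hφc.continuousOn
          ⟨by nlinarith, hl⟩
    refine ⟨τ, abs_le.2 ⟨by linarith [hτ.1], by linarith [hτ.2]⟩, ?_⟩
    simpa [hφ] using hτ0
  obtain ⟨D, hD⟩ : ∃ D : ℝ, D = 24 * (((m + 2 : ℕ) : ℝ) * formSize F) + 4 := ⟨_, rfl⟩
  obtain ⟨lam, hlam⟩ : ∃ lam : ℝ, lam = 1 / D := ⟨_, rfl⟩
  have hD4 : 4 ≤ D := hD ▸ le_add_of_nonneg_left (by positivity)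
  have hlam0 : 0 < lam := hlam ▸ by positivity
  have hlam4 : lam ≤ 1 / 4 := hlam ▸ one_div_le_one_div_of_le four_pos hD4
  refine ⟨(δ / 2) ^ (n - 1) * (lam / 2), by positivity, ⌈2 / δ + 2 / lam⌉₊ + 1,
    fun P W hW hKP => ?_⟩
  have hW0 : (1 : ℝ) ≤ W := by exact_mod_cast hW
  have hK : 2 / δ + 2 / lam + 1 ≤ (P : ℝ) / W := by
    rw [le_div_iff₀ (by linarith)]
    have h1 : ((⌈2 / δ + 2 / lam⌉₊ + 1 : ℕ) : ℝ) * W ≤ P := by exact_mod_cast hKP
    push_cast at h1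
    refine le_trans (mul_le_mul_of_nonneg_right ?_ (by linarith)) h1
    linarith [Nat.le_ceil (2 / δ + 2 / lam)]
  have hPW : (P : ℝ) / W ≤ P := div_le_self (Nat.cast_nonneg P) hW0
  have hδ2 : 2 / δ ≤ (P : ℝ) := by linarith [div_pos two_pos hlam0]
  have hlam2 : 2 / lam ≤ (P : ℝ) / W := by linarith [div_pos two_pos hδ]
  have hP0 : (0 : ℝ) < P := lt_of_lt_of_le (by positivity) hδ2
  rw [div_le_iff₀ hδ] at hδ2
  rw [div_le_iff₀ hlam0] at hlam2
  obtain ⟨Y, hY⟩ : ∃ Y : Finset (Fin n → ℤ), Y = Fintype.piFinset fun i =>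
      if i = j then {0} else Icc ⌈(z i - δ) * P⌉ ⌊(z i + δ) * P⌋ := ⟨_, rfl⟩
  obtain ⟨w, hw⟩ : ∃ w : (Fin n → ℤ) → Fin n → ℝ,
      w = fun y => Function.update (fun i => (y i : ℝ) / P) j (z j) := ⟨_, rfl⟩
  have hwz : ∀ y ∈ Y, ∀ i, |w y i - z i| ≤ δ := by
    intro y hy i
    rw [hY, Fintype.mem_piFinset] at hy
    by_cases hi : i = j
    · subst hi
      simp [hw, hδ.le]
    have h := hy i
    rw [if_neg hi, Finset.mem_Icc, Int.ceil_le, Int.le_floor] at h
    simp only [hw, Function.update_of_ne hi]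
    rw [abs_le, le_sub_iff_add_le, sub_le_iff_le_add', le_div_iff₀ hP0, div_le_iff₀ hP0]
    constructor <;> linarith [h.1, h.2]
  choose! τ hτb hτ using fun y (hy : y ∈ Y) => hnear (w y) (hwz y hy)
  obtain ⟨S, hS⟩ : ∃ S : (Fin n → ℤ) → Finset ℤ, S = fun y =>
      Icc ⌈(τ y - lam / W) * P⌉ ⌊(τ y + lam / W) * P⌋ := ⟨_, rfl⟩
  have hScard : ∀ y, (lam / 2) * ((P : ℝ) / W) ≤ ((S y).card : ℝ) := by
    intro y
    obtain ⟨k, hk⟩ : ∃ k, k = ⌊lam * ((P : ℝ) / W)⌋₊ := ⟨_, rfl⟩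
    have h1 : (k : ℝ) ≤ lam * ((P : ℝ) / W) := hk ▸ Nat.floor_le (by positivity)
    have h2 := Nat.lt_floor_add_one (lam * ((P : ℝ) / W))
    rw [← hk] at h2
    refine le_trans (show _ ≤ (k : ℝ) by linarith) (Nat.cast_le.2 ?_)
    rw [hS]
    refine natFloor_sub_ge (k := k) ?_
    rw [show (τ y + lam / W) * P - (τ y - lam / W) * P = 2 * (lam * ((P : ℝ) / W)) by ring]
    linarith
  have hYcard : (δ / 2 * (P : ℝ)) ^ (n - 1) ≤ (Y.card : ℝ) := by
    rw [hY, Fintype.card_piFinset, ← mul_prod_erase univ _ (mem_univ j), if_pos rfl, card_singleton,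
      one_mul, Nat.cast_prod]
    refine le_trans (le_of_eq ?_) (prod_le_prod (f := fun _ : Fin n => δ / 2 * (P : ℝ))
      (fun _ _ => by positivity) fun i hi => ?_)
    · rw [prod_const, card_erase_of_mem (mem_univ j), card_univ, Fintype.card_fin]
    · rw [if_neg (ne_of_mem_erase hi)]
      obtain ⟨k, hk⟩ : ∃ k, k = ⌊δ * (P : ℝ)⌋₊ := ⟨_, rfl⟩
      have h1 : (k : ℝ) ≤ δ * P := hk ▸ Nat.floor_le (by positivity)
      have h2 := Nat.lt_floor_add_one (δ * (P : ℝ))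
      rw [← hk] at h2
      refine le_trans (show _ ≤ (k : ℝ) by linarith) (Nat.cast_le.2 (natFloor_sub_ge (k := k) ?_))
      rw [show (z i + δ) * P - (z i - δ) * P = 2 * (δ * P) by ring]
      linarith
  obtain ⟨V, hV⟩ : ∃ V : Finset (Fin n → ℤ),
      V = (cbox n P).filter fun x => |((eval x F : ℤ) : ℝ)| ≤ (P : ℝ) ^ (m + 2) / (24 * W) :=
    ⟨_, rfl⟩
  rw [← hV]
  have hmaps : ∀ yt ∈ Y.sigma S, Function.update yt.1 j yt.2 ∈ V := by
    rintro ⟨y, t⟩ hyt
    obtain ⟨hy, ht⟩ := mem_sigma.1 hyt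
    simp only [hS, Finset.mem_Icc, Int.ceil_le, Int.le_floor] at ht
    have hlW : lam / W ≤ 1 / 4 := (div_le_self hlam0.le hW0).trans hlam4
    have htτ : |(t : ℝ) / P - τ y| ≤ lam / W := by
      rw [abs_le, le_sub_iff_add_le, sub_le_iff_le_add', le_div_iff₀ hP0, div_le_iff₀ hP0]
      constructor <;> linarith [ht.1, ht.2]
    obtain ⟨u, hu⟩ : ∃ u : Fin n → ℝ, u = Function.update (w y) j (τ y) := ⟨_, rfl⟩
    obtain ⟨v, hv⟩ : ∃ v : Fin n → ℝ,
        v = fun i => ((Function.update y j t i : ℤ) : ℝ) / P := ⟨_, rfl⟩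
    have huv : ∀ i, |v i - u i| ≤ lam / W := fun i => by
      by_cases hi : i = j
      · subst hi; simpa [hu, hv] using htτ
      · simp only [hu, hv, hw, Function.update_of_ne hi, sub_self, abs_zero]
        positivity
    have hu1 : ∀ i, |u i| ≤ 3 / 4 := fun i => by
      have := abs_sub_abs_le_abs_sub (u i) (z i)
      have := hzb i
      by_cases hi : i = j
      · subst hi
        have h := hτb y hy
        simp only [hu, Function.update_self] at this ⊢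
        linarith [abs_sub_abs_le_abs_sub (τ y) (z i), hzb i]
      · have h := hwz y hy i
        simp only [hu, Function.update_of_ne hi] at this ⊢
        linarith [abs_sub_abs_le_abs_sub (w y i) (z i), hzb i]
    have hv1 : ∀ i, |v i| ≤ 1 := fun i => by
      linarith [abs_sub_abs_le_abs_sub (v i) (u i), huv i, hu1 i]
    rw [hV, mem_filter]
    refine ⟨mem_cbox.2 fun i => ?_, ?_⟩
    · have h := hv1 i
      rw [hv, abs_div, Nat.abs_cast, div_le_one hP0] at h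
      exact_mod_cast h
    have hFv : aeval (fun i => ((Function.update y j t i : ℤ) : ℝ)) F =
        (P : ℝ) ^ (m + 2) * aeval v F := by
      rw [← aeval_smul F hF]
      congr 2
      funext i
      rw [Pi.smul_apply, hv, smul_eq_mul, mul_div_cancel₀ _ hP0.ne']
    rw [← aeval_intCast, hFv, abs_mul, abs_of_pos (by positivity), div_eq_mul_one_div]
    refine mul_le_mul_of_nonneg_left ?_ (by positivity)
    have h := abs_aeval_sub_le F hF v u one_pos hv1 (fun i => (hu1 i).trans (by norm_num)) huv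
    rw [hu, hτ y hy, sub_zero, one_pow, mul_one] at h
    refine h.trans ?_
    rw [hlam, hD, div_div, mul_one_div, div_le_div_iff₀ (by positivity) (by positivity), one_mul]
    have h1 : 0 ≤ ((m + 1 + 1 : ℕ) : ℝ) * formSize F := by positivity
    nlinarith
  have hinj : Set.InjOn (fun yt : Σ _ : Fin n → ℤ, ℤ => Function.update yt.1 j yt.2)
      (Y.sigma S : Set (Σ _ : Fin n → ℤ, ℤ)) := by
    rintro ⟨y, t⟩ h ⟨y', t'⟩ h' e
    simp only [mem_coe, mem_sigma, hY, Fintype.mem_piFinset] at h h'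
    simp only at e
    have et : t = t' := by simpa using congrFun e j
    have ey : y = y' := funext fun i => by
      by_cases hi : i = j
      · subst hi
        have a1 := h.1 i
        have a2 := h'.1 i
        rw [if_pos rfl, mem_singleton] at a1 a2
        rw [a1, a2]
      · simpa [hi] using congrFun e i
    rw [et, ey]
  refine le_trans ?_ (Nat.cast_le.2 (card_le_card_of_injOn _ hmaps hinj))
  rw [card_sigma, Nat.cast_sum]
  refine le_trans ?_ (card_nsmul_le_sum _ _ _ fun y _ => hScard y)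
  rw [nsmul_eq_mul]
  refine le_trans (le_of_eq ?_) (mul_le_mul_of_nonneg_right hYcard (by positivity))
  have hn : (P : ℝ) ^ n = (P : ℝ) ^ (n - 1) * P := by
    rw [← pow_succ, Nat.sub_add_cancel (j.pos)]
  rw [hn, mul_pow]
  ring

/-- **The singular integral.** -/
theorem exists_arc_ge {m s : ℕ} (hF : F.IsHomogeneous (m + 2)) (hs : SingularDimLE F s)
    (hn : s + (m + 1) * 2 ^ (m + 2) < n) {z : Fin n → ℝ} (hz : aeval z F = 0)
    (hzb : ∀ i, |z i| ≤ 1 / 2) {j : Fin n} (hj : aeval z (pderiv j F) ≠ 0) :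
    ∃ η C : ℝ, 0 < η ∧ 0 < C ∧ ∃ K : ℕ, ∀ P W : ℕ, 1 ≤ W → K * W ≤ P → W ^ 2 ≤ P →
      η * (P : ℝ) ^ (n + 1) - C * (1 + Real.log P) ^ (n + 1) * (P : ℝ) ^ (n + 1) / W ≤
        (∑ o ∈ Finset.Icc (-((W * P + 1 : ℕ) : ℤ)) (W * P + 1 : ℕ),
          formSum F P ((o : ℝ) / ((P ^ (m + 3) : ℕ) : ℝ))).re := by
  classical
  obtain ⟨η, hη, K, hsmall⟩ := exists_small_values_form F hF hz hzb hj
  obtain ⟨C₁, hC₁, hpoint⟩ := exists_pointwise F hF hs hn
  refine ⟨(1 / 100) * (η / 24), 20 * C₁, by positivity, by positivity, 24 * K + 9,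
    fun P W hW hKP hW2 => ?_⟩
  have hP8 : 9 ≤ P := le_trans (by nlinarith) hKP
  have hP : 1 ≤ P := by omega
  have hP0 : (1 : ℝ) ≤ P := by exact_mod_cast hP
  have hW0 : (1 : ℝ) ≤ W := by exact_mod_cast hW
  obtain ⟨H, hH⟩ : ∃ H, H = W * P + 1 := ⟨_, rfl⟩
  rw [← hH]
  have hHW : (H : ℝ) + 1 ≤ 3 * (W * P) := by
    have : (1 : ℝ) ≤ (W : ℝ) * P := one_le_mul_of_one_le_of_one_le hW0 hP0
    rw [hH]; push_cast; linarith
  have hHW' : (W : ℝ) * P ≤ (H : ℝ) + 1 := by rw [hH]; push_cast; linarith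
  obtain ⟨M, hM⟩ : ∃ M : ℝ, M = ((P ^ (m + 3) : ℕ) : ℝ) := ⟨_, rfl⟩
  rw [← hM]
  have hM' : M = (P : ℝ) ^ (m + 3) := by rw [hM]; push_cast; rfl
  have hM0 : 0 < M := by rw [hM']; positivity
  have hL : (1 : ℝ) ≤ 1 + Real.log P := by linarith [Real.log_nonneg hP0]
  -- Fejér
  obtain ⟨Fej, hFej⟩ : ∃ Fej : (Fin n → ℤ) → ℝ, Fej = fun x =>
      ‖∑ k ∈ Icc (0 : ℤ) H, eAdd ((k : ℝ) * (((eval x F : ℤ) : ℝ) / M))‖ ^ 2 := ⟨_, rfl⟩
  have hid : (((H : ℤ) + 1 : ℤ) : ℂ) *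
      (∑ o ∈ Finset.Icc (-(H : ℤ)) H, formSum F P ((o : ℝ) / M)) =
      ((∑ x ∈ cbox n P, Fej x : ℝ) : ℂ) +
      ∑ o ∈ Icc (-(H : ℤ)) H, ((|o| : ℤ) : ℂ) * formSum F P ((o : ℝ) / M) := by
    rw [Complex.ofReal_sum, sum_congr rfl fun x _ => (by rw [hFej, fejer_eq] :
      ((Fej x : ℝ) : ℂ) = ∑ o ∈ Icc (-(H : ℤ)) H, (((H : ℤ) + 1 - |o| : ℤ) : ℂ) *
        eAdd ((o : ℝ) * (((eval x F : ℤ) : ℝ) / M))), sum_comm, ← sum_add_distrib,
      mul_sum]
    refine sum_congr rfl fun o _ => ?_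
    rw [← mul_sum, show ∑ x ∈ cbox n P, eAdd ((o : ℝ) * (((eval x F : ℤ) : ℝ) / M)) =
      formSum F P ((o : ℝ) / M) from
        sum_congr rfl fun x _ => by rw [mul_div_assoc', div_mul_eq_mul_div]]
    push_cast
    ring
  have hre := congrArg Complex.re hid
  rw [Complex.add_re, Complex.ofReal_re, Complex.re_sum, Complex.mul_re, Complex.intCast_re,
    Complex.intCast_im, zero_mul, sub_zero] at hre
  -- the small values
  have hlow : (1 / 100) * ((H : ℝ) + 1) ^ 2 * (η * (P : ℝ) ^ n / W) ≤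
      ∑ x ∈ cbox n P, Fej x := by
    refine le_trans (mul_le_mul_of_nonneg_left (hsmall P W hW (le_trans (by nlinarith) hKP))
      (by positivity)) ?_
    refine le_trans ?_ (sum_le_sum_of_subset_of_nonneg (filter_subset
      (fun x => |((eval x F : ℤ) : ℝ)| ≤ (P : ℝ) ^ (m + 2) / (24 * W)) _)
      fun x _ _ => by rw [hFej]; positivity)
    refine le_trans (le_of_eq (mul_comm _ _)) ?_
    rw [← nsmul_eq_mul]
    refine card_nsmul_le_sum _ _ _ fun x hx => ?_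
    have hx2 := (mem_filter.1 hx).2
    obtain ⟨t, ht⟩ : ∃ t, t = ((eval x F : ℤ) : ℝ) / M := ⟨_, rfl⟩
    have hb : ∀ k ∈ Icc (0 : ℤ) H, ‖eAdd ((k : ℝ) * t) - 1‖ ≤ 9 / 10 := by
      intro k hk
      obtain ⟨h1, h2⟩ := mem_Icc.1 hk
      refine (norm_eAdd_sub_one_le _).trans ?_
      have h3 : |(k : ℝ)| ≤ 3 * ((W : ℝ) * P) := by
        rw [abs_of_nonneg (by exact_mod_cast h1)]
        refine le_trans (show (k : ℝ) ≤ H by exact_mod_cast h2) ?_
        linarith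
      have h4 : |(k : ℝ) * t| ≤ 1 / 8 := by
        rw [abs_mul, ht, abs_div, abs_of_pos hM0, ← mul_div_assoc, div_le_iff₀ hM0]
        refine (mul_le_mul h3 hx2 (abs_nonneg _) (by positivity)).trans (le_of_eq ?_)
        rw [hM']
        field_simp
        ring
      have := Real.pi_lt_d2
      have := Real.pi_pos
      nlinarith [abs_nonneg ((k : ℝ) * t)]
    have hc' : (((Icc (0 : ℤ) H).card : ℕ) : ℂ) = ((H + 1 : ℕ) : ℂ) := by
      rw [Int.card_Icc]; congr 1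
    have h5 : ((H : ℝ) + 1) / 10 ≤ ‖∑ k ∈ Icc (0 : ℤ) H, eAdd ((k : ℝ) * t)‖ := by
      have h6 : ‖∑ k ∈ Icc (0 : ℤ) H, (eAdd ((k : ℝ) * t) - 1)‖ ≤ ((H : ℝ) + 1) * (9 / 10) := by
        refine (norm_sum_le _ _).trans ((sum_le_card_nsmul _ _ _ hb).trans (le_of_eq ?_))
        rw [nsmul_eq_mul, Int.card_Icc, show ((H : ℤ) + 1 - 0).toNat = H + 1 by omega]
        push_cast; rfl
      rw [sum_sub_distrib, sum_const, nsmul_one, hc', norm_sub_rev] at h6
      have h7 := (norm_sub_norm_le _ _).trans h6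
      rw [Complex.norm_natCast] at h7
      push_cast at h7
      linarith
    rw [hFej]
    dsimp only
    rw [← ht]
    calc 1 / 100 * ((H : ℝ) + 1) ^ 2 = (((H : ℝ) + 1) / 10) ^ 2 := by ring
      _ ≤ _ := pow_le_pow_left₀ (by positivity) h5 2
  -- the tail
  have htail : ∀ o ∈ (Icc (-(H : ℤ)) H).filter (fun o => o ≠ 0),
      |((((|o| : ℤ) : ℂ) * formSum F P ((o : ℝ) / M))).re| ≤
        C₁ * (1 + Real.log P) ^ n * (P : ℝ) ^ (n + 2) * (1 / |(o : ℝ)|) := by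
    intro o ho
    obtain ⟨ho1, ho0⟩ := mem_filter.1 ho
    refine (Complex.abs_re_le_norm _).trans ?_
    rw [norm_mul, Complex.norm_intCast, Int.cast_abs, abs_abs]
    obtain ⟨Φ, hΦdef⟩ : ∃ Φ, Φ = max ((1 : ℕ) : ℝ)
        (((1 : ℕ) : ℝ) * (P : ℝ) ^ (m + 2) * |(o : ℝ) / M|) := ⟨_, rfl⟩
    have ho' : 0 < |(o : ℝ)| := abs_pos.2 (Int.cast_ne_zero.2 ho0)
    have hoP : (P : ℝ) ^ (m + 2) * |(o : ℝ) / M| = |(o : ℝ)| / P := by
      rw [abs_div, abs_of_pos hM0, hM']; field_simp; ring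
    have hoH : |(o : ℝ)| ≤ H := by
      rw [← Int.cast_abs]
      exact_mod_cast abs_le.2 (mem_Icc.1 ho1)
    have hΦ1 : Φ ≤ 3 * W := by
      rw [hΦdef, Nat.cast_one, one_mul, hoP]
      refine max_le (by linarith) ?_
      rw [div_le_iff₀ (by linarith)]
      linarith
    have hΦ0 : |(o : ℝ)| / P ≤ Φ := by
      rw [hΦdef, Nat.cast_one, one_mul, hoP]; exact le_max_right _ _
    have hΦ2 : Φ ^ 2 ≤ (P : ℝ) ^ (m + 2) := by
      refine (pow_le_pow_left₀ (le_trans (by positivity) hΦ0) hΦ1 2).trans ?_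
      have : ((W ^ 2 : ℕ) : ℝ) ≤ P := Nat.cast_le.2 hW2
      push_cast at this
      have h9 : (9 : ℝ) ≤ P := by exact_mod_cast hP8
      calc (3 * (W : ℝ)) ^ 2 ≤ (P : ℝ) ^ 2 := by nlinarith
        _ ≤ _ := pow_le_pow_right₀ hP0 (by omega)
    have hp := hpoint P 1 0 ((o : ℝ) / M) Φ hP le_rfl isCoprime_one_right hΦdef hΦ2
    rw [Int.cast_zero, zero_div, zero_add] at hp
    have hΦe : Φ ^ 2 ≤ Φ ^ (2 + savingExp m) := by
      rw [← Real.rpow_natCast]
      refine Real.rpow_le_rpow_of_exponent_le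
        (by rw [hΦdef, Nat.cast_one]; exact le_max_left _ _) ?_
      push_cast
      linarith [savingExp_pos m]
    have hp' := le_trans (mul_le_mul_of_nonneg_left
      ((pow_le_pow_left₀ (by positivity) hΦ0 2).trans hΦe)
      (norm_nonneg (formSum F P ((o : ℝ) / M)))) hp
    rw [div_pow, mul_div_assoc', div_le_iff₀ (by positivity)] at hp'
    rw [show C₁ * (1 + Real.log P) ^ n * (P : ℝ) ^ (n + 2) * (1 / |(o : ℝ)|) =
      C₁ * (1 + Real.log P) ^ n * (P : ℝ) ^ n * (P : ℝ) ^ 2 / |(o : ℝ)| by ring,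
      le_div_iff₀ ho']
    linarith
  have hsum : |∑ o ∈ Icc (-(H : ℤ)) H,
      (((|o| : ℤ) : ℂ) * formSum F P ((o : ℝ) / M)).re| ≤
        20 * C₁ * (1 + Real.log P) ^ (n + 1) * (P : ℝ) ^ (n + 2) := by
    rw [← sum_filter_of_ne (p := fun o : ℤ => o ≠ 0) fun o _ h h0 => h (by simp [h0])]
    refine (abs_sum_le_sum_abs _ _).trans ((sum_le_sum htail).trans ?_)
    rw [← mul_sum]
    have hlog : Real.log H ≤ 9 * (1 + Real.log P) - 1 := by
      have hHP : H ≤ P ^ 3 := by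
        rw [hH]
        calc W * P + 1 ≤ P * P + P * P := by
              have : W ≤ P := (Nat.le_self_pow two_ne_zero W).trans hW2
              exact Nat.add_le_add (Nat.mul_le_mul_right P this) (Nat.mul_pos (by omega) (by omega))
          _ ≤ P * (P * P) := by rw [← two_mul]; exact Nat.mul_le_mul_right _ (by omega)
          _ = _ := by ring
      have h1 := Real.log_le_log (by rw [hH]; positivity) (Nat.cast_le (α := ℝ).2 hHP)
      rw [Nat.cast_pow, Real.log_pow] at h1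
      push_cast at h1
      linarith [Real.log_nonneg hP0]
    calc C₁ * (1 + Real.log P) ^ n * (P : ℝ) ^ (n + 2) *
          ∑ o ∈ (Icc (-(H : ℤ)) H).filter (fun o => o ≠ 0), 1 / |(o : ℝ)|
        ≤ C₁ * (1 + Real.log P) ^ n * (P : ℝ) ^ (n + 2) * (20 * (1 + Real.log P)) :=
          mul_le_mul_of_nonneg_left ((sum_inv_abs_le H).trans (by linarith [Real.log_nonneg hP0]))
            (by positivity)
      _ = _ := by ring
  have hH1 : (0 : ℝ) < (H : ℝ) + 1 := by positivity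
  rw [← mul_le_mul_iff_of_pos_left hH1]
  push_cast at hre
  rw [hre, mul_sub]
  have h1 : ((H : ℝ) + 1) * (20 * C₁ * (1 + Real.log P) ^ (n + 1) * (P : ℝ) ^ (n + 1) / W) ≥
      20 * C₁ * (1 + Real.log P) ^ (n + 1) * (P : ℝ) ^ (n + 2) := by
    rw [ge_iff_le, ← mul_div_assoc, le_div_iff₀ (by linarith)]
    calc 20 * C₁ * (1 + Real.log P) ^ (n + 1) * (P : ℝ) ^ (n + 2) * W
        = ((W : ℝ) * P) * (20 * C₁ * (1 + Real.log P) ^ (n + 1) * (P : ℝ) ^ (n + 1)) := by ring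
      _ ≤ _ := mul_le_mul_of_nonneg_right hHW' (by positivity)
  have h2 : ((H : ℝ) + 1) * (1 / 100 * (η / 24) * (P : ℝ) ^ (n + 1)) ≤
      1 / 100 * ((H : ℝ) + 1) ^ 2 * (η * (P : ℝ) ^ n / W) := by
    calc ((H : ℝ) + 1) * (1 / 100 * (η / 24) * (P : ℝ) ^ (n + 1))
        ≤ ((H : ℝ) + 1) * (1 / 100 * η * (P : ℝ) ^ (n + 1)) := by
          gcongr
          linarith
      _ = 1 / 100 * ((H : ℝ) + 1) * (W * P) * (η * (P : ℝ) ^ n / W) := by field_simp; ring
      _ ≤ _ := by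
          rw [sq, ← mul_assoc (1 / 100 : ℝ) ((H : ℝ) + 1)]
          gcongr
  have := (abs_le.1 hsum).1
  linarith

/-- **The singular integral is positive.** -/
theorem singularIntegral_pos {m s : ℕ} (hF : F.IsHomogeneous (m + 2)) (hs : SingularDimLE F s)
    (hn : s + (m + 1) * 2 ^ (m + 2) < n) {z : Fin n → ℝ} (hz : aeval z F = 0)
    (hzb : ∀ i, |z i| ≤ 1 / 2) {j : Fin n} (hj : aeval z (pderiv j F) ≠ 0) :
    0 < singularIntegral F := by
  obtain ⟨η, C₁, hη, hC₁, K, hlow⟩ := exists_arc_ge F hF hs hn hz hzb hj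
  obtain ⟨C₂, hC₂, harc⟩ := exists_arc_sum F hF hs hn
  obtain ⟨L₀, hL₀, hlog⟩ := exists_log_le (δ := 1 / (6 * ((n : ℝ) + 1))) (by positivity)
  obtain ⟨B, hB⟩ : ∃ B : ℝ, B = C₁ * L₀ ^ (n + 1) + 2 * C₂ := ⟨_, rfl⟩
  obtain ⟨W, hW⟩ : ∃ W : ℕ, W = ⌈(B / η) ^ 2⌉₊ + K + 1 := ⟨_, rfl⟩
  have hW1 : 1 ≤ W := by omega
  have hW0 : (1 : ℝ) ≤ W := by exact_mod_cast hW1
  have hP1 : 1 ≤ W ^ 3 := Nat.one_le_pow _ _ hW1
  have hKW : K * W ≤ W ^ 3 := by
    calc K * W ≤ W * W := Nat.mul_le_mul_right _ (by omega)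
      _ = W ^ 2 := (sq W).symm
      _ ≤ W ^ 3 := Nat.pow_le_pow_right hW1 (by norm_num)
  have h1 := hlow (W ^ 3) W hW1 hKW (Nat.pow_le_pow_right hW1 (by norm_num))
  have h2 := (Complex.abs_re_le_norm _).trans (harc (W ^ 3) W hP1 hW1)
  obtain ⟨P, hP⟩ : ∃ P : ℝ, P = ((W ^ 3 : ℕ) : ℝ) := ⟨_, rfl⟩
  rw [Complex.sub_re, ← Complex.ofReal_natCast, ← Complex.ofReal_pow, ← Complex.ofReal_mul,
    Complex.ofReal_re, ← hP] at h2
  rw [← hP] at h1
  have hP' : P = (W : ℝ) ^ 3 := by rw [hP]; push_cast; rfl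
  have hP0 : 1 ≤ P := hP' ▸ one_le_pow₀ hW0
  have hL : (1 + Real.log P) ^ (n + 1) ≤ L₀ ^ (n + 1) * Real.sqrt W := by
    refine (pow_le_pow_left₀ (by linarith [Real.log_nonneg hP0]) (hlog _ hP0) _).trans (le_of_eq ?_)
    rw [mul_pow, hP', ← Real.rpow_natCast (W : ℝ) 3, ← Real.rpow_mul (by linarith),
      ← Real.rpow_natCast (_ ^ _) (n + 1), ← Real.rpow_mul (by linarith), Real.sqrt_eq_rpow]
    congr 2
    push_cast
    field_simp
    ring
  obtain ⟨X, hX⟩ : ∃ X, X = P ^ (n + 1) := ⟨_, rfl⟩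
  have hX0 : 0 < X := hX ▸ by positivity
  rw [← hX] at h1 h2
  have hsq : 1 ≤ Real.sqrt W := Real.one_le_sqrt.2 hW0
  have hlogW : C₁ * (1 + Real.log P) ^ (n + 1) * X / W ≤
      C₁ * L₀ ^ (n + 1) * (X / Real.sqrt W) := by
    refine (div_le_div_of_nonneg_right (mul_le_mul_of_nonneg_right
      (mul_le_mul_of_nonneg_left hL hC₁.le) hX0.le) (by linarith)).trans (le_of_eq ?_)
    field_simp
    rw [Real.sq_sqrt (by linarith)]
  have hXW : X / W ≤ X / Real.sqrt W := by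
    refine div_le_div_of_nonneg_left hX0.le (by linarith) ?_
    exact le_trans (le_mul_of_one_le_right (by linarith) hsq)
      (le_of_eq (Real.mul_self_sqrt (by linarith)))
  have hWn : (W : ℝ) ^ 2 * P ^ n = X / W := by
    rw [eq_div_iff (by linarith), hX, pow_succ P n]
    rw [hP']; ring
  rw [hWn] at h2
  have hbig : B < η * Real.sqrt W := by
    have h3 : (B / η) ^ 2 < (W : ℝ) := by
      have := Nat.le_ceil ((B / η) ^ 2)
      rw [hW]; push_cast
      linarith [(Nat.cast_nonneg K : (0 : ℝ) ≤ K)]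
    have h4 : B / η < Real.sqrt W := by
      have h0 : 0 ≤ B / η := by rw [hB]; positivity
      exact (Real.lt_sqrt h0).2 h3
    rw [div_lt_iff₀ hη] at h4
    linarith
  have h3 : C₂ * (X / W + X / W) ≤ 2 * C₂ * (X / Real.sqrt W) := by
    nlinarith
  have h4 := (abs_le.1 h2).2
  have h5 : B * (X / Real.sqrt W) < η * X := by
    rw [← mul_div_assoc, div_lt_iff₀ (by linarith)]
    nlinarith
  rw [hB] at h5
  by_contra hneg
  rw [not_lt] at hneg
  have := mul_nonpos_of_nonneg_of_nonpos hX0.le hneg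
  linarith

end FA.FormsManyVariables
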