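import Fermat.Agent.CubicForms.Complete
import Fermat.Agent.CubicForms.Weyl
import Fermat.Agent.FormsManyVariables.Fibre
import Fermat.Agent.WaringAsymptotic.Weyl

/-!
# Weyl's inequality for forms in many variables

For a form of degree `k + 1` the power `2 ^ k` of the exponential sum is bounded through `k`
differences by the number of `k`-tuples of size `R` at which every multilinear form of the gradient,
times `α`, is near an integer. Either this makes the sum small or `α` has an approximation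
`a / q` with `q = O (R ^ k)` and `|q α - a| ≤ R ^ k / P ^ (k + 1)`.
-/

set_option autoImplicit false

noncomputable section

namespace FA.FormsManyVariables

open Finset FA.ThreePrimes FA.CubicForms

variable {n : ℕ}

theorem sum_piFinset_slot {κ β M : Type*} [Fintype κ] [DecidableEq κ] [DecidableEq β] [Zero β]
    [AddCommMonoid M] (S : κ → Finset β) (i : κ) (f : (κ → β) → M) :
    ∑ h ∈ Fintype.piFinset S, f h = ∑ t ∈ Fintype.piFinset (Function.update S i {0}),
      ∑ g ∈ S i, f (Function.update t i g) := by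
  rw [← sum_product' (f := fun t g => f (Function.update t i g))]
  refine sum_nbij' (fun h => (Function.update h i 0, h i)) (fun z => Function.update z.1 i z.2)
    (fun h hh => ?_) (fun z hz => ?_) (fun h _ => by simp) (fun z hz => ?_) fun h _ => by simp
  · refine mem_product.2 ⟨Fintype.mem_piFinset.2 fun l => ?_, Fintype.mem_piFinset.1 hh i⟩
    by_cases hl : l = i
    · subst hl; simp
    · simpa [hl] using Fintype.mem_piFinset.1 hh l
  · obtain ⟨h1, h2⟩ := mem_product.1 hz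
    refine Fintype.mem_piFinset.2 fun l => ?_
    by_cases hl : l = i
    · subst hl; simpa using h2
    · simpa [hl] using Fintype.mem_piFinset.1 h1 l
  · obtain ⟨h1, -⟩ := mem_product.1 hz
    have hi : z.1 i = 0 := by simpa using Fintype.mem_piFinset.1 h1 i
    simp [← hi]

/-- The exponential sum of a form. -/
def formSum (F : MvPolynomial (Fin n) ℤ) (P : ℕ) (α : ℝ) : ℂ :=
  ∑ x ∈ cbox n P, eAdd (α * (MvPolynomial.eval x F : ℤ))

/-- **Differencing.** -/
theorem norm_pow_le_of_itDiff : ∀ (j : ℕ) (φ : (Fin n → ℤ) → ℤ) (α : ℝ) {P : ℕ}, 1 ≤ P →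
    ∀ K : (Fin j → Fin n → ℤ) → ℝ,
      (∀ h a b, (∀ i, b i - a i ≤ 2 * (P : ℤ)) →
        ‖∑ x ∈ ibox a b, eAdd (α * (itDiff h φ x : ℤ))‖ ≤ K h) →
      ∀ a b : Fin n → ℤ, (∀ i, b i - a i ≤ 2 * (P : ℤ)) →
        ‖∑ x ∈ ibox a b, eAdd (α * (φ x : ℤ))‖ ^ 2 ^ j ≤ ((5 * (P : ℝ)) ^ n) ^ (2 ^ j - (j + 1)) *
          ∑ h ∈ Fintype.piFinset fun _ : Fin j => cbox n (2 * P), K h := by
  intro j
  induction j with
  | zero =>
    intro φ α P hP K hK a b hab
    rw [pow_zero, pow_one,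
      show Fintype.piFinset (fun _ : Fin 0 => cbox n (2 * P)) = {Fin.elim0} from
      eq_singleton_iff_unique_mem.2 ⟨Fintype.mem_piFinset.2 fun i => i.elim0,
        fun h _ => Subsingleton.elim _ _⟩, sum_singleton]
    simpa [itDiff] using hK Fin.elim0 a b hab
  | succ j ih =>
    intro φ α P hP K hK a b hab
    obtain ⟨T, hT⟩ : ∃ T : (Fin n → ℤ) → ℝ, T = fun h =>
        ‖∑ x ∈ ibox (fun i => max (a i) (a i - h i))
        (fun i => min (b i) (b i - h i)), eAdd (α * (fwdDiff h φ x : ℤ))‖ := ⟨_, rfl⟩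
    have hsq : ‖∑ x ∈ ibox a b, eAdd (α * (φ x : ℤ))‖ ^ 2 ≤ ∑ h ∈ cbox n (2 * P), T h := by
      refine (norm_sq_ibox_le a b hab fun x => α * (φ x : ℤ)).trans (le_of_eq ?_)
      simp only [hT, fwdDiff, Int.cast_sub, mul_sub]
    have hP1 : (1 : ℝ) ≤ P := by exact_mod_cast hP
    obtain ⟨M, hM⟩ : ∃ M, 2 ^ j = M + 1 := ⟨2 ^ j - 1, by
      have := Nat.two_pow_pos j; omega⟩
    have hjM : j ≤ M := by
      have := Nat.lt_two_pow_self (n := j); omega
    calc ‖∑ x ∈ ibox a b, eAdd (α * (φ x : ℤ))‖ ^ 2 ^ (j + 1)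
        = (‖∑ x ∈ ibox a b, eAdd (α * (φ x : ℤ))‖ ^ 2) ^ (M + 1) := by
          rw [← pow_mul, ← hM, pow_succ']
      _ ≤ (∑ h ∈ cbox n (2 * P), T h) ^ (M + 1) := pow_le_pow_left₀ (sq_nonneg _) hsq _
      _ ≤ ((cbox n (2 * P)).card : ℝ) ^ M * ∑ h ∈ cbox n (2 * P), T h ^ (M + 1) :=
          pow_sum_le_card_mul_sum_pow (fun h _ => by rw [hT]; exact norm_nonneg _) M
      _ ≤ ((5 * (P : ℝ)) ^ n) ^ M * ∑ h ∈ cbox n (2 * P), ((5 * (P : ℝ)) ^ n) ^ (M + 1 - (j + 1)) *
            ∑ y ∈ Fintype.piFinset fun _ : Fin j => cbox n (2 * P), K (Fin.cons h y) := by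
          refine mul_le_mul (pow_le_pow_left₀ (Nat.cast_nonneg _) ?_ M) (sum_le_sum fun h _ => ?_)
            (sum_nonneg fun h _ => pow_nonneg (by rw [hT]; exact norm_nonneg _) _) (by positivity)
          · rw [card_cbox]
            push_cast
            exact pow_le_pow_left₀ (by positivity) (by linarith) n
          · rw [hT, ← hM]
            refine ih (fwdDiff h φ) α hP (fun y => K (Fin.cons h y)) (fun y a' b' hab' => ?_)
              _ _ (fun i => ?_)
            · rw [← itDiff_cons]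
              exact hK _ a' b' hab'
            · have := hab i
              omega
      _ = _ := by
          rw [← mul_sum, ← mul_assoc, ← pow_add, WaringAsymptotic.sum_piFinset_succ,
            show M + (M + 1 - (j + 1)) = 2 ^ (j + 1) - (j + 1 + 1) by rw [pow_succ]; omega]

variable (F : MvPolynomial (Fin n) ℤ)

theorem norm_formSum_pow_le {m : ℕ} (hF : F.totalDegree ≤ m + 2) {P : ℕ} (hP : 1 ≤ P) (α : ℝ) :
    ‖formSum F P α‖ ^ 2 ^ (m + 1) ≤ ((5 * (P : ℝ)) ^ n) ^ (2 ^ (m + 1) - (m + 2)) *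
      ∑ h ∈ Fintype.piFinset fun _ : Fin (m + 1) => cbox n (2 * P),
        ∏ j, clip ((2 * P + 1 : ℕ) : ℝ) (α * (polarJ F h j : ℤ)) := by
  refine norm_pow_le_of_itDiff (m + 1) (fun x => MvPolynomial.eval x F) α hP _
    (fun h a b hab => ?_) _ _ fun i => by omega
  have e : ∀ x : Fin n → ℤ,
      α * ((itDiff h (fun y => MvPolynomial.eval y F) 0 + ∑ j, x j * polarJ F h j : ℤ) : ℝ) =
      α * (itDiff h (fun y => MvPolynomial.eval y F) 0 : ℤ) +
        ∑ j, (x j : ℝ) * (α * (polarJ F h j : ℤ)) := fun x => by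
    push_cast
    rw [mul_add, mul_sum]
    exact congrArg _ (sum_congr rfl fun j _ => by ring)
  rw [sum_congr rfl fun x _ => by rw [itDiff_eq_affine F hF h x, e x]]
  exact norm_linear_ibox_le a b (fun i => by have := hab i; omega) _ _

/-- The matrix of one slot. -/
def slotMatrix {k : ℕ} (α : ℝ) (t : Fin k → Fin n → ℤ) (i : Fin k) :
    Matrix (Fin n) (Fin n) ℝ :=
  Matrix.of fun j l => α * (polarJ F (Function.update t i (Pi.single l 1)) j : ℤ)

theorem slotMatrix_apply {k : ℕ} (α : ℝ) (t : Fin k → Fin n → ℤ) (i : Fin k) (g : Fin n → ℤ)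
    (j : Fin n) : ∑ l, slotMatrix F α t i j l * (g l : ℝ) =
      α * (polarJ F (Function.update t i g) j : ℤ) := by
  rw [polarJ_update F t i g j]
  push_cast
  rw [mul_sum]
  exact sum_congr rfl fun l _ => by simp only [slotMatrix, Matrix.of_apply]; ring

theorem slotMatrix_isSymm {k : ℕ} (hF : F.totalDegree ≤ k + 1) (α : ℝ) (t : Fin k → Fin n → ℤ)
    (i : Fin k) : (slotMatrix F α t i).IsSymm := by
  refine Matrix.IsSymm.ext fun j l => ?_
  simp only [slotMatrix, Matrix.of_apply]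
  rw [polarJ_update_symm F hF]

/-- The tuples of sizes `G` with every multilinear form, times `α`, within `η` of an integer. -/
def nearTuples {k : ℕ} (α : ℝ) (G : Fin k → ℕ) (η : ℝ) : Finset (Fin k → Fin n → ℤ) :=
  (Fintype.piFinset fun i => cbox n (G i)).filter
    fun h => ∀ j, nearDist (α * (polarJ F h j : ℤ)) ≤ η

theorem card_nearTuples_slot {k : ℕ} (α : ℝ) (G : Fin k → ℕ) (η : ℝ) (i : Fin k) :
    (nearTuples F α G η).card =
      ∑ t ∈ Fintype.piFinset (Function.update (fun l => cbox n (G l)) i {0}),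
        (nearSet (slotMatrix F α t i) (G i) η).card := by
  rw [nearTuples, card_filter, sum_piFinset_slot _ i]
  refine sum_congr rfl fun t _ => ?_
  simp only [nearSet, slotMatrix_apply, card_filter, nearDist]
  congr!

theorem card_nearTuples_step {k : ℕ} (hF : F.totalDegree ≤ k + 1) (α : ℝ) (G : Fin k → ℕ) {η : ℝ}
    (i : Fin k) {R : ℕ} (hR : 1 ≤ R) (hRG : R ≤ G i) (hη : 0 < η)
    (hηG : 2 * n * (G i : ℝ) * η < 1) :
    ((nearTuples F α G η).card : ℝ) ≤ (2 * n + 5 : ℝ) ^ n * ((G i : ℝ) / R) ^ n *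
      (nearTuples F α (Function.update G i R) (η * R / G i)).card := by
  rw [card_nearTuples_slot F α G η i, card_nearTuples_slot F α _ (η * R / G i) i,
    Function.update_self, Nat.cast_sum, Nat.cast_sum, mul_sum]
  have e : Function.update (fun l => cbox n (Function.update G i R l)) i {0} =
      Function.update (fun l => cbox n (G l)) i {0} := by
    funext l
    by_cases hl : l = i
    · subst hl; simp
    · simp [hl]
  rw [e]
  exact sum_le_sum fun t _ =>
    card_nearSet_le _ (slotMatrix_isSymm F hF α t i) hR hRG hη hηG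

/-- **Weyl's inequality with Davenport's shrinking.** -/
theorem exists_weyl_shrink {m : ℕ} (hF : F.totalDegree ≤ m + 2) : ∃ C : ℝ, 0 < C ∧
    ∀ (P R : ℕ) (α : ℝ), 1 ≤ R → R ≤ P →
      ‖formSum F P α‖ ^ 2 ^ (m + 1) * ((R : ℝ) ^ n) ^ (m + 1) ≤
        C * ((P : ℝ) ^ n) ^ 2 ^ (m + 1) * (1 + Real.log P) ^ n *
          (nearTuples F α (fun _ : Fin (m + 1) => R)
            ((R : ℝ) ^ (m + 1) / (P : ℝ) ^ (m + 2))).card := by
  obtain ⟨A, hA⟩ : ∃ A : ℕ, A = 8 * n + 5 := ⟨_, rfl⟩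
  have hlA : (0 : ℝ) ≤ Real.log A := Real.log_natCast_nonneg A
  obtain ⟨E, hE⟩ : ∃ E : ℕ, 2 ^ (m + 1) = E + (m + 2) := ⟨2 ^ (m + 1) - (m + 2), by
    have := Nat.lt_two_pow_self (n := m + 1); omega⟩
  refine ⟨((5 : ℝ) ^ n) ^ E * (2 * A * (1 + Real.log A)) ^ n *
    ((2 * n + 5 : ℝ) ^ n * 4 ^ n) ^ (m + 1), by rw [hA] at hlA ⊢; positivity,
    fun P R α hR hRP => ?_⟩
  have hP0 : (1 : ℝ) ≤ P := by exact_mod_cast hR.trans hRP
  have hR0 : (1 : ℝ) ≤ R := by exact_mod_cast hR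
  obtain ⟨θ, hθ⟩ : ∃ θ : ℝ, θ = 1 / ((A * P : ℕ) : ℝ) := ⟨_, rfl⟩
  have hA5 : (5 : ℝ) ≤ A := by exact_mod_cast (show 5 ≤ A by omega)
  have hθ0 : 0 < θ := by rw [hθ]; push_cast; positivity
  have hθn : 2 * (n : ℝ) * ((4 * P : ℕ) : ℝ) * θ < 1 := by
    rw [hθ, mul_one_div, div_lt_one (by push_cast; positivity)]
    push_cast
    rw [hA]
    push_cast
    nlinarith
  obtain ⟨ρ, hρ⟩ : ∃ ρ : ℝ, ρ = (R : ℝ) / ((4 * P : ℕ) : ℝ) := ⟨_, rfl⟩
  have hρ0 : 0 < ρ := by rw [hρ]; push_cast; positivity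
  have hρ1 : ρ ≤ 1 := by
    rw [hρ, div_le_one (by push_cast; positivity)]
    exact_mod_cast (show R ≤ 4 * P by omega)
  obtain ⟨K, hK⟩ : ∃ K : ℝ, K = (2 * n + 5 : ℝ) ^ n * (((4 * P : ℕ) : ℝ) / R) ^ n := ⟨_, rfl⟩
  have hK0 : 0 ≤ K := hK ▸ by positivity
  obtain ⟨N, hN⟩ : ∃ N : ℕ → ℝ, N = fun l => ((nearTuples F α
      (fun i : Fin (m + 1) => if i.1 < l then R else 4 * P) (θ * ρ ^ l)).card : ℝ) := ⟨_, rfl⟩
  have hiter : ∀ l, l ≤ m + 1 → N 0 ≤ K ^ l * N l := by
    intro l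
    induction l with
    | zero => intro _; simp
    | succ l ih =>
      intro hl
      refine (ih (by omega)).trans ?_
      rw [pow_succ, mul_assoc]
      refine mul_le_mul_of_nonneg_left ?_ (by positivity)
      have hstep := card_nearTuples_step F hF α
        (fun i : Fin (m + 1) => if i.1 < l then R else 4 * P)
        (η := θ * ρ ^ l) ⟨l, by omega⟩ hR (by simp only [lt_irrefl, if_false]; omega)
        (by positivity) (by
          simp only [lt_irrefl, if_false]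
          refine lt_of_le_of_lt (mul_le_mul_of_nonneg_left
            (mul_le_of_le_one_right hθ0.le (pow_le_one₀ hρ0.le hρ1)) (by positivity)) hθn)
      simp only [lt_irrefl, if_false] at hstep
      rw [← hK] at hstep
      simp only [hN]
      refine hstep.trans (le_of_eq ?_)
      congr 4
      · funext i
        by_cases hi : i = ⟨l, by omega⟩
        · subst hi; simp
        · have : i.1 ≠ l := fun e => hi (Fin.ext e)
          simp only [Function.update_of_ne hi]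
          split_ifs <;> omega
      · rw [pow_succ, hρ]; ring
  obtain ⟨Nk, hNk⟩ : ∃ Nk : ℝ, Nk = ((nearTuples F α (fun _ : Fin (m + 1) => R)
      ((R : ℝ) ^ (m + 1) / (P : ℝ) ^ (m + 2))).card : ℝ) := ⟨_, rfl⟩
  have hlast : N (m + 1) ≤ Nk := by
    rw [hN, hNk]
    refine Nat.cast_le.2 (card_le_card fun h hh => ?_)
    simp only [nearTuples, mem_filter, Fin.is_lt, if_true] at hh ⊢
    refine ⟨hh.1, fun j => (hh.2 j).trans ?_⟩
    rw [hθ, hρ, div_pow]
    push_cast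
    rw [mul_pow, show 1 / ((A : ℝ) * P) * ((R : ℝ) ^ (m + 1) / (4 ^ (m + 1) * (P : ℝ) ^ (m + 1))) =
      (R : ℝ) ^ (m + 1) / ((A * 4 ^ (m + 1)) * (P : ℝ) ^ (m + 2)) by field_simp; ring]
    refine div_le_div_of_nonneg_left (by positivity) (by positivity)
      (le_mul_of_one_le_left (by positivity) ?_)
    exact one_le_mul_of_one_le_of_one_le (by linarith) (one_le_pow₀ (by norm_num))
  obtain ⟨W, hW⟩ : ∃ W : ℝ, W = (2 * ((A * P : ℕ) : ℝ) * (1 + Real.log (A * P : ℕ))) ^ n :=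
    ⟨_, rfl⟩
  have hW0 : 0 ≤ W := hW ▸ by positivity [Real.log_natCast_nonneg (A * P)]
  have hfirst : ∑ h ∈ Fintype.piFinset fun _ : Fin (m + 1) => cbox n (2 * P),
      ∏ j, clip ((2 * P + 1 : ℕ) : ℝ) (α * (polarJ F h j : ℤ)) ≤ W * N 0 := by
    rw [sum_piFinset_slot _ 0, hN]
    simp only [pow_zero, mul_one, Nat.not_lt_zero, if_false]
    rw [card_nearTuples_slot F α _ θ 0, Nat.cast_sum, mul_sum]
    refine le_trans (sum_le_sum fun t _ => ?_) (sum_le_sum_of_subset_of_nonneg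
      (Fintype.piFinset_subset _ _ fun l => ?_) fun t _ _ => by positivity)
    · have h1 := sum_prod_clip_le (slotMatrix F α t 0) (P := P) (Q₀ := A * P)
        (Nat.mul_le_mul_right P (by omega)) (hR.trans hRP)
      simp only [slotMatrix_apply, ← hθ, ← hW] at h1
      exact h1
    · by_cases hl : l = 0
      · subst hl; simp
      · simp only [Function.update_of_ne hl]
        exact fun g hg => mem_cbox.2 fun i => (mem_cbox.1 hg i).trans
          (by exact_mod_cast (show 2 * P ≤ 4 * P by omega))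
  have hmain : ‖formSum F P α‖ ^ 2 ^ (m + 1) ≤
      ((5 * (P : ℝ)) ^ n) ^ E * (W * (K ^ (m + 1) * Nk)) := by
    have h := norm_formSum_pow_le F hF (hR.trans hRP) α
    rw [show 2 ^ (m + 1) - (m + 2) = E by omega] at h
    exact h.trans (mul_le_mul_of_nonneg_left (hfirst.trans (mul_le_mul_of_nonneg_left
      ((hiter _ le_rfl).trans (mul_le_mul_of_nonneg_left hlast (by positivity))) hW0))
      (by positivity))
  have hWle : W ≤ (2 * A * (1 + Real.log A)) ^ n * (P : ℝ) ^ n * (1 + Real.log P) ^ n := by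
    rw [hW, ← mul_pow, ← mul_pow]
    refine pow_le_pow_left₀ (by positivity [Real.log_natCast_nonneg (A * P)]) ?_ n
    push_cast
    rw [Real.log_mul (by positivity) (by positivity)]
    have h1 : 0 ≤ Real.log P := Real.log_nonneg hP0
    have h2 : 1 + (Real.log A + Real.log P) ≤ (1 + Real.log A) * (1 + Real.log P) := by
      nlinarith
    exact (mul_le_mul_of_nonneg_left h2 (by positivity)).trans (le_of_eq (by ring))
  rw [← hNk]
  have hNk0 : 0 ≤ Nk := hNk ▸ Nat.cast_nonneg _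
  have hKR : K * (R : ℝ) ^ n = (2 * n + 5 : ℝ) ^ n * 4 ^ n * (P : ℝ) ^ n := by
    rw [hK, mul_assoc, ← mul_pow, mul_assoc, ← mul_pow]
    push_cast
    field_simp
    rw [mul_pow, mul_pow]
  calc ‖formSum F P α‖ ^ 2 ^ (m + 1) * ((R : ℝ) ^ n) ^ (m + 1)
      ≤ ((5 * (P : ℝ)) ^ n) ^ E * (W * (K ^ (m + 1) * Nk)) * ((R : ℝ) ^ n) ^ (m + 1) :=
        mul_le_mul_of_nonneg_right hmain (by positivity)
    _ = ((5 : ℝ) ^ n) ^ E * W * ((2 * n + 5 : ℝ) ^ n * 4 ^ n) ^ (m + 1) *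
          (((P : ℝ) ^ n) ^ E * ((P : ℝ) ^ n) ^ (m + 1)) * Nk := by
        rw [mul_pow 5 (P : ℝ), mul_pow ((5 : ℝ) ^ n)]
        have e := congrArg (fun x : ℝ => x ^ (m + 1)) hKR
        simp only [mul_pow] at e ⊢
        linear_combination ((5 : ℝ) ^ n) ^ E * ((P : ℝ) ^ n) ^ E * W * Nk * e
    _ ≤ ((5 : ℝ) ^ n) ^ E * ((2 * A * (1 + Real.log A)) ^ n * (P : ℝ) ^ n * (1 + Real.log P) ^ n) *
          ((2 * n + 5 : ℝ) ^ n * 4 ^ n) ^ (m + 1) *
          (((P : ℝ) ^ n) ^ E * ((P : ℝ) ^ n) ^ (m + 1)) * Nk := by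
        gcongr
    _ = _ := by rw [hE]; ring

/-- **The dichotomy.** -/
theorem exists_dichotomy {m s : ℕ} (hF : F.IsHomogeneous (m + 2)) (hs : SingularDimLE F s) :
    ∃ C : ℝ, 0 < C ∧ ∀ (P R : ℕ) (α : ℝ), 1 ≤ R → R ≤ P →
      ‖formSum F P α‖ ^ 2 ^ (m + 1) * (R : ℝ) ^ n ≤
          C * ((P : ℝ) ^ n) ^ 2 ^ (m + 1) * (1 + Real.log P) ^ n * (R : ℝ) ^ s ∨
        ∃ (q : ℕ) (a : ℤ), 1 ≤ q ∧ (q : ℝ) ≤ C * (R : ℝ) ^ (m + 1) ∧
          |(q : ℝ) * α - a| ≤ (R : ℝ) ^ (m + 1) / (P : ℝ) ^ (m + 2) := by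
  obtain ⟨C₁, hC₁, hweyl⟩ := exists_weyl_shrink F hF.totalDegree_le
  obtain ⟨C₂, hC₂, hzero⟩ := exists_card_polar_zero_le F hF hs
  obtain ⟨T, hT⟩ : ∃ T : ℕ, T = ∑ j : Fin n, ∑ f : Fin (m + 1) → Fin n,
      (polarCoeff F (Fin.snoc f j : Fin (m + 1 + 1) → Fin n)).natAbs := ⟨_, rfl⟩
  refine ⟨C₁ * C₂ + T + 1, by positivity, fun P R α hR hRP => ?_⟩
  obtain ⟨Z, hZ⟩ : ∃ Z, Z = nearTuples F α (fun _ : Fin (m + 1) => R)
      ((R : ℝ) ^ (m + 1) / (P : ℝ) ^ (m + 2)) := ⟨_, rfl⟩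
  by_cases hall : ∀ h ∈ Z, ∀ j, polarJ F h j = 0
  · left
    have hR1 : (1 : ℝ) ≤ R := by exact_mod_cast hR
    have hL : 0 ≤ 1 + Real.log P := by linarith [Real.log_natCast_nonneg P]
    have h1 := hweyl P R α hR hRP
    rw [← hZ] at h1
    have h2 : (Z.card : ℝ) ≤ C₂ * (R : ℝ) ^ (n * m + s) := by
      refine le_trans (Nat.cast_le.2 (card_le_card fun h hh => ?_)) (hzero R hR)
      exact mem_filter.2 ⟨(mem_filter.1 (hZ ▸ hh :)).1, hall h hh⟩
    have h3 := h1.trans (mul_le_mul_of_nonneg_left h2 (by positivity))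
    rw [show ((R : ℝ) ^ n) ^ (m + 1) = (R : ℝ) ^ n * (R : ℝ) ^ (n * m) by
      rw [pow_succ', ← pow_mul], show (R : ℝ) ^ (n * m + s) = (R : ℝ) ^ (n * m) * (R : ℝ) ^ s from
      pow_add _ _ _, ← mul_assoc,
      show C₁ * ((P : ℝ) ^ n) ^ 2 ^ (m + 1) * (1 + Real.log P) ^ n *
        (C₂ * ((R : ℝ) ^ (n * m) * (R : ℝ) ^ s)) =
        C₁ * C₂ * ((P : ℝ) ^ n) ^ 2 ^ (m + 1) * (1 + Real.log P) ^ n * (R : ℝ) ^ s *
          (R : ℝ) ^ (n * m) by ring] at h3
    refine (le_of_mul_le_mul_right h3 (by positivity)).trans ?_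
    gcongr
    linarith [(Nat.cast_nonneg T : (0 : ℝ) ≤ T)]
  · right
    push Not at hall
    obtain ⟨h, hh, j, hj⟩ := hall
    rw [hZ, nearTuples, mem_filter] at hh
    obtain ⟨z, hz⟩ : ∃ z, z = polarJ F h j := ⟨_, rfl⟩
    rw [← hz] at hj
    have hb : z.natAbs ≤ T * R ^ (m + 1) := by
      rw [hz, polarJ, hT, sum_mul]
      refine le_trans (le_trans (Int.natAbs_sum_le _ _) (sum_le_sum fun f _ => ?_))
        ((sum_mul _ _ _).ge.trans (single_le_sum (f := fun j : Fin n => (∑ f : Fin (m + 1) → Fin n,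
          (polarCoeff F (Fin.snoc f j : Fin (m + 1 + 1) → Fin n)).natAbs) * R ^ (m + 1))
          (fun _ _ => Nat.zero_le _) (mem_univ j)))
      rw [Int.natAbs_mul, Int.cast_id, show (∏ i, h i (f i)).natAbs = ∏ i, (h i (f i)).natAbs from
        map_prod Int.natAbsHom _ univ]
      refine Nat.mul_le_mul_left _ ((prod_le_pow_card _ _ R fun i _ => ?_).trans (by simp))
      have := abs_le.1 (mem_cbox.1 (Fintype.mem_piFinset.1 hh.1 i) (f i))
      omega
    refine ⟨z.natAbs, z.sign * round (α * (z : ℝ)), Int.natAbs_pos.2 hj, ?_, ?_⟩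
    · have : ((z.natAbs : ℕ) : ℝ) ≤ ((T * R ^ (m + 1) : ℕ) : ℝ) := Nat.cast_le.2 hb
      push_cast at this
      refine this.trans (mul_le_mul_of_nonneg_right ?_ (by positivity))
      have : 0 ≤ C₁ * C₂ := by positivity
      linarith
    · have h4 := hh.2 j
      rw [← hz, nearDist] at h4
      refine le_trans (le_of_eq ?_) h4
      rcases lt_or_gt_of_ne hj with hlt | hgt
      · rw [Int.sign_eq_neg_one_of_neg hlt, Nat.cast_natAbs, Int.cast_abs,
          abs_of_neg (Int.cast_lt_zero.2 hlt), ← abs_neg (α * (z : ℝ) - _)]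
        push_cast
        ring_nf
      · rw [Int.sign_eq_one_of_pos hgt, Nat.cast_natAbs, Int.cast_abs,
          abs_of_pos (Int.cast_pos.2 hgt)]
        push_cast
        ring_nf

end FA.FormsManyVariables
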